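import Mathlib
import Fermat.Prelude.Def_ModularCurve_LaurentCoeff

/-!
# Linear disjointness of `L` and `K((q))` over `K`, and `F_L ∩ K((q)) = F`
-/

set_option autoImplicit false

namespace Fermat.Agent.H26

open ModularCurve HahnSeries

section

variable {K L : Type*} [Field K] [Field L] [Algebra K L]

/-- coefficientwise embedding `K((q)) → L((q))`. -/
noncomputable abbrev cEmb (K L : Type*) [Field K] [Field L] [Algebra K L] :
    LaurentSeries K →+* LaurentSeries L := coeffMap (algebraMap K L)

lemma coeff_algebraMap_mul (c : L) (z : LaurentSeries L) (n : ℤ) :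
    (algebraMap L (LaurentSeries L) c * z).coeff n = c * z.coeff n := by
  rw [algebraMap_laurentSeries_eq_single, HahnSeries.coeff_single_mul, sub_zero]

lemma coeffMap_algebraMap' {R S : Type*} [Field R] [Field S] (φ : R →+* S) (c : R) :
    coeffMap φ (algebraMap R (LaurentSeries R) c) = algebraMap S (LaurentSeries S) (φ c) := by
  rw [algebraMap_laurentSeries_eq_single, algebraMap_laurentSeries_eq_single, coeffMap_single]

lemma coeffMap_injective {R S : Type*} [CommRing R] [CommRing S] {φ : R →+* S}
    (hφ : Function.Injective φ) : Function.Injective (coeffMap φ) := by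
  intro x y h
  ext n
  exact hφ (congrArg (fun z => z.coeff n) h)

/-- `K`-linearly independent elements of `L` are linearly independent over `K((q))`. -/
theorem sum_eq_zero_imp {I : Type*} {e : I → L} (he : LinearIndependent K e)
    (s : Finset I) (a : I → LaurentSeries K)
    (h : ∑ i ∈ s, algebraMap L (LaurentSeries L) (e i) * cEmb K L (a i) = 0) :
    ∀ i ∈ s, a i = 0 := by
  intro i hi
  ext n
  have h1 := congrArg (fun z => HahnSeries.coeff z n) h
  simp only [HahnSeries.coeff_sum, coeff_algebraMap_mul, coeffMap_coeff,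
    HahnSeries.coeff_zero] at h1
  have h2 : ∑ i ∈ s, (a i).coeff n • e i = 0 := by
    rw [← h1]
    refine Finset.sum_congr rfl fun i _ => ?_
    rw [Algebra.smul_def, mul_comm]
  exact (linearIndependent_iff'.mp he) s (fun i => (a i).coeff n) h2 i hi

variable (F : IntermediateField K (LaurentSeries K))

variable (L) in
/-- The compositum `L · F` inside `L((q))`. -/
noncomputable def extend : IntermediateField L (LaurentSeries L) :=
  IntermediateField.adjoin L (cEmb K L '' (F : Set (LaurentSeries K)))

variable {F}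

lemma cEmb_mem_extend {z : LaurentSeries K} (hz : z ∈ F) : cEmb K L z ∈ extend L F :=
  IntermediateField.subset_adjoin L _ ⟨z, hz, rfl⟩

variable (F) in
/-- `z` has an expansion `∑ e_i a_i` with `a_i ∈ F`. -/
def HasExp {I : Type*} (e : I → L) (z : LaurentSeries L) : Prop :=
  ∃ (s : Finset I) (a : I → LaurentSeries K), (∀ i, a i ∈ F) ∧ (∀ i, i ∉ s → a i = 0) ∧
    z = ∑ i ∈ s, algebraMap L (LaurentSeries L) (e i) * cEmb K L (a i)

lemma HasExp.zero {I : Type*} (e : I → L) : HasExp F e 0 :=
  ⟨∅, 0, fun _ => F.zero_mem, fun _ _ => rfl, by simp⟩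

lemma HasExp.add {I : Type*} {e : I → L} {z w : LaurentSeries L} (hz : HasExp F e z)
    (hw : HasExp F e w) : HasExp F e (z + w) := by
  classical
  obtain ⟨s, a, ha, ha0, rfl⟩ := hz
  obtain ⟨t, b, hb, hb0, rfl⟩ := hw
  refine ⟨s ∪ t, a + b, fun i => F.add_mem (ha i) (hb i), fun i hi => ?_, ?_⟩
  · rw [Finset.mem_union, not_or] at hi
    rw [Pi.add_apply, ha0 i hi.1, hb0 i hi.2, add_zero]
  · rw [Finset.sum_subset (Finset.subset_union_left (s₁ := s) (s₂ := t)) (fun i _ hi => by
      rw [ha0 i hi, map_zero, mul_zero]),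
      Finset.sum_subset (Finset.subset_union_right (s₁ := s) (s₂ := t)) (fun i _ hi => by
      rw [hb0 i hi, map_zero, mul_zero]), ← Finset.sum_add_distrib]
    refine Finset.sum_congr rfl fun i _ => ?_
    rw [Pi.add_apply, map_add, mul_add]

lemma HasExp.sum {I J : Type*} {e : I → L} (s : Finset J) (z : J → LaurentSeries L)
    (hz : ∀ j ∈ s, HasExp F e (z j)) : HasExp F e (∑ j ∈ s, z j) := by
  classical
  induction s using Finset.induction_on with
  | empty => simpa using HasExp.zero e
  | insert j s hj ih =>
    rw [Finset.sum_insert hj]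
    exact (hz j (Finset.mem_insert_self _ _)).add
      (ih fun k hk => hz k (Finset.mem_insert_of_mem hk))

lemma HasExp.const_mul_emb {I : Type*} (e : Module.Basis I K L) (l : L) {b : LaurentSeries K}
    (hb : b ∈ F) : HasExp F e (algebraMap L (LaurentSeries L) l * cEmb K L b) := by
  classical
  refine ⟨(e.repr l).support, fun i => algebraMap K (LaurentSeries K) (e.repr l i) * b,
    fun i => F.mul_mem (F.algebraMap_mem _) hb, fun i hi => ?_, ?_⟩
  · dsimp only
    rw [Finsupp.notMem_support_iff.mp hi, map_zero, zero_mul]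
  · conv_lhs => rw [← e.linearCombination_repr l, Finsupp.linearCombination_apply,
      Finsupp.sum, map_sum, Finset.sum_mul]
    refine Finset.sum_congr rfl fun i _ => ?_
    rw [Algebra.smul_def, map_mul, map_mul, coeffMap_algebraMap']
    ring

lemma HasExp.const_mul {I : Type*} (e : Module.Basis I K L) (l : L) {z : LaurentSeries L}
    (hz : HasExp F e z) : HasExp F e (algebraMap L (LaurentSeries L) l * z) := by
  obtain ⟨s, a, ha, -, rfl⟩ := hz
  rw [Finset.mul_sum]
  refine HasExp.sum s _ fun i _ => ?_
  rw [← mul_assoc, ← map_mul]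
  exact HasExp.const_mul_emb e _ (ha i)

lemma HasExp.emb_mul {I : Type*} (e : Module.Basis I K L) {b : LaurentSeries K} (hb : b ∈ F)
    {z : LaurentSeries L} (hz : HasExp F e z) : HasExp F e (cEmb K L b * z) := by
  obtain ⟨s, a, ha, ha0, rfl⟩ := hz
  refine ⟨s, fun i => b * a i, fun i => F.mul_mem hb (ha i), fun i hi => by
    dsimp only; rw [ha0 i hi, mul_zero], ?_⟩
  rw [Finset.mul_sum]
  refine Finset.sum_congr rfl fun i _ => ?_
  rw [map_mul]
  ring

lemma HasExp.mul {I : Type*} (e : Module.Basis I K L) {z w : LaurentSeries L}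
    (hz : HasExp F e z) (hw : HasExp F e w) : HasExp F e (z * w) := by
  obtain ⟨s, a, ha, -, rfl⟩ := hz
  rw [Finset.sum_mul]
  refine HasExp.sum s _ fun i _ => ?_
  rw [mul_assoc]
  exact HasExp.const_mul e _ (HasExp.emb_mul e (ha i) hw)

/-- Every element of `L[F]` has an expansion. -/
theorem hasExp_of_mem_adjoin {I : Type*} (e : Module.Basis I K L) {z : LaurentSeries L}
    (hz : z ∈ Algebra.adjoin L (cEmb K L '' (F : Set (LaurentSeries K)))) : HasExp F e z := by
  induction hz using Algebra.adjoin_induction with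
  | mem x hx =>
    obtain ⟨b, hb, rfl⟩ := hx
    have := HasExp.const_mul_emb (F := F) e 1 hb
    rwa [map_one, one_mul] at this
  | algebraMap r =>
    have := HasExp.const_mul_emb (F := F) e r F.one_mem
    rwa [map_one, mul_one] at this
  | add x y _ _ hx hy => exact hx.add hy
  | mul x y _ _ hx hy => exact HasExp.mul e hx hy

/-- `F_L ∩ K((q)) = F`. -/
theorem mem_of_cEmb_mem_extend {z : LaurentSeries K} (hz : cEmb K L z ∈ extend L F) : z ∈ F := by
  classical
  rw [extend, IntermediateField.mem_adjoin_iff_div] at hz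
  obtain ⟨r, hr, s, hs, hrs⟩ := hz
  let e := Module.Basis.ofVectorSpace K L
  by_cases hs0 : s = 0
  · rw [hs0, div_zero] at hrs
    have : z = 0 := coeffMap_injective (algebraMap K L).injective (by rw [hrs, map_zero])
    rw [this]
    exact F.zero_mem
  · obtain ⟨S, a, ha, ha0, hr'⟩ := hasExp_of_mem_adjoin (F := F) e hr
    obtain ⟨T, b, hb, hb0, hs'⟩ := hasExp_of_mem_adjoin (F := F) e hs
    have h1 : cEmb K L z * s = r := by rw [hrs]; field_simp
    have h2 : ∑ i ∈ S ∪ T, algebraMap L (LaurentSeries L) (e i) *
        cEmb K L (z * b i - a i) = 0 := by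
      have hS : r = ∑ i ∈ S ∪ T, algebraMap L (LaurentSeries L) (e i) * cEmb K L (a i) := by
        rw [hr']
        exact Finset.sum_subset Finset.subset_union_left (fun i _ hi => by
          rw [ha0 i hi, map_zero, mul_zero])
      have hT : s = ∑ i ∈ S ∪ T, algebraMap L (LaurentSeries L) (e i) * cEmb K L (b i) := by
        rw [hs']
        exact Finset.sum_subset Finset.subset_union_right (fun i _ hi => by
          rw [hb0 i hi, map_zero, mul_zero])
      have h3 : cEmb K L z * s - r = 0 := by rw [h1, sub_self]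
      rw [hS, hT, Finset.mul_sum, ← Finset.sum_sub_distrib] at h3
      rw [← h3]
      refine Finset.sum_congr rfl fun i _ => ?_
      rw [map_sub, map_mul]
      ring
    have h3 := sum_eq_zero_imp e.linearIndependent _ _ h2
    have h4 : ∃ i ∈ T, b i ≠ 0 := by
      by_contra hcon
      push Not at hcon
      apply hs0
      rw [hs']
      refine Finset.sum_eq_zero fun i hi => ?_
      rw [hcon i hi, map_zero, mul_zero]
    obtain ⟨i, hi, hbi⟩ := h4
    have h5 : z * b i = a i := sub_eq_zero.mp (h3 i (Finset.mem_union_right _ hi))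
    have h6 : z = a i / b i := by rw [← h5]; field_simp
    rw [h6]
    exact F.div_mem (ha i) (hb i)

/-- Elements of `F_L` with all coefficients in `K` come from `F`. -/
theorem exists_mem_of_coeff_mem {z : LaurentSeries L} (hz : z ∈ extend L F)
    (hc : ∀ n, z.coeff n ∈ (algebraMap K L).range) : ∃ z₀ ∈ F, cEmb K L z₀ = z := by
  choose c hc using hc
  have hsupp : ∀ n, c n ≠ 0 → n ∈ z.support := by
    intro n hn
    rw [HahnSeries.mem_support, ← hc n]
    exact fun h => hn ((map_eq_zero _).mp h)
  let z₀ : LaurentSeries K := HahnSeries.mk c (z.isPWO_support.mono (fun n hn => hsupp n hn))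
  have h0 : cEmb K L z₀ = z := by
    ext n
    exact hc n
  refine ⟨z₀, mem_of_cEmb_mem_extend (L := L) ?_, h0⟩
  rw [h0]
  exact hz

end

section BaseChange

variable {K L : Type*} [Field K] [Field L] [Algebra K L] [Algebra ℚ K] [Algebra ℚ L]
  (F₀ : IntermediateField ℚ (LaurentSeries ℚ))

lemma cEmb_coeffEmb (x : LaurentSeries ℚ) : cEmb K L (coeffEmb K x) = coeffEmb L x := by
  rw [coeffEmb, coeffEmb, cEmb, coeffMap_coeffMap]
  exact coeffMap_congr (Subsingleton.elim _ _) x

/-- `laurentBaseChange L F₀` is the compositum of `L` and `laurentBaseChange K F₀`. -/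
theorem laurentBaseChange_eq_extend :
    laurentBaseChange L F₀ = extend L (laurentBaseChange K F₀) := by
  apply le_antisymm
  · rw [laurentBaseChange, IntermediateField.adjoin_le_iff]
    rintro _ ⟨x, hx, rfl⟩
    have := cEmb_mem_extend (L := L) (coeffEmb_mem_laurentBaseChange K hx)
    rwa [cEmb_coeffEmb] at this
  · rw [extend, IntermediateField.adjoin_le_iff]
    rintro _ ⟨x, hx, rfl⟩
    rw [SetLike.mem_coe, mem_laurentBaseChange_iff] at hx
    rw [SetLike.mem_coe]
    induction hx using Subfield.closure_induction with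
    | mem y hy =>
      rcases hy with ⟨a, rfl⟩ | ⟨z, hz, rfl⟩
      · rw [coeffMap_algebraMap']
        exact (laurentBaseChange L F₀).algebraMap_mem _
      · have := coeffEmb_mem_laurentBaseChange L hz
        rwa [← cEmb_coeffEmb (K := K) (L := L)] at this
    | one => rw [map_one]; exact one_mem _
    | add x y _ _ hx hy => rw [map_add]; exact add_mem hx hy
    | neg x _ hx => rw [map_neg]; exact neg_mem hx
    | inv x _ hx => rw [map_inv₀]; exact inv_mem hx
    | mul x y _ _ hx hy => rw [map_mul]; exact mul_mem hx hy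

end BaseChange

end Fermat.Agent.H26
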