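import Mathlib
import Fermat.Agent.Igusa.Local
import Fermat.Agent.Descent.LinDisj
import Fermat.Agent.Igusa.Fiber
import Fermat.Agent.H08.Inertia

/-!
# Lattices of Laurent series with `ℓ`-integral coefficients
-/

set_option autoImplicit false

noncomputable section

namespace Fermat.Agent.H26

open ModularCurve HahnSeries Polynomial
open Fermat.Agent.Igusa (Rl CL mem_Rl_iff_norm)

section DVR

variable {ℓ : ℕ} [hℓ : Fact ℓ.Prime]

theorem isUnit_Rl_of_norm {x : Rl ℓ} (h : ‖((x : ℚ) : ℚ_[ℓ])‖ = 1) : IsUnit x := by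
  have hx : (x : ℚ) ≠ 0 := by
    intro h0
    rw [h0] at h
    simp at h
  have hinv : (x : ℚ)⁻¹ ∈ Rl ℓ := by
    rw [mem_Rl_iff_norm]
    push_cast
    rw [norm_inv, h, inv_one]
  exact ⟨⟨x, ⟨_, hinv⟩, Subtype.ext (mul_inv_cancel₀ hx), Subtype.ext (inv_mul_cancel₀ hx)⟩, rfl⟩

/-- `ℤ_(ℓ)` is a discrete valuation ring. -/
instance isDVR_Rl : IsDiscreteValuationRing (Rl ℓ) := by
  apply IsDiscreteValuationRing.ofHasUnitMulPowIrreducibleFactorization
  refine ⟨(ℓ : Rl ℓ), Igusa.prime_Rl.irreducible, fun {x} hx => ?_⟩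
  have hx' : ((x : ℚ) : ℚ_[ℓ]) ≠ 0 := by
    have : (x : ℚ) ≠ 0 := fun h => hx (Subtype.ext h)
    exact_mod_cast this
  have h1 := Padic.norm_eq_zpow_neg_valuation hx'
  have h2 : ‖((x : ℚ) : ℚ_[ℓ])‖ ≤ 1 := mem_Rl_iff_norm.mp x.2
  have h3 : 0 ≤ ((x : ℚ) : ℚ_[ℓ]).valuation := by
    rwa [Padic.norm_le_one_iff_val_nonneg] at h2
  obtain ⟨n, hn⟩ := Int.eq_ofNat_of_zero_le h3
  have hℓ0 : (ℓ : ℚ) ≠ 0 := by exact_mod_cast hℓ.out.ne_zero
  have hℓp : ((ℓ : ℕ) : ℚ_[ℓ]) ≠ 0 := by exact_mod_cast hℓ.out.ne_zero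
  have h4 : ‖(((x : ℚ) / (ℓ : ℚ) ^ n : ℚ) : ℚ_[ℓ])‖ = 1 := by
    push_cast
    rw [norm_div, norm_pow, Padic.norm_p, h1, hn]
    have : (ℓ : ℝ) ≠ 0 := by exact_mod_cast hℓ.out.ne_zero
    simp only [Int.ofNat_eq_natCast, zpow_neg, zpow_natCast, inv_pow]
    field_simp
  have h5 : (x : ℚ) / (ℓ : ℚ) ^ n ∈ Rl ℓ := by
    rw [mem_Rl_iff_norm]
    exact h4.le
  refine ⟨n, (isUnit_Rl_of_norm (x := ⟨_, h5⟩) h4).unit, ?_⟩
  apply Subtype.ext
  change (ℓ : ℚ) ^ n * ((x : ℚ) / (ℓ : ℚ) ^ n) = x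
  field_simp

end DVR

section Finite

variable {K : Type*} [Field K] {ι : Type*}

/-- A finite dimensional space of functions is determined by finitely many values. -/
theorem exists_finset_injective (W : Submodule K (ι → K)) [FiniteDimensional K W] :
    ∃ S : Finset ι, ∀ w ∈ W, (∀ n ∈ S, w n = 0) → w = 0 := by
  classical
  induction hd : Module.finrank K W using Nat.strong_induction_on generalizing W with
  | _ d ih =>
    by_cases hW : W = ⊥
    · refine ⟨∅, fun w hw _ => ?_⟩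
      rw [hW] at hw
      exact (Submodule.mem_bot K).mp hw
    · obtain ⟨w, hw, hw0⟩ := Submodule.exists_mem_ne_zero_of_ne_bot hW
      obtain ⟨n, hn⟩ : ∃ n, w n ≠ 0 := by
        by_contra h
        push Not at h
        exact hw0 (funext h)
      let W' : Submodule K (ι → K) := W ⊓ LinearMap.ker (LinearMap.proj (R := K) (φ := fun _ => K) n)
      have hlt : W' < W := by
        refine lt_of_le_of_ne inf_le_left fun h => hn ?_
        have h1 : w ∈ W' := by rw [h]; exact hw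
        exact LinearMap.mem_ker.mp h1.2
      haveI : FiniteDimensional K W' := Submodule.finiteDimensional_of_le inf_le_left
      obtain ⟨S, hS⟩ := ih _ (by rw [← hd]; exact Submodule.finrank_lt_finrank_of_lt hlt) W' rfl
      refine ⟨insert n S, fun v hv h => hS v ⟨hv, ?_⟩ fun m hm => h m (Finset.mem_insert_of_mem hm)⟩
      exact LinearMap.mem_ker.mpr (h n (Finset.mem_insert_self _ _))

end Finite

section RlA

variable {ℓ : ℕ} [hℓ : Fact ℓ.Prime] {L : Type*} [Field L] [Algebra ℚ L]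
  (A : ValuationSubring L) (hA : A.LiesOverPrime ℓ)

include hA in
/-- `ℤ_(ℓ) ⊆ A`. -/
theorem algebraMap_Rl_mem (x : Rl ℓ) : algebraMap ℚ L x ∈ A := by
  have h1 : (x : ℚ) * ((x : ℚ).den : ℚ) = ((x : ℚ).num : ℚ) := Rat.mul_den_eq_num _
  have h2 := congrArg (algebraMap ℚ L) h1
  rw [map_mul, map_natCast, map_intCast] at h2
  have h3 : A.valuation (((x : ℚ).den : ℕ) : L) = 1 := by
    have := H08.val_intCast_eq_one hℓ.out hA (n := (((x : ℚ).den : ℕ) : ℤ)) (by
      intro h
      exact Igusa.mem_Rl_iff.mp x.2 (by exact_mod_cast h))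
    simpa using this
  rw [← A.valuation_le_one_iff]
  have h4 := congrArg A.valuation h2
  rw [map_mul, h3, mul_one] at h4
  rw [h4, A.valuation_le_one_iff]
  exact intCast_mem A _

include hA in
/-- `ℤ_(ℓ) → A`. -/
def rlToA : Rl ℓ →+* A where
  toFun x := ⟨algebraMap ℚ L x, algebraMap_Rl_mem A hA x⟩
  map_one' := Subtype.ext (by simp)
  map_mul' x y := Subtype.ext (map_mul (algebraMap ℚ L) (x : ℚ) (y : ℚ))
  map_zero' := Subtype.ext (by simp)
  map_add' x y := Subtype.ext (map_add (algebraMap ℚ L) (x : ℚ) (y : ℚ))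

@[simp]
theorem coe_rlToA (x : Rl ℓ) : ((rlToA A hA x : A) : L) = algebraMap ℚ L x := rfl

end RlA

section Indep

variable {ℓ : ℕ} [hℓ : Fact ℓ.Prime] {L : Type*} [Field L] [Algebra ℚ L]
  (A : ValuationSubring L) (hA : A.LiesOverPrime ℓ)

include hA in
/-- If the reductions of the `o_j` are linearly independent over `𝔽_ℓ`, then a combination
with coefficients in `L` is `A`-integral only if the coefficients are. -/
theorem coeff_mem_of_forall_mem {ι : Type*} {d : ℕ} (o : Fin d → ι → Rl ℓ)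
    (ho : LinearIndependent (ZMod ℓ) (fun j : Fin d => fun m : ι => Igusa.rho ℓ (o j m)))
    (a : Fin d → L) (h : ∀ m, ∑ j, a j * algebraMap ℚ L (o j m) ∈ A) (j : Fin d) : a j ∈ A := by
  classical
  by_contra hj
  have hne : (Finset.univ : Finset (Fin d)).Nonempty := ⟨j, Finset.mem_univ j⟩
  obtain ⟨j₀, -, hj₀⟩ := Finset.exists_max_image Finset.univ (fun j => A.valuation (a j)) hne
  have h1 : 1 < A.valuation (a j₀) :=
    lt_of_lt_of_le (not_le.mp (mt (A.valuation_le_one_iff _).mp hj)) (hj₀ j (Finset.mem_univ j))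
  have ha0 : a j₀ ≠ 0 := by
    intro h0
    rw [h0, map_zero] at h1
    exact not_lt_zero' h1
  have hv0 : A.valuation (a j₀) ≠ 0 := (Valuation.ne_zero_iff _).mpr ha0
  have hinv : A.valuation (a j₀)⁻¹ < 1 := by
    rw [map_inv₀]
    exact inv_lt_one_of_one_lt₀ h1
  let b : Fin d → A := fun j => ⟨a j * (a j₀)⁻¹, by
    rw [← A.valuation_le_one_iff, map_mul, map_inv₀]
    exact mul_inv_le_one_of_le₀ (hj₀ j (Finset.mem_univ j)) zero_le'⟩
  have hbj₀ : b j₀ = 1 := Subtype.ext (mul_inv_cancel₀ ha0)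
  have hred : ∀ m, ∑ j, IsLocalRing.residue A (b j) *
      IsLocalRing.residue A (rlToA A hA (o j m)) = 0 := by
    intro m
    simp_rw [← map_mul, ← map_sum]
    rw [IsLocalRing.residue_eq_zero_iff, A.valuation_lt_one_iff]
    have h2 : ((∑ j, b j * rlToA A hA (o j m) : A) : L) =
        (∑ j, a j * algebraMap ℚ L (o j m)) * (a j₀)⁻¹ := by
      push_cast
      rw [Finset.sum_mul]
      refine Finset.sum_congr rfl fun j _ => ?_
      change a j * (a j₀)⁻¹ * algebraMap ℚ L (o j m) = _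
      ring
    rw [h2]
    exact H08.v_mul_lt_one_right ((A.valuation_le_one_iff _).mpr (h m)) hinv
  haveI : CharP (IsLocalRing.ResidueField A) ℓ := by
    have h3 : (ℓ : IsLocalRing.ResidueField A) = 0 := by
      have h4 : IsLocalRing.residue A (ℓ : A) = 0 := by
        rw [IsLocalRing.residue_eq_zero_iff, A.valuation_lt_one_iff]
        simpa using H08.val_prime_lt_one hA
      rwa [map_natCast] at h4
    exact (CharP.charP_iff_prime_eq_zero hℓ.out).mpr h3
  letI : Algebra (ZMod ℓ) (IsLocalRing.ResidueField A) := ZMod.algebra _ ℓ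
  have hcomp : ∀ x : Rl ℓ, IsLocalRing.residue A (rlToA A hA x) =
      algebraMap (ZMod ℓ) (IsLocalRing.ResidueField A) (Igusa.rho ℓ x) := by
    intro x
    exact DFunLike.congr_fun (Igusa.Rl_hom_ext ((IsLocalRing.residue A).comp (rlToA A hA))
      ((algebraMap (ZMod ℓ) (IsLocalRing.ResidueField A)).comp (Igusa.rho ℓ))) x
  obtain ⟨φ, hφ⟩ : ∃ φ : IsLocalRing.ResidueField A →ₗ[ZMod ℓ] ZMod ℓ, φ 1 ≠ 0 := by
    by_contra hcon
    push Not at hcon
    exact one_ne_zero ((Module.forall_dual_apply_eq_zero_iff (ZMod ℓ)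
      (1 : IsLocalRing.ResidueField A)).mp hcon)
  have h5 : ∑ j, φ (IsLocalRing.residue A (b j)) • (fun m : ι => Igusa.rho ℓ (o j m)) = 0 := by
    funext m
    rw [Finset.sum_apply, Pi.zero_apply]
    have h6 := congrArg φ (hred m)
    rw [map_sum, map_zero] at h6
    rw [← h6]
    refine Finset.sum_congr rfl fun j _ => ?_
    rw [hcomp, mul_comm, ← Algebra.smul_def, map_smul, Pi.smul_apply, smul_eq_mul, smul_eq_mul,
      mul_comm]
  have h7 := (Fintype.linearIndependent_iff.mp ho) _ h5 j₀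
  rw [hbj₀, map_one] at h7
  exact hφ h7

end Indep

section Main

variable {ℓ : ℕ} [hℓ : Fact ℓ.Prime]

/-- the coefficients of an element of `CL ℓ`. -/
def cfL (w : CL ℓ) (m : ℤ) : Rl ℓ := ⟨(w : LaurentSeries ℚ).coeff m, w.2 m⟩

/-- **Lattices.** Let `O` be a subring of `ℤ_(ℓ)((q))` which is saturated. Every combination of
elements of `O[1/ℓ]` with coefficients in `L` which is `A`-integral is a combination of elements of
`O` with coefficients in `A`. -/
theorem exists_lattice_expansion {L : Type*} [Field L] [Algebra ℚ L]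
    (A : ValuationSubring L) (hA : A.LiesOverPrime ℓ) (O : Subring (LaurentSeries ℚ))
    (hO : O ≤ CL ℓ) (hZ : ∀ a : Rl ℓ, algebraMap ℚ (LaurentSeries ℚ) a ∈ O)
    (hsat : ∀ y ∈ CL ℓ, algebraMap ℚ (LaurentSeries ℚ) (ℓ : ℚ) * y ∈ O → y ∈ O)
    {n : ℕ} (f : Fin n → L) (y : Fin n → LaurentSeries ℚ)
    (hy : ∀ i, ∃ c : ℚ, c ≠ 0 ∧ algebraMap ℚ (LaurentSeries ℚ) c * y i ∈ O)
    (hz : ∀ m, ∑ i, f i * algebraMap ℚ L ((y i).coeff m) ∈ A) :
    ∃ (d : ℕ) (a : Fin d → A) (o : Fin d → LaurentSeries ℚ), (∀ j, o j ∈ O) ∧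
      ∑ i, algebraMap L (LaurentSeries L) (f i) * cEmb ℚ L (y i) =
        ∑ j, algebraMap L (LaurentSeries L) (a j) * cEmb ℚ L (o j) := by
  classical
  let W : Submodule ℚ (LaurentSeries ℚ) := Submodule.span ℚ (Set.range y)
  haveI : FiniteDimensional ℚ W := FiniteDimensional.span_of_finite ℚ (Set.finite_range y)
  have hsm : ∀ (c : ℚ) (w : LaurentSeries ℚ), algebraMap ℚ (LaurentSeries ℚ) c * w = c • w := by
    intro c w
    ext m
    rw [coeff_algebraMap_mul]
    rfl
  -- coefficients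
  let cf : LaurentSeries ℚ →ₗ[ℚ] (ℤ → ℚ) :=
    { toFun := fun w m => w.coeff m
      map_add' := fun _ _ => rfl
      map_smul' := fun c w => by
        funext m
        rw [← hsm, coeff_algebraMap_mul]
        rfl }
  haveI : FiniteDimensional ℚ (W.map cf) := inferInstance
  obtain ⟨T, hT⟩ := exists_finset_injective (W.map cf)
  have hT' : ∀ w ∈ W, (∀ m ∈ T, w.coeff m = 0) → w = 0 := by
    intro w hw h
    have h1 := hT (cf w) ⟨w, hw, rfl⟩ h
    ext m
    exact congrFun h1 m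
  -- the lattice
  let P : Submodule (Rl ℓ) (LaurentSeries ℚ) :=
    { carrier := {w | w ∈ O ∧ w ∈ W}
      zero_mem' := ⟨O.zero_mem, W.zero_mem⟩
      add_mem' := fun ha hb => ⟨O.add_mem ha.1 hb.1, W.add_mem ha.2 hb.2⟩
      smul_mem' := fun c w hw => by
        have h1 : c • w = (c : ℚ) • w := rfl
        refine ⟨?_, ?_⟩
        · rw [h1, ← hsm]
          exact O.mul_mem (hZ c) hw.1
        · rw [h1]
          exact W.smul_mem _ hw.2 }
  have hPO : ∀ w : P, (w : LaurentSeries ℚ) ∈ O := fun w => w.2.1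
  have hPW : ∀ w : P, (w : LaurentSeries ℚ) ∈ W := fun w => w.2.2
  let g : P →ₗ[Rl ℓ] (T → Rl ℓ) :=
    { toFun := fun w m => ⟨(w : LaurentSeries ℚ).coeff m, hO (hPO w) m⟩
      map_add' := fun _ _ => rfl
      map_smul' := fun c w => by
        funext m
        apply Subtype.ext
        change ((c : ℚ) • (w : LaurentSeries ℚ)).coeff m = (c : ℚ) * (w : LaurentSeries ℚ).coeff m
        rw [← hsm, coeff_algebraMap_mul] }
  have hg : Function.Injective g := by
    rw [injective_iff_map_eq_zero]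
    intro w hw
    apply Subtype.ext
    refine hT' _ (hPW w) fun m hm => ?_
    exact congrArg Subtype.val (congrFun hw ⟨m, hm⟩)
  haveI : Module.Finite (Rl ℓ) P := Module.Finite.of_injective g hg
  haveI : Module.IsTorsionFree (Rl ℓ) (T → Rl ℓ) := inferInstance
  haveI : Module.IsTorsionFree (Rl ℓ) P := hg.moduleIsTorsionFree g (fun c x => map_smul g c x)
  haveI : Module.Free (Rl ℓ) P := inferInstance
  let b := Module.finBasis (Rl ℓ) P
  set d := Module.finrank (Rl ℓ) P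
  -- saturation
  have hℓ0 : (ℓ : ℚ) ≠ 0 := by exact_mod_cast hℓ.out.ne_zero
  have hsatP : ∀ w ∈ W, w ∈ CL ℓ → algebraMap ℚ (LaurentSeries ℚ) (ℓ : ℚ) * w ∈ O → w ∈ P :=
    fun w hw hw' h => ⟨hsat w hw' h, hw⟩
  have hli : LinearIndependent (ZMod ℓ) (fun j : Fin d => fun m : ℤ =>
      Igusa.rho ℓ (cfL ⟨(b j : LaurentSeries ℚ), hO (hPO (b j))⟩ m)) := by
    rw [Fintype.linearIndependent_iff]
    intro c hc j
    choose c' hc' using fun j => Igusa.rho_surjective (ℓ := ℓ) (c j)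
    let w : P := ∑ j, c' j • b j
    have h1 : ∀ m, ∃ r : Rl ℓ, (w : LaurentSeries ℚ).coeff m = ((ℓ : Rl ℓ) * r : Rl ℓ) := by
      intro m
      have h2 := congrFun hc m
      rw [Finset.sum_apply, Pi.zero_apply] at h2
      have h3 : Igusa.rho ℓ (cfL ⟨(w : LaurentSeries ℚ), hO (hPO w)⟩ m) = 0 := by
        rw [← h2]
        have h4 : cfL ⟨(w : LaurentSeries ℚ), hO (hPO w)⟩ m =
            ∑ j, c' j * cfL ⟨(b j : LaurentSeries ℚ), hO (hPO (b j))⟩ m := by
          apply Subtype.ext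
          change (w : LaurentSeries ℚ).coeff m = _
          have h5 : (w : LaurentSeries ℚ) = ∑ j, (c' j : ℚ) • (b j : LaurentSeries ℚ) := by
            rw [Submodule.coe_sum]
            rfl
          rw [h5, HahnSeries.coeff_sum]
          push_cast
          refine Finset.sum_congr rfl fun j _ => ?_
          rw [← hsm, coeff_algebraMap_mul]
          rfl
        rw [h4, map_sum]
        refine Finset.sum_congr rfl fun j _ => ?_
        rw [map_mul, hc', Pi.smul_apply, smul_eq_mul]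
      obtain ⟨r, hr⟩ := (Igusa.rho_eq_zero_iff _).mp h3
      exact ⟨r, congrArg Subtype.val hr⟩
    let w' : LaurentSeries ℚ := algebraMap ℚ (LaurentSeries ℚ) ((ℓ : ℚ)⁻¹) * (w : LaurentSeries ℚ)
    have hw'w : algebraMap ℚ (LaurentSeries ℚ) (ℓ : ℚ) * w' = w := by
      change _ * (_ * _) = _
      rw [← mul_assoc, ← map_mul, mul_inv_cancel₀ hℓ0, map_one, one_mul]
    have hw'C : w' ∈ CL ℓ := by
      intro m
      obtain ⟨r, hr⟩ := h1 m
      have h2 : w'.coeff m = r := by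
        rw [coeff_algebraMap_mul, hr]
        push_cast
        field_simp
      rw [h2]
      exact r.2
    have hw'W : w' ∈ W := by
      change algebraMap ℚ (LaurentSeries ℚ) ((ℓ : ℚ)⁻¹) * (w : LaurentSeries ℚ) ∈ W
      rw [hsm]
      exact W.smul_mem _ (hPW w)
    have hw'P : w' ∈ P := hsatP w' hw'W hw'C (by rw [hw'w]; exact hPO w)
    have h6 : w = (ℓ : Rl ℓ) • (⟨w', hw'P⟩ : P) := by
      apply Subtype.ext
      rw [← hw'w, hsm]
      rfl
    have h7 : c' j = (ℓ : Rl ℓ) * b.repr ⟨w', hw'P⟩ j := by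
      have h8 := congrArg (fun z => b.repr z j) h6
      simp only [map_smul, Finsupp.smul_apply, smul_eq_mul] at h8
      rw [← h8]
      change _ = b.repr (∑ j, c' j • b j) j
      rw [b.repr_sum_self]
    rw [← hc' j, h7, map_mul, map_natCast, ZMod.natCast_self, zero_mul]
  -- the `y i` are in the span of the `b j`
  have hspan : ∀ i, ∃ r : Fin d → ℚ, y i = ∑ j, algebraMap ℚ (LaurentSeries ℚ) (r j) * (b j : LaurentSeries ℚ) := by
    intro i
    obtain ⟨c, hc, hcy⟩ := hy i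
    have h1 : algebraMap ℚ (LaurentSeries ℚ) c * y i ∈ P :=
      ⟨hcy, by rw [hsm]; exact W.smul_mem _ (Submodule.subset_span ⟨i, rfl⟩)⟩
    obtain ⟨β, h2⟩ : ∃ β : Fin d → Rl ℓ, algebraMap ℚ (LaurentSeries ℚ) c * y i =
        ((∑ j, β j • b j : P) : LaurentSeries ℚ) :=
      ⟨fun j => b.repr ⟨_, h1⟩ j, (congrArg Subtype.val (b.sum_repr ⟨_, h1⟩)).symm⟩
    refine ⟨fun j => c⁻¹ * (β j : ℚ), ?_⟩
    have h3 : y i = algebraMap ℚ (LaurentSeries ℚ) c⁻¹ * (algebraMap ℚ (LaurentSeries ℚ) c * y i) := by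
      rw [← mul_assoc, ← map_mul, inv_mul_cancel₀ hc, map_one, one_mul]
    rw [h3, h2, Submodule.coe_sum, Finset.mul_sum]
    refine Finset.sum_congr rfl fun j _ => ?_
    rw [map_mul, mul_assoc]
    congr 1
    exact (hsm _ _).symm
  choose r hr using hspan
  let a : Fin d → L := fun j => ∑ i, f i * algebraMap ℚ L (r i j)
  have hsum : ∑ i, algebraMap L (LaurentSeries L) (f i) * cEmb ℚ L (y i) =
      ∑ j, algebraMap L (LaurentSeries L) (a j) * cEmb ℚ L (b j : LaurentSeries ℚ) := by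
    have h1 : ∀ i, cEmb ℚ L (y i) = ∑ j, algebraMap L (LaurentSeries L) (algebraMap ℚ L (r i j)) *
        cEmb ℚ L (b j : LaurentSeries ℚ) := by
      intro i
      conv_lhs => rw [hr i]
      rw [map_sum]
      refine Finset.sum_congr rfl fun j _ => ?_
      rw [map_mul, cEmb, coeffMap_algebraMap']
    simp_rw [h1, Finset.mul_sum]
    rw [Finset.sum_comm]
    refine Finset.sum_congr rfl fun j _ => ?_
    change _ = algebraMap L (LaurentSeries L) (∑ i, f i * algebraMap ℚ L (r i j)) * _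
    rw [map_sum, Finset.sum_mul]
    refine Finset.sum_congr rfl fun i _ => ?_
    rw [map_mul, mul_assoc]
  have hcoeff : ∀ m, ∑ j, a j * algebraMap ℚ L
      (cfL ⟨(b j : LaurentSeries ℚ), hO (hPO (b j))⟩ m) ∈ A := by
    intro m
    have h1 := congrArg (fun z => HahnSeries.coeff z m) hsum
    simp only [HahnSeries.coeff_sum, coeff_algebraMap_mul, coeffMap_coeff] at h1
    change ∑ j, a j * algebraMap ℚ L ((b j : LaurentSeries ℚ).coeff m) ∈ A
    rw [← h1]
    exact hz m
  have ha := coeff_mem_of_forall_mem A hA _ hli a hcoeff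
  exact ⟨d, fun j => ⟨a j, ha j⟩, fun j => (b j : LaurentSeries ℚ), fun j => hPO (b j), hsum⟩

end Main

end Fermat.Agent.H26
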