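import Mathlib

/-!
# Automorphisms of algebraically closed fields moving transcendental elements
-/

set_option autoImplicit false

namespace Fermat.Agent.H26

open MvPolynomial

section

variable {K L : Type*} [Field K] [Field L] [Algebra K L]

/-- translation of one variable in a polynomial ring. -/
noncomputable def mvTranslate {τ : Type*} [DecidableEq τ] (R : Type*) [CommRing R] (i₀ : τ)
    (a : R) : MvPolynomial τ R ≃ₐ[R] MvPolynomial τ R :=
  AlgEquiv.ofAlgHom
    (aeval (fun i => if i = i₀ then X i + C a else X i))
    (aeval (fun i => if i = i₀ then X i - C a else X i))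
    (by
      ext i
      by_cases h : i = i₀
      · simp [h]
      · simp [h])
    (by
      ext i
      by_cases h : i = i₀
      · simp [h]
      · simp [h])

lemma mvTranslate_X {τ : Type*} [DecidableEq τ] (R : Type*) [CommRing R] (i₀ : τ) (a : R) :
    mvTranslate R i₀ a (X i₀) = X i₀ + C a := by
  simp [mvTranslate]

/-- For `c` transcendental over `K` in an algebraically closed field `L` and `a : K` there is a
`K`-automorphism of `L` with `c ↦ c + a`. -/
theorem exists_algEquiv_add [IsAlgClosed L] {c : L} (hc : Transcendental K c) (a : K) :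
    ∃ σ : L ≃ₐ[K] L, σ c = c + algebraMap K L a := by
  classical
  have h1 : AlgebraicIndepOn K id ({c} : Set L) := by
    have : AlgebraicIndependent K (fun i : ({c} : Set L) => (i : L)) := by
      rw [algebraicIndependent_unique_type_iff]
      have h2 : ((default : ({c} : Set L)) : L) = c := (default : ({c} : Set L)).2
      rw [h2]
      exact hc
    exact this
  obtain ⟨t, hct, ht⟩ := exists_isTranscendenceBasis_superset h1
  let i₀ : t := ⟨c, hct rfl⟩
  letI := IsAlgClosed.isAlgClosure_of_transcendence_basis (fun i : t => (i : L)) ht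
  let e₁ : Algebra.adjoin K (Set.range (fun i : t => (i : L))) ≃ₐ[K]
      Algebra.adjoin K (Set.range (fun i : t => (i : L))) :=
    ht.1.aevalEquiv.symm.trans ((mvTranslate K i₀ a).trans ht.1.aevalEquiv)
  let σ : L ≃+* L := IsAlgClosure.equivOfEquiv L L e₁.toRingEquiv
  have hσ : ∀ s : Algebra.adjoin K (Set.range (fun i : t => (i : L))),
      σ (s : L) = (e₁ s : L) := fun s => by
    have := IsAlgClosure.equivOfEquiv_algebraMap L L e₁.toRingEquiv s
    exact this
  have hσK : ∀ r : K, σ (algebraMap K L r) = algebraMap K L r := fun r => by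
    have := hσ (algebraMap K _ r)
    rw [e₁.commutes] at this
    exact this
  refine ⟨AlgEquiv.ofRingEquiv (f := σ) hσK, ?_⟩
  have hX : ((ht.1.aevalEquiv (X i₀) : Algebra.adjoin K (Set.range (fun i : t => (i : L)))) : L)
      = c := by
    simp [i₀]
  have := hσ (ht.1.aevalEquiv (X i₀))
  rw [hX] at this
  change σ c = _
  rw [this]
  simp only [e₁, AlgEquiv.trans_apply, AlgEquiv.symm_apply_apply, mvTranslate_X]
  rw [map_add]
  push_cast
  rw [hX]
  simp

end

end Fermat.Agent.H26
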