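import Mathlib
import Fermat.Prelude.Def_ModularCurve_LaurentCoeff
import Fermat.Agent.H18_Places

/-!
# Orders of Laurent series, places from expansions
-/

set_option autoImplicit false

namespace Fermat.Agent.H26

open AlgebraicCurve ModularCurve

section

variable {K : Type*} [Field K]

lemma laurent_order_mul {x y : LaurentSeries K} (hx : x ≠ 0) (hy : y ≠ 0) :
    (x * y).order = x.order + y.order :=
  HahnSeries.order_mul_of_ne_zero
    (mul_ne_zero (HahnSeries.leadingCoeff_ne_zero.mpr hx) (HahnSeries.leadingCoeff_ne_zero.mpr hy))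

lemma laurent_leadingCoeff_mul (x y : LaurentSeries K) :
    (x * y).leadingCoeff = x.leadingCoeff * y.leadingCoeff := by
  by_cases hx : x = 0
  · simp [hx]
  by_cases hy : y = 0
  · simp [hy]
  exact HahnSeries.leadingCoeff_mul_of_ne_zero
    (mul_ne_zero (HahnSeries.leadingCoeff_ne_zero.mpr hx) (HahnSeries.leadingCoeff_ne_zero.mpr hy))

lemma laurent_order_algebraMap (c : K) : (algebraMap K (LaurentSeries K) c).order = 0 := by
  rw [algebraMap_laurentSeries_eq_single]
  exact HahnSeries.order_C

lemma order_coeffMap {R S : Type*} [Field R] [Field S] (φ : R →+* S) (x : LaurentSeries R) :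
    (coeffMap φ x).order = x.order := by
  by_cases hx : x = 0
  · simp [hx]
  have hx' : coeffMap φ x ≠ 0 := (map_ne_zero _).mpr hx
  apply le_antisymm
  · apply HahnSeries.order_le_of_coeff_ne_zero
    rw [coeffMap_coeff]
    exact (map_ne_zero φ).mpr (by rwa [ne_eq, HahnSeries.coeff_order_eq_zero])
  · apply HahnSeries.order_le_of_coeff_ne_zero
    intro h
    have h1 : (coeffMap φ x).coeff (coeffMap φ x).order = 0 := by
      rw [coeffMap_coeff, h, map_zero]
    exact hx' (HahnSeries.coeff_order_eq_zero.mp h1)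

lemma leadingCoeff_coeffMap {R S : Type*} [Field R] [Field S] (φ : R →+* S)
    (x : LaurentSeries R) : (coeffMap φ x).leadingCoeff = φ x.leadingCoeff := by
  rw [HahnSeries.leadingCoeff_eq, HahnSeries.leadingCoeff_eq, order_coeffMap, coeffMap_coeff]

lemma order_ofPowerSeries_nonneg (p : PowerSeries K) :
    0 ≤ (HahnSeries.ofPowerSeries ℤ K p).order := by
  by_cases hp : HahnSeries.ofPowerSeries ℤ K p = 0
  · rw [hp]; simp
  by_contra h
  push Not at h
  apply hp
  rw [← HahnSeries.coeff_order_eq_zero]
  obtain ⟨k, hk⟩ : ∃ k, (HahnSeries.ofPowerSeries ℤ K p).order = k := ⟨_, rfl⟩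
  rw [hk] at h ⊢
  rw [HahnSeries.ofPowerSeries_apply, HahnSeries.embDomain_of_notMem_range]
  rintro ⟨n, hn⟩
  simp at hn
  omega

/-- Order data from an embedding into a Laurent series field. -/
noncomputable def ordDataOfExpansion {E : Type*} [Field E] [Algebra K E] (ψ : E →+* LaurentSeries K)
    (hψ : ∀ c : K, ψ (algebraMap K E c) = algebraMap K (LaurentSeries K) c)
    (h : ∃ z, (ψ z).order ≠ 0) : H18.OrdData K E where
  g z := (ψ z).order
  mul x y hx hy := by
    rw [map_mul]
    exact laurent_order_mul ((map_ne_zero ψ).mpr hx) ((map_ne_zero ψ).mpr hy)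
  add x y hx hy hxy := by
    rw [map_add]
    exact HahnSeries.min_order_le_order_add (by
      rw [← map_add]
      exact (map_ne_zero ψ).mpr hxy)
  const a _ := by
    rw [hψ, laurent_order_algebraMap]
  nontriv := by
    obtain ⟨z, hz⟩ := h
    refine ⟨z, ?_, hz⟩
    rintro rfl
    exact hz (by simp)

/-- A place from an embedding into a Laurent series field. -/
theorem exists_place_of_expansion {E : Type*} [Field E] [Algebra K E] (ψ : E →+* LaurentSeries K)
    (hψ : ∀ c : K, ψ (algebraMap K E c) = algebraMap K (LaurentSeries K) c)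
    (h : ∃ z, (ψ z).order = 1) : ∃ v : Place K E, ∀ z, z ≠ 0 → v.ord z = (ψ z).order := by
  obtain ⟨z, hz⟩ := h
  have hz0 : z ≠ 0 := by
    rintro rfl
    simp at hz
  let o := ordDataOfExpansion ψ hψ ⟨z, by omega⟩
  exact ⟨o.toPlace, fun w hw => o.ord_eq_g ⟨z, hz0, hz⟩ hw⟩

end

end Fermat.Agent.H26
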