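import Mathlib
import Fermat.Prelude.Def_AlgebraicCurve_DivisorClassGroup
import Fermat.Agent.Descent.LaurentOrder

/-!
# Expansion at a place of degree one
-/

set_option autoImplicit false

namespace Fermat.Agent.H26

open AlgebraicCurve Polynomial IsLocalRing

section

variable {K A : Type*} [Field K] [CommRing A] [IsDomain A] [Algebra K A]

/-- `s` is the expansion of `a` in powers of `π`. -/
def IsExp (π a : A) (s : PowerSeries K) : Prop :=
  ∀ n : ℕ, ∃ p : K[X], (PowerSeries.X : PowerSeries K) ^ n ∣ s - (p : PowerSeries K) ∧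
    π ^ n ∣ a - aeval π p

lemma IsExp.add {π a b : A} {s t : PowerSeries K} (ha : IsExp π a s) (hb : IsExp π b t) :
    IsExp π (a + b) (s + t) := by
  intro n
  obtain ⟨p, hp1, hp2⟩ := ha n
  obtain ⟨q, hq1, hq2⟩ := hb n
  refine ⟨p + q, ?_, ?_⟩
  · have : s + t - ((p + q : K[X]) : PowerSeries K) =
      (s - (p : PowerSeries K)) + (t - (q : PowerSeries K)) := by
      push_cast; ring
    rw [this]
    exact dvd_add hp1 hq1
  · have : a + b - aeval π (p + q) = (a - aeval π p) + (b - aeval π q) := by
      rw [map_add]; ring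
    rw [this]
    exact dvd_add hp2 hq2

lemma IsExp.mul {π a b : A} {s t : PowerSeries K} (ha : IsExp π a s) (hb : IsExp π b t) :
    IsExp π (a * b) (s * t) := by
  intro n
  obtain ⟨p, hp1, hp2⟩ := ha n
  obtain ⟨q, hq1, hq2⟩ := hb n
  refine ⟨p * q, ?_, ?_⟩
  · have : s * t - ((p * q : K[X]) : PowerSeries K) =
      (s - (p : PowerSeries K)) * t + (p : PowerSeries K) * (t - (q : PowerSeries K)) := by
      push_cast; ring
    rw [this]
    exact dvd_add (Dvd.dvd.mul_right hp1 _) (Dvd.dvd.mul_left hq1 _)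
  · have : a * b - aeval π (p * q) = (a - aeval π p) * b + aeval π p * (b - aeval π q) := by
      rw [map_mul]; ring
    rw [this]
    exact dvd_add (Dvd.dvd.mul_right hp2 _) (Dvd.dvd.mul_left hq2 _)

lemma isExp_algebraMap (π : A) (c : K) : IsExp π (algebraMap K A c) (PowerSeries.C c) := by
  intro n
  refine ⟨C c, ?_, ?_⟩ <;> simp

lemma isExp_self (π : A) : IsExp π π (PowerSeries.X : PowerSeries K) := by
  intro n
  refine ⟨X, ?_, ?_⟩ <;> simp

variable {π : A} (hπ : Irreducible π)
include hπ

lemma X_pow_dvd_of_dvd_aeval {n : ℕ} {p : K[X]} (h : π ^ n ∣ aeval π p) : X ^ n ∣ p := by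
  by_cases hp : p = 0
  · rw [hp]; exact dvd_zero _
  obtain ⟨k, hk⟩ : ∃ k, p.natTrailingDegree = k := ⟨_, rfl⟩
  obtain ⟨q, hq⟩ : X ^ k ∣ p := by
    rw [X_pow_dvd_iff]
    intro d hd
    exact coeff_eq_zero_of_lt_natTrailingDegree (hk ▸ hd)
  by_cases hnk : n ≤ k
  · exact (pow_dvd_pow X hnk).trans ⟨q, hq⟩
  · exfalso
    push Not at hnk
    have hq0 : q.coeff 0 ≠ 0 := by
      have h1 : p.coeff k = q.coeff 0 := by
        rw [hq, mul_comm]
        have := coeff_mul_X_pow q k 0
        rwa [zero_add] at this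
      rw [← h1, ← hk]
      exact mt (coeff_natTrailingDegree_eq_zero).mp hp
    rw [hq, map_mul, map_pow, aeval_X] at h
    have h2 : π ∣ aeval π q := by
      have h3 : π ^ (k + 1) ∣ π ^ k * aeval π q := (pow_dvd_pow π hnk).trans h
      rw [pow_succ] at h3
      exact (mul_dvd_mul_iff_left (pow_ne_zero _ hπ.ne_zero)).mp h3
    have h4 : π ∣ algebraMap K A (q.coeff 0) := by
      have h5 : X ∣ q - C (q.coeff 0) := by
        rw [X_dvd_iff]; simp
      obtain ⟨r, hr⟩ := h5
      have h6 : aeval π q = π * aeval π r + algebraMap K A (q.coeff 0) := by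
        conv_lhs => rw [show q = X * r + C (q.coeff 0) by rw [← hr]; ring]
        simp
      rw [h6] at h2
      exact (dvd_add_right (dvd_mul_right _ _)).mp h2
    exact hπ.not_isUnit (isUnit_of_dvd_unit h4 ((IsUnit.mk0 _ hq0).map (algebraMap K A)))

lemma IsExp.unique_zero {s : PowerSeries K} (h : IsExp π 0 s) : s = 0 := by
  have h1 : ∀ n : ℕ, (PowerSeries.X : PowerSeries K) ^ n ∣ s := by
    intro n
    obtain ⟨p, hp1, hp2⟩ := h n
    rw [zero_sub, dvd_neg] at hp2
    have h2 := X_pow_dvd_of_dvd_aeval hπ hp2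
    have h3 : (PowerSeries.X : PowerSeries K) ^ n ∣ (p : PowerSeries K) := by
      obtain ⟨q, rfl⟩ := h2
      exact ⟨(q : PowerSeries K), by push_cast; rfl⟩
    have := dvd_add hp1 h3
    rwa [sub_add_cancel] at this
  ext n
  rw [map_zero]
  exact (PowerSeries.X_pow_dvd_iff.mp (h1 (n + 1))) n (Nat.lt_succ_self n)

lemma IsExp.unique {a : A} {s t : PowerSeries K} (hs : IsExp π a s) (ht : IsExp π a t) :
    s = t := by
  have h1 : IsExp π (a * 1 + a * (-1)) (s * 1 + t * (-1)) := by
    refine IsExp.add (hs.mul ?_) (ht.mul ?_)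
    · simpa using isExp_algebraMap (K := K) π 1
    · simpa using isExp_algebraMap (K := K) π (-1)
  have h2 : a * 1 + a * (-1) = 0 := by ring
  rw [h2] at h1
  have h3 := h1.unique_zero hπ
  have h4 : s * 1 + t * (-1) = s - t := by ring
  rw [h4] at h3
  exact sub_eq_zero.mp h3

variable (hres : ∀ a : A, ∃ c : K, π ∣ a - algebraMap K A c)
include hres

omit hπ in
lemma exists_isExp (a : A) : ∃ s : PowerSeries K, IsExp π a s := by
  choose c hc using hres
  choose q hq using hc
  have hq' : ∀ a, a = algebraMap K A (c a) + π * q a := fun a => by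
    rw [← hq a]; ring
  refine ⟨PowerSeries.mk fun n => c (q^[n] a), fun n => ?_⟩
  refine ⟨∑ i ∈ Finset.range n, C (c (q^[i] a)) * X ^ i, ?_, ?_⟩
  · rw [PowerSeries.X_pow_dvd_iff]
    intro m hm
    rw [map_sub, PowerSeries.coeff_mk, Polynomial.coeff_coe, Polynomial.finsetSum_coeff]
    simp only [coeff_C_mul, coeff_X_pow]
    rw [Finset.sum_eq_single m]
    · simp
    · intro b _ hb
      rw [if_neg (Ne.symm hb), mul_zero]
    · intro h
      exact absurd (Finset.mem_range.mpr hm) h
  · refine ⟨q^[n] a, ?_⟩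
    have h1 : a = aeval π (∑ i ∈ Finset.range n, C (c (q^[i] a)) * X ^ i) +
        π ^ n * q^[n] a := by
      induction n with
      | zero => simp
      | succ n ih =>
        rw [Finset.sum_range_succ, map_add, Function.iterate_succ_apply']
        conv_lhs => rw [ih, hq' (q^[n] a)]
        simp only [map_mul, aeval_C, map_pow, aeval_X]
        ring
    exact sub_eq_of_eq_add' h1

/-- The expansion homomorphism `A → K[[X]]`. -/
theorem exists_expansion : ∃ s : A →+* PowerSeries K, (∀ a, IsExp π a (s a)) := by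
  choose s hs using exists_isExp (K := K) hres
  exact ⟨{
    toFun := s
    map_one' := (hs 1).unique hπ (by simpa using isExp_algebraMap (K := K) π 1)
    map_mul' := fun a b => (hs (a * b)).unique hπ ((hs a).mul (hs b))
    map_zero' := (hs 0).unique hπ (by simpa using isExp_algebraMap (K := K) π 0)
    map_add' := fun a b => (hs (a + b)).unique hπ ((hs a).add (hs b)) }, hs⟩

end

section

variable {K F : Type*} [Field K] [Field F] [Algebra K F] (v : Place K F)

/-- Expansion at a place of degree one. -/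
theorem exists_place_expansion (hv : v.deg = 1) :
    ∃ φ : F →+* LaurentSeries K,
      (∀ c : K, φ (algebraMap K F c) = algebraMap K (LaurentSeries K) c) ∧
      ∀ z : F, z ≠ 0 → (φ z).order = v.ord z := by
  obtain ⟨π, hπ⟩ := IsDiscreteValuationRing.exists_irreducible v.toValuationSubring
  have hres : ∀ a : v.toValuationSubring, ∃ c : K, π ∣ a - algebraMap K v.toValuationSubring c := by
    intro a
    obtain ⟨c, hc⟩ := (finrank_eq_one_iff_of_nonzero' (1 : v.ResidueField) one_ne_zero).mp hv
      (IsLocalRing.residue _ a)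
    refine ⟨c, ?_⟩
    rw [← Ideal.mem_span_singleton, ← hπ.maximalIdeal_eq, ← IsLocalRing.residue_eq_zero_iff,
      map_sub, ← hc, Algebra.smul_def, mul_one]
    exact sub_self _
  obtain ⟨s, hs⟩ := exists_expansion (K := K) hπ hres
  have hsinj : Function.Injective s := by
    rw [injective_iff_map_eq_zero]
    intro a ha
    by_contra ha0
    have h1 : ∀ n : ℕ, π ^ n ∣ a := by
      intro n
      obtain ⟨p, hp1, hp2⟩ := hs a n
      rw [ha, zero_sub, dvd_neg] at hp1
      have h2 : (X : K[X]) ^ n ∣ p := by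
        rw [X_pow_dvd_iff]
        intro d hd
        have := PowerSeries.X_pow_dvd_iff.mp hp1 d hd
        rwa [Polynomial.coeff_coe] at this
      obtain ⟨q, rfl⟩ := h2
      rw [map_mul, map_pow, aeval_X] at hp2
      have := dvd_add hp2 (dvd_mul_right (π ^ n) (aeval π q))
      rwa [sub_add_cancel] at this
    obtain ⟨n, u, hu⟩ := IsDiscreteValuationRing.eq_unit_mul_pow_irreducible ha0 hπ
    have h3 := h1 (n + 1)
    rw [hu, pow_succ, mul_comm (u : v.toValuationSubring)] at h3
    have h4 := (mul_dvd_mul_iff_left (pow_ne_zero n hπ.ne_zero)).mp h3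
    exact hπ.not_isUnit (isUnit_of_dvd_unit h4 u.isUnit)
  let g : v.toValuationSubring →+* LaurentSeries K :=
    (HahnSeries.ofPowerSeries ℤ K).comp s
  have hg : Function.Injective g :=
    HahnSeries.ofPowerSeries_injective.comp hsinj
  let φ : F →+* LaurentSeries K := IsFractionRing.lift hg
  have hφ : ∀ a : v.toValuationSubring, φ (a : F) = g a := fun a =>
    IsFractionRing.lift_algebraMap hg a
  have hφπ : φ (π : F) = HahnSeries.single 1 1 := by
    rw [hφ]
    have : s π = PowerSeries.X := (hs π).unique hπ (isExp_self π)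
    rw [RingHom.comp_apply, this, HahnSeries.ofPowerSeries_X]
  refine ⟨φ, fun c => ?_, fun z hz => ?_⟩
  · have h1 : algebraMap K F c = ((algebraMap K v.toValuationSubring c : v.toValuationSubring) : F)
      := rfl
    rw [h1, hφ, RingHom.comp_apply,
      (hs _).unique hπ (isExp_algebraMap (K := K) π c), HahnSeries.ofPowerSeries_C]
    rw [ModularCurve.algebraMap_laurentSeries_eq_single]
    rfl
  · obtain ⟨u, hu⟩ := v.exists_unit_mul_zpow hz hπ
    have hcoe0 : ∀ u : (v.toValuationSubring)ˣ, ((u : v.toValuationSubring) : F) ≠ 0 := by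
      intro u h0
      exact u.ne_zero (Subtype.ext h0)
    have h0 : ∀ u : (v.toValuationSubring)ˣ, 0 ≤ (φ ((u : v.toValuationSubring) : F)).order := by
      intro u
      rw [hφ]
      exact order_ofPowerSeries_nonneg _
    have h2 : (φ ((u : v.toValuationSubring) : F)).order = 0 := by
      have h3 := h0 u
      have h4 := h0 u⁻¹
      have h5 : φ ((u : v.toValuationSubring) : F) *
          φ (((u⁻¹ : (v.toValuationSubring)ˣ) : v.toValuationSubring) : F) = 1 := by
        rw [← map_mul, ← map_one φ]
        congr 1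
        have := u.mul_inv
        rw [Subtype.ext_iff] at this
        exact this
      have h6 := laurent_order_mul ((map_ne_zero φ).mpr (hcoe0 u)) ((map_ne_zero φ).mpr (hcoe0 u⁻¹))
      rw [h5, HahnSeries.order_one] at h6
      omega
    have hπ0 : (π : F) ≠ 0 := fun h => hπ.ne_zero (Subtype.ext h)
    have hφπ1 : (φ (π : F)).order = 1 := by
      rw [hφπ]
      exact HahnSeries.order_single one_ne_zero
    let o : H18.OrdData K (LaurentSeries K) := ordDataOfExpansion (RingHom.id _) (fun _ => rfl)
      ⟨φ (π : F), by rw [RingHom.id_apply, hφπ1]; exact one_ne_zero⟩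
    have h7 : (φ (π : F) ^ (v.ord z)).order = v.ord z := by
      have := o.g_zpow ((map_ne_zero φ).mpr hπ0) (v.ord z)
      change (φ (π : F) ^ (v.ord z)).order = v.ord z * (φ (π : F)).order at this
      rw [this, hφπ1, mul_one]
    conv_lhs => rw [hu]
    rw [map_mul, map_zpow₀, laurent_order_mul ((map_ne_zero φ).mpr (hcoe0 u))
      (zpow_ne_zero _ ((map_ne_zero φ).mpr hπ0)), h2, h7, zero_add]

end

end Fermat.Agent.H26
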