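import Mathlib
import Fermat.Agent.Descent.LinDisj

/-!
# Change of expansion

A `K`-embedding `φ : F → K((t))` extends uniquely to an `L`-embedding `F_L → L((t))`.
-/

set_option autoImplicit false

namespace Fermat.Agent.H26

open ModularCurve HahnSeries
open scoped TensorProduct

section ProdHom

variable {K L F E : Type*} [Field K] [Field L] [Algebra K L] [Field F] [Algebra K F] [Field E]

/-- The ring hom `L ⊗ F → E` attached to compatible homs `L → E`, `F → E`. -/
noncomputable def prodHom (l : L →+* E) (f : F →+* E)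
    (h : ∀ c : K, l (algebraMap K L c) = f (algebraMap K F c)) : L ⊗[K] F →+* E :=
  letI : Algebra K E := (l.comp (algebraMap K L)).toAlgebra
  (Algebra.TensorProduct.lift (R := K) (S := K) (A := L) (B := F) (C := E)
    ({ l with commutes' := fun _ => rfl } : L →ₐ[K] E)
    ({ f with commutes' := fun c => (h c).symm } : F →ₐ[K] E)
    (fun _ _ => Commute.all _ _)).toRingHom

lemma prodHom_tmul (l : L →+* E) (f : F →+* E)
    (h : ∀ c : K, l (algebraMap K L c) = f (algebraMap K F c)) (a : L) (b : F) :
    prodHom l f h (a ⊗ₜ[K] b) = l a * f b := by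
  let _ : Algebra K E := (l.comp (algebraMap K L)).toAlgebra
  exact Algebra.TensorProduct.lift_tmul (R := K) (S := K) (A := L) (B := F) (C := E)
    ({ l with commutes' := fun _ => rfl } : L →ₐ[K] E)
    ({ f with commutes' := fun c => (h c).symm } : F →ₐ[K] E)
    (fun _ _ => Commute.all _ _) a b

lemma prodHom_injective (l : L →+* E) (f : F →+* E)
    (h : ∀ c : K, l (algebraMap K L c) = f (algebraMap K F c))
    (hdisj : ∀ (s : Finset (Module.Basis.ofVectorSpaceIndex K L))
      (a : Module.Basis.ofVectorSpaceIndex K L → F),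
      ∑ i ∈ s, l (Module.Basis.ofVectorSpace K L i) * f (a i) = 0 → ∀ i ∈ s, a i = 0) :
    Function.Injective (prodHom l f h) := by
  classical
  rw [injective_iff_map_eq_zero]
  intro x hx
  let e := Module.Basis.ofVectorSpace K L
  let Q := TensorProduct.equivFinsuppOfBasisLeft (N := F) e
  have h1 : x = (Q x).sum fun i b => e i ⊗ₜ[K] b := by
    conv_lhs => rw [← Q.symm_apply_apply x]
    exact TensorProduct.equivFinsuppOfBasisLeft_symm_apply e (Q x)
  have h2 : ∑ i ∈ (Q x).support, l (e i) * f (Q x i) = 0 := by
    have h3 := congrArg (prodHom l f h) h1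
    rw [hx, Finsupp.sum, map_sum] at h3
    rw [h3]
    exact Finset.sum_congr rfl fun i _ => (prodHom_tmul l f h _ _).symm
  have h4 := hdisj _ _ h2
  have h5 : Q x = 0 := by
    ext i
    by_contra hi
    exact hi (h4 i (Finsupp.mem_support_iff.mpr hi))
  rw [← Q.symm_apply_apply x, h5, map_zero]

end ProdHom

section

variable {K L : Type*} [Field K] [Field L] [Algebra K L] (F : IntermediateField K (LaurentSeries K))

/-- `F → F_L`. -/
noncomputable def embExtend (L : Type*) [Field L] [Algebra K L] : F →+* extend L F :=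
  ((cEmb K L).comp F.val.toRingHom).codRestrict (extend L F).toSubfield
    (fun z => cEmb_mem_extend z.2)

@[simp]
lemma coe_embExtend (z : F) : ((embExtend F L z : extend L F) : LaurentSeries L)
    = cEmb K L (z : LaurentSeries K) := rfl

lemma embExtend_algebraMap (c : K) : embExtend F L (algebraMap K F c) =
    algebraMap L (extend L F) (algebraMap K L c) := by
  apply Subtype.ext
  change cEmb K L (algebraMap K (LaurentSeries K) c) = algebraMap L (LaurentSeries L) _
  rw [coeffMap_algebraMap']

lemma embExtend_injective : Function.Injective (embExtend F L) := (embExtend F L).injective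

/-- `L ⊗ F → F_L`. -/
noncomputable def tensorToExtend (L : Type*) [Field L] [Algebra K L] :
    L ⊗[K] F →+* extend L F :=
  prodHom (algebraMap L (extend L F)) (embExtend F L)
    (fun c => (embExtend_algebraMap F c).symm)

lemma tensorToExtend_injective : Function.Injective (tensorToExtend F L) := by
  apply prodHom_injective
  intro s a h i hi
  have h1 : ∑ i ∈ s, algebraMap L (LaurentSeries L) (Module.Basis.ofVectorSpace K L i) *
      cEmb K L (a i : LaurentSeries K) = 0 := by
    have h2 := congrArg (extend L F).val h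
    rw [map_sum, map_zero] at h2
    rw [← h2]
    exact Finset.sum_congr rfl fun i _ => rfl
  have := sum_eq_zero_imp (Module.Basis.ofVectorSpace K L).linearIndependent s
    (fun i => (a i : LaurentSeries K)) h1 i hi
  exact Subtype.ext this

lemma exists_div_of_mem_extend (z : extend L F) :
    ∃ x y, z = tensorToExtend F L x / tensorToExtend F L y := by
  obtain ⟨r, hr, s, hs, hrs⟩ := IntermediateField.mem_adjoin_iff_div.mp z.2
  have key : ∀ r ∈ Algebra.adjoin L (cEmb K L '' (F : Set (LaurentSeries K))),
      ∃ x, ((tensorToExtend F L x : extend L F) : LaurentSeries L) = r := by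
    intro r hr
    induction hr using Algebra.adjoin_induction with
    | mem x hx =>
      obtain ⟨b, hb, rfl⟩ := hx
      refine ⟨1 ⊗ₜ ⟨b, hb⟩, ?_⟩
      rw [tensorToExtend, prodHom_tmul, map_one, one_mul]
      rfl
    | algebraMap r =>
      refine ⟨r ⊗ₜ 1, ?_⟩
      rw [tensorToExtend, prodHom_tmul, map_one, mul_one]
      rfl
    | add x y _ _ hx hy =>
      obtain ⟨x', rfl⟩ := hx
      obtain ⟨y', rfl⟩ := hy
      exact ⟨x' + y', by rw [map_add]; rfl⟩
    | mul x y _ _ hx hy =>
      obtain ⟨x', rfl⟩ := hx
      obtain ⟨y', rfl⟩ := hy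
      exact ⟨x' * y', by rw [map_mul]; rfl⟩
  obtain ⟨x, hx⟩ := key r hr
  obtain ⟨y, hy⟩ := key s hs
  refine ⟨x, y, Subtype.ext ?_⟩
  rw [hrs, IntermediateField.coe_div, hx, hy]

/-- A `K`-embedding `φ : F → K((t))` extends to an `L`-embedding `F_L → L((t))`. -/
theorem exists_reexpand (φ : F →+* LaurentSeries K)
    (hφ : ∀ c : K, φ (algebraMap K F c) = algebraMap K (LaurentSeries K) c) :
    ∃ Ψ : extend L F →+* LaurentSeries L,
      (∀ c : L, Ψ (algebraMap L (extend L F) c) = algebraMap L (LaurentSeries L) c) ∧
      ∀ z : F, Ψ (embExtend F L z) = cEmb K L (φ z) := by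
  let _ : Algebra (L ⊗[K] F) (extend L F) := (tensorToExtend F L).toAlgebra
  have : FaithfulSMul (L ⊗[K] F) (extend L F) :=
    (faithfulSMul_iff_algebraMap_injective _ _).mpr (tensorToExtend_injective F)
  have : IsFractionRing (L ⊗[K] F) (extend L F) :=
    IsFractionRing.of_field _ _ (exists_div_of_mem_extend F)
  let ρ : L ⊗[K] F →+* LaurentSeries L :=
    prodHom (algebraMap L (LaurentSeries L)) ((cEmb K L).comp φ) (fun c => by
      rw [RingHom.comp_apply, hφ, coeffMap_algebraMap'])
  have hρ : Function.Injective ρ := by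
    apply prodHom_injective
    intro s a h i hi
    have := sum_eq_zero_imp (Module.Basis.ofVectorSpace K L).linearIndependent s
      (fun i => φ (a i)) h i hi
    exact (map_eq_zero φ).mp this
  refine ⟨IsFractionRing.lift hρ, fun c => ?_, fun z => ?_⟩
  · have h1 : algebraMap L (extend L F) c =
        algebraMap (L ⊗[K] F) (extend L F) (c ⊗ₜ 1) := by
      change _ = tensorToExtend F L (c ⊗ₜ 1)
      rw [tensorToExtend, prodHom_tmul, map_one, mul_one]
    rw [h1, IsFractionRing.lift_algebraMap, prodHom_tmul, map_one, mul_one]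
  · have h1 : embExtend F L z = algebraMap (L ⊗[K] F) (extend L F) (1 ⊗ₜ z) := by
      change _ = tensorToExtend F L (1 ⊗ₜ z)
      rw [tensorToExtend, prodHom_tmul, map_one, one_mul]
    rw [h1, IsFractionRing.lift_algebraMap, prodHom_tmul, map_one, one_mul]
    rfl

end

end Fermat.Agent.H26
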