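import Mathlib
import Fermat.Agent.Descent.Reexpand
import Fermat.Agent.Descent.PlaceExpand

/-!
# Lifting places along constant field extension
-/

set_option autoImplicit false

namespace Fermat.Agent.H26

open AlgebraicCurve ModularCurve

section

variable {K L : Type*} [Field K] [Field L] [Algebra K L] (F : IntermediateField K (LaurentSeries K))

theorem exists_place_lift (v : Place K F) (hv : v.deg = 1) :
    ∃ w : Place L (extend L F), ∀ z : F, w.ord (embExtend F L z) = v.ord z := by
  obtain ⟨φ, hφ1, hφ2⟩ := exists_place_expansion v hv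
  obtain ⟨Ψ, hΨ1, hΨ2⟩ := exists_reexpand (L := L) F φ hφ1
  obtain ⟨t, ht0, ht⟩ := H18.exists_ord_eq_one v
  obtain ⟨w, hw⟩ := exists_place_of_expansion Ψ hΨ1 ⟨embExtend F L t, by
    rw [hΨ2, order_coeffMap, hφ2 t ht0, ht]⟩
  refine ⟨w, fun z => ?_⟩
  by_cases hz : z = 0
  · simp [hz]
  · rw [hw _ ((map_ne_zero _).mpr hz), hΨ2, order_coeffMap, hφ2 z hz]

/-- The place "at infinity" given by the `q`-order. -/
theorem exists_place_order (E : IntermediateField K (LaurentSeries K))
    (h : ∃ z : E, (z : LaurentSeries K).order = 1) :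
    ∃ v : Place K E, ∀ z : E, v.ord z = (z : LaurentSeries K).order := by
  obtain ⟨v, hv⟩ := exists_place_of_expansion (E := E) E.val.toRingHom (fun _ => rfl) h
  refine ⟨v, fun z => ?_⟩
  by_cases hz : z = 0
  · simp [hz]
  · exact hv z hz

end

section

variable {K : Type*} (L : Type*) [Field K] [Field L] [Algebra K L] [Algebra ℚ K] [Algebra ℚ L]
  (F₀ : IntermediateField ℚ (LaurentSeries ℚ))

/-- The coefficientwise embedding `F_K → F_L`. -/
noncomputable def embBC : laurentBaseChange K F₀ →+* laurentBaseChange L F₀ :=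
  ((cEmb K L).comp (laurentBaseChange K F₀).val.toRingHom).codRestrict
    (laurentBaseChange L F₀).toSubfield
    (fun z => by
      change cEmb K L (z : LaurentSeries K) ∈ laurentBaseChange L F₀
      rw [laurentBaseChange_eq_extend (K := K)]
      exact cEmb_mem_extend z.2)

@[simp]
lemma coe_embBC (z : laurentBaseChange K F₀) :
    ((embBC L F₀ z : laurentBaseChange L F₀) : LaurentSeries L) =
      cEmb K L (z : LaurentSeries K) := rfl

lemma embBC_algebraMap (c : K) : embBC L F₀ (algebraMap K (laurentBaseChange K F₀) c) =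
    algebraMap L (laurentBaseChange L F₀) (algebraMap K L c) := by
  apply Subtype.ext
  change cEmb K L (algebraMap K (LaurentSeries K) c) = algebraMap L (LaurentSeries L) _
  rw [coeffMap_algebraMap']

variable {F₀}

/-- `F_L ∩ K((q)) = F_K`. -/
theorem exists_embBC_of_coeff_mem (z : laurentBaseChange L F₀)
    (hz : ∀ n, (z : LaurentSeries L).coeff n ∈ (algebraMap K L).range) :
    ∃ z₀ : laurentBaseChange K F₀, embBC L F₀ z₀ = z := by
  have h1 : (z : LaurentSeries L) ∈ extend L (laurentBaseChange K F₀) := by
    rw [← laurentBaseChange_eq_extend (K := K)]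
    exact z.2
  obtain ⟨z₀, hz₀, h⟩ := exists_mem_of_coeff_mem h1 hz
  exact ⟨⟨z₀, hz₀⟩, Subtype.ext h⟩

/-- Lifting of places of degree one along `F_K → F_L`. -/
theorem exists_place_lift_BC (v : Place K (laurentBaseChange K F₀)) (hv : v.deg = 1) :
    ∃ w : Place L (laurentBaseChange L F₀), ∀ z : laurentBaseChange K F₀,
      w.ord (embBC L F₀ z) = v.ord z := by
  have key : ∀ (E : IntermediateField L (LaurentSeries L))
      (hE : E = extend L (laurentBaseChange K F₀))
      (e : laurentBaseChange K F₀ →+* E)
      (_ : ∀ z, (e z : LaurentSeries L) = cEmb K L (z : LaurentSeries K)),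
      ∃ w : Place L E, ∀ z : laurentBaseChange K F₀, w.ord (e z) = v.ord z := by
    intro E hE e he
    subst hE
    obtain ⟨w, hw⟩ := exists_place_lift (L := L) (laurentBaseChange K F₀) v hv
    refine ⟨w, fun z => ?_⟩
    rw [← hw z]
    congr 1
    exact Subtype.ext (he z)
  exact key _ (laurentBaseChange_eq_extend F₀) (embBC L F₀) (fun _ => rfl)

end

end Fermat.Agent.H26
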