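import Mathlib
import Fermat.Agent.Descent.Aut
import Fermat.Agent.Descent.PlaceLift
import Fermat.Prelude.Def_ModularCurve_ArithmeticGalois

/-!
# Injectivity of descent for `m`-th powers
-/

set_option autoImplicit false

namespace Fermat.Agent.H26

open AlgebraicCurve ModularCurve

section

lemma mem_range_of_isIntegral {L A : Type*} [Field L] [IsAlgClosed L] [CommRing A] [IsDomain A]
    [Algebra L A] {x : A} (hx : IsIntegral L x) : x ∈ (algebraMap L A).range :=
  minpoly.mem_range_of_degree_eq_one L x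
    (IsAlgClosed.degree_eq_one_of_irreducible L (minpoly.irreducible hx))

lemma transcendental_of_notMem_range {K L : Type*} [Field K] [Field L] [Algebra K L]
    [IsAlgClosed K] {c : L} (hc : c ∉ (algebraMap K L).range) : Transcendental K c := by
  intro h
  exact hc (mem_range_of_isIntegral (isAlgebraic_iff_isIntegral.mp h))

lemma mem_range_of_fixed {K L : Type*} [Field K] [Field L] [Algebra K L]
    [IsAlgClosed K] [IsAlgClosed L] {c : L} (hc : ∀ σ : L ≃ₐ[K] L, σ c = c) :
    c ∈ (algebraMap K L).range := by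
  by_contra h
  obtain ⟨σ, hσ⟩ := exists_algEquiv_add (transcendental_of_notMem_range h) (1 : K)
  rw [hc σ, map_one] at hσ
  exact one_ne_zero (left_eq_add.mp hσ)

end

section

variable {K : Type*} (L : Type*) [Field K] [Field L] [Algebra K L] [Algebra ℚ K] [Algebra ℚ L]
  {F₀ : IntermediateField ℚ (LaurentSeries ℚ)}

variable {L} in
/-- a `K`-automorphism of `L` as a `ℚ`-automorphism. -/
noncomputable def autQ (σ : L ≃ₐ[K] L) : L ≃ₐ[ℚ] L :=
  AlgEquiv.ofRingEquiv (f := (σ : L ≃+* L)) (fun r => by
    have h : ((σ : L ≃+* L) : L →+* L).comp (algebraMap ℚ L) = algebraMap ℚ L :=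
      Subsingleton.elim _ _
    exact RingHom.congr_fun h r)

variable {L} in
@[simp]
lemma autQ_apply (σ : L ≃ₐ[K] L) (x : L) : autQ σ x = σ x := rfl

variable {L} in
/-- the semilinear automorphism of `F_L` attached to `σ`. -/
noncomputable def semAut (F₀ : IntermediateField ℚ (LaurentSeries ℚ)) (σ : L ≃ₐ[K] L) :
    SemilinearAut L (laurentBaseChange L F₀) := arithmeticGalois F₀ (autQ σ)

lemma coeff_semAut (σ : L ≃ₐ[K] L) (z : laurentBaseChange L F₀) (n : ℤ) :
    ((semAut F₀ σ • z : laurentBaseChange L F₀) : LaurentSeries L).coeff n =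
      σ ((z : LaurentSeries L).coeff n) := rfl

lemma semAut_smul_mul (σ : L ≃ₐ[K] L) (z w : laurentBaseChange L F₀) :
    semAut F₀ σ • (z * w) = (semAut F₀ σ • z) * (semAut F₀ σ • w) := smul_mul' _ _ _

lemma semAut_smul_pow (σ : L ≃ₐ[K] L) (z : laurentBaseChange L F₀) (n : ℕ) :
    semAut F₀ σ • (z ^ n) = (semAut F₀ σ • z) ^ n := smul_pow' _ _ _

lemma semAut_smul_embBC (σ : L ≃ₐ[K] L) (z : laurentBaseChange K F₀) :
    semAut F₀ σ • embBC L F₀ z = embBC L F₀ z := by
  apply Subtype.ext
  ext n
  rw [coeff_semAut, coe_embBC, coeffMap_coeff, σ.commutes]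

lemma order_semAut (σ : L ≃ₐ[K] L) (z : laurentBaseChange L F₀) :
    ((semAut F₀ σ • z : laurentBaseChange L F₀) : LaurentSeries L).order =
      (z : LaurentSeries L).order :=
  order_coeffMap _ _

lemma leadingCoeff_semAut (σ : L ≃ₐ[K] L) (z : laurentBaseChange L F₀) :
    ((semAut F₀ σ • z : laurentBaseChange L F₀) : LaurentSeries L).leadingCoeff =
      σ (z : LaurentSeries L).leadingCoeff :=
  leadingCoeff_coeffMap _ _

variable [IsAlgClosed K] [IsAlgClosed L]

lemma exists_embBC_of_fixed (z : laurentBaseChange L F₀)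
    (hz : ∀ σ : L ≃ₐ[K] L, semAut F₀ σ • z = z) :
    ∃ z₀ : laurentBaseChange K F₀, embBC L F₀ z₀ = z := by
  apply exists_embBC_of_coeff_mem
  intro n
  apply mem_range_of_fixed
  intro σ
  rw [← coeff_semAut, hz σ]

omit [IsAlgClosed K] in
/-- if `w ^ m = z ^ m` then they differ by a root of unity in `L`. -/
lemma exists_root_of_pow_eq {m : ℕ} (hm : 0 < m) {z w : laurentBaseChange L F₀} (hw : w ≠ 0)
    (h : z ^ m = w ^ m) : ∃ c : L, c ^ m = 1 ∧ z = algebraMap L _ c * w := by
  have h1 : (z / w) ^ m = 1 := by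
    rw [div_pow, h, div_self (pow_ne_zero _ hw)]
  have h2 : IsIntegral L (z / w) := by
    refine ⟨Polynomial.X ^ m - 1, Polynomial.monic_X_pow_sub_C 1 hm.ne', ?_⟩
    simp [h1]
  obtain ⟨c, hc⟩ := mem_range_of_isIntegral h2
  refine ⟨c, ?_, ?_⟩
  · rw [← hc, ← map_pow] at h1
    exact (algebraMap L (laurentBaseChange L F₀)).injective (by rw [h1, map_one])
  · rw [hc]; field_simp

/-- An element of `F_K` which is an `m`-th power in `F_L` is an `m`-th power in `F_K`. -/
theorem descent_inj {m : ℕ} (hm : 0 < m) {f₀ : laurentBaseChange K F₀}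
    {g : laurentBaseChange L F₀} (h : embBC L F₀ f₀ = g ^ m) :
    ∃ g₀ : laurentBaseChange K F₀, embBC L F₀ g₀ = g ∧ f₀ = g₀ ^ m := by
  suffices hs : ∃ g₀ : laurentBaseChange K F₀, embBC L F₀ g₀ = g by
    obtain ⟨g₀, hg₀⟩ := hs
    refine ⟨g₀, hg₀, (embBC L F₀).injective ?_⟩
    rw [map_pow, hg₀, h]
  by_cases hg : g = 0
  · exact ⟨0, by rw [hg, map_zero]⟩
  apply exists_embBC_of_fixed
  intro σ
  have h1 : (semAut F₀ σ • g) ^ m = g ^ m := by
    rw [← semAut_smul_pow, ← h, semAut_smul_embBC]
  obtain ⟨c, hc, hcg⟩ := exists_root_of_pow_eq L hm hg h1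
  have h2 : ((g : LaurentSeries L).leadingCoeff) ∈ (algebraMap K L).range := by
    apply mem_range_of_isIntegral
    have h3 : ((g : LaurentSeries L).leadingCoeff) ^ m =
        algebraMap K L ((f₀ : LaurentSeries K).leadingCoeff) := by
      have h4 := congrArg (fun z : laurentBaseChange L F₀ => (z : LaurentSeries L).leadingCoeff) h
      have h5 : ((g ^ m : laurentBaseChange L F₀) : LaurentSeries L).leadingCoeff =
          ((g : LaurentSeries L).leadingCoeff) ^ m := by
        have : ∀ k : ℕ, ((g ^ k : laurentBaseChange L F₀) : LaurentSeries L).leadingCoeff =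
            ((g : LaurentSeries L).leadingCoeff) ^ k := by
          intro k
          induction k with
          | zero => simp
          | succ k ih =>
            rw [pow_succ, pow_succ, ← ih, ← laurent_leadingCoeff_mul]
            rfl
        exact this m
      rw [h5, coe_embBC, leadingCoeff_coeffMap] at h4
      exact h4.symm
    have h6 : IsIntegral K (((g : LaurentSeries L).leadingCoeff) ^ m) := by
      rw [h3]; exact isIntegral_algebraMap
    exact h6.of_pow hm
  obtain ⟨b, hb⟩ := h2
  have h7 := leadingCoeff_semAut L σ g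
  rw [hcg] at h7
  have h8 : (((algebraMap L (laurentBaseChange L F₀) c) * g : laurentBaseChange L F₀) :
      LaurentSeries L).leadingCoeff = c * (g : LaurentSeries L).leadingCoeff := by
    have : (((algebraMap L (laurentBaseChange L F₀) c) * g : laurentBaseChange L F₀) :
      LaurentSeries L) = algebraMap L (LaurentSeries L) c * (g : LaurentSeries L) := rfl
    rw [this, laurent_leadingCoeff_mul, algebraMap_laurentSeries_eq_single]
    congr 1
    exact HahnSeries.leadingCoeff_of_single
  rw [h8, ← hb, σ.commutes] at h7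
  have hb0 : algebraMap K L b ≠ 0 := by
    rw [hb]
    exact HahnSeries.leadingCoeff_ne_zero.mpr (fun h0 => hg (Subtype.ext h0))
  have hc1 : c = 1 := mul_right_cancel₀ hb0 (by rw [h7, one_mul])
  rw [hcg, hc1, map_one, one_mul]

end

end Fermat.Agent.H26
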