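import Mathlib
import Fermat.Agent.Descent.Inj
import Fermat.Prelude.Def_AlgebraicCurve_IsCurveOver

/-!
# A canonical element of twisted Riemann-Roch spaces
-/

set_option autoImplicit false

namespace Fermat.Agent.H26

open AlgebraicCurve ModularCurve

section

variable {L E : Type*} [Field L] [Field E] [Algebra L E]

/-- The space of `u` with `m div u + div f + m d (x)_∞ ≥ 0`. -/
def VSpace (m : ℕ) (x f : E) (d : ℕ) : Set E :=
  {u | u = 0 ∨ ∀ v : Place L E, 0 ≤ m * v.ord u + v.ord f + m * d * max 0 (-v.ord x)}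

variable (L) in
abbrev VSpace' (m : ℕ) (x f : E) (d : ℕ) : Set E := VSpace (L := L) m x f d

lemma VSpace.add_mem {m : ℕ} {x f : E} {d : ℕ} {u w : E}
    (hu : u ∈ VSpace' L m x f d) (hw : w ∈ VSpace' L m x f d) :
    u + w ∈ VSpace' L m x f d := by
  by_cases hu0 : u = 0
  · rw [hu0, zero_add]; exact hw
  by_cases hw0 : w = 0
  · rw [hw0, add_zero]; exact hu
  by_cases huw : u + w = 0
  · exact Or.inl huw
  right
  intro v
  have h1 := hu.resolve_left hu0 v
  have h2 := hw.resolve_left hw0 v
  have h3 : min (v.ord u) (v.ord w) ≤ v.ord (u + w) :=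
    H18.le_ord_add v huw (Or.inr (min_le_left _ _)) (Or.inr (min_le_right _ _))
  have hm0 : (0 : ℤ) ≤ m := Int.natCast_nonneg m
  rcases min_le_iff.mp h3 with h | h
  · have := mul_le_mul_of_nonneg_left h hm0
    linarith
  · have := mul_le_mul_of_nonneg_left h hm0
    linarith

lemma VSpace.const_mul_mem {m : ℕ} {x f : E} {d : ℕ} {u : E}
    (hu : u ∈ VSpace' L m x f d) (c : L) :
    algebraMap L E c * u ∈ VSpace' L m x f d := by
  by_cases hc : c = 0
  · left; rw [hc, map_zero, zero_mul]
  by_cases hu0 : u = 0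
  · left; rw [hu0, mul_zero]
  right
  intro v
  rw [v.ord_mul ((map_ne_zero _).mpr hc) hu0, H18.ord_algebraMap, zero_add]
  exact hu.resolve_left hu0 v

lemma VSpace.mul_mem_iff {m : ℕ} {x f : E} {d : ℕ} {u w : E} (hf : f ≠ 0) (hw : w ≠ 0) :
    u ∈ VSpace' L m x (f * w ^ m) d ↔ u * w ∈ VSpace' L m x f d := by
  by_cases hu0 : u = 0
  · simp [hu0, VSpace', VSpace]
  have h : ∀ v : Place L E, (m * v.ord u + v.ord (f * w ^ m) + m * d * max 0 (-v.ord x)) =
      (m * v.ord (u * w) + v.ord f + m * d * max 0 (-v.ord x)) := by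
    intro v
    rw [v.ord_mul hf (pow_ne_zero _ hw), H18.ord_pow, v.ord_mul hu0 hw]
    ring
  simp only [VSpace', VSpace, Set.mem_setOf_eq, hu0, false_or, mul_eq_zero, hw, or_self, h]

/-- for places of degree one, a function can be reduced to a constant -/
lemma exists_ord_sub_pos (v : Place L E) (hv : v.deg = 1) {x : E} (hx : 0 ≤ v.ord x) :
    ∃ c : L, x - algebraMap L E c = 0 ∨ 0 < v.ord (x - algebraMap L E c) := by
  have hx' : x ∈ v.toValuationSubring := (H18.mem_iff v).mpr hx
  obtain ⟨c, hc⟩ := (finrank_eq_one_iff_of_nonzero' (1 : v.ResidueField) one_ne_zero).mp hv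
    (IsLocalRing.residue _ (⟨x, hx'⟩ : v.toValuationSubring))
  refine ⟨c, ?_⟩
  by_cases h0 : x - algebraMap L E c = 0
  · exact Or.inl h0
  right
  have h1 : (⟨x, hx'⟩ - algebraMap L v.toValuationSubring c : v.toValuationSubring) ∈
      IsLocalRing.maximalIdeal v.toValuationSubring := by
    rw [← IsLocalRing.residue_eq_zero_iff, map_sub, ← hc, Algebra.smul_def, mul_one]
    exact sub_self _
  have h2 : 0 ≤ v.ord (x - algebraMap L E c) :=
    (H18.mem_iff v).mp (⟨x, hx'⟩ - algebraMap L v.toValuationSubring c : v.toValuationSubring).2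
  rcases h2.lt_or_eq with h | h
  · exact h
  · exfalso
    rw [IsLocalRing.mem_maximalIdeal, mem_nonunits_iff] at h1
    apply h1
    obtain ⟨π, hπ⟩ := IsDiscreteValuationRing.exists_irreducible v.toValuationSubring
    obtain ⟨u, hu⟩ := v.exists_unit_mul_zpow h0 hπ
    rw [← h, zpow_zero, mul_one] at hu
    have : (⟨x, hx'⟩ - algebraMap L v.toValuationSubring c : v.toValuationSubring) = u :=
      Subtype.ext hu
    rw [this]
    exact u.isUnit

variable [HasPrincipalDivisors L E] (hdeg : ∀ v : Place L E, v.deg = 1)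
include hdeg

lemma degree_eq_sum (D : Divisor L E) : Divisor.degree D = D.sum (fun _ n => n) := by
  rw [Divisor.degree, Finsupp.liftAddHom_apply]
  refine Finsupp.sum_congr fun v _ => ?_
  simp [hdeg v]

lemma le_degree_of_nonneg (D : Divisor L E) (hD : ∀ v, 0 ≤ D v) (v₀ : Place L E) :
    D v₀ ≤ Divisor.degree D := by
  rw [degree_eq_sum hdeg]
  by_cases h : v₀ ∈ D.support
  · exact Finset.single_le_sum (f := fun v => D v) (fun v _ => hD v) h
  · rw [Finsupp.notMem_support_iff.mp h]
    exact Finset.sum_nonneg fun v _ => hD v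

/-- boundedness of the order at a given place. -/
lemma VSpace.exists_bound {m : ℕ} (x f : E) (hx : x ≠ 0) (hf : f ≠ 0) (d : ℕ)
    (v₀ : Place L E) : ∃ B : ℤ, ∀ u ∈ VSpace' L m x f d, u ≠ 0 → m * v₀.ord u ≤ B := by
  obtain ⟨Dx, hDx, -⟩ := HasPrincipalDivisors.exists_divisor (K := L) x hx
  obtain ⟨Df, hDf, hDf0⟩ := HasPrincipalDivisors.exists_divisor (K := L) f hf
  let P : Divisor L E := Dx.mapRange (fun n => max 0 (-n)) (by simp)
  have hP : ∀ v, P v = max 0 (-v.ord x) := fun v => by
    rw [Finsupp.mapRange_apply, hDx]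
  refine ⟨(m * d : ℤ) * Divisor.degree P - (v₀.ord f), fun u hu hu0 => ?_⟩
  obtain ⟨Du, hDu, hDu0⟩ := HasPrincipalDivisors.exists_divisor (K := L) u hu0
  let B : Divisor L E := (m : ℤ) • Du + Df + (m * d : ℤ) • P
  have hB : ∀ v, B v = m * v.ord u + v.ord f + m * d * max 0 (-v.ord x) := fun v => by
    change (m : ℤ) * Du v + Df v + (m * d : ℤ) * P v = _
    rw [hDu, hDf, hP]
  have h1 := le_degree_of_nonneg hdeg B (fun v => by rw [hB]; exact hu.resolve_left hu0 v) v₀
  have h2 : Divisor.degree B = (m * d : ℤ) * Divisor.degree P := by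
    change Divisor.degree ((m : ℤ) • Du + Df + (m * d : ℤ) • P) = _
    rw [map_add, map_add, map_zsmul, map_zsmul, hDu0, hDf0]
    simp
  rw [h2, hB] at h1
  have h3 : 0 ≤ (m * d : ℤ) * max 0 (-v₀.ord x) := by positivity
  linarith

/-- non-vanishing for large `d`. -/
lemma VSpace.exists_ne_zero {m : ℕ} (hm : 0 < m) (x f : E) (hf : f ≠ 0)
    (hx : ∀ c : L, x - algebraMap L E c ≠ 0) :
    ∃ d : ℕ, ∃ u ∈ VSpace' L m x f d, u ≠ 0 := by
  classical
  obtain ⟨Df, hDf, hDf0⟩ := HasPrincipalDivisors.exists_divisor (K := L) f hf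
  choose! c hc using fun (v : Place L E) (h : 0 ≤ v.ord x) => exists_ord_sub_pos v (hdeg v) h
  let S : Finset (Place L E) := Df.support.filter (fun v => 0 ≤ v.ord x)
  let A : ℕ := ∑ v ∈ Df.support, (Df v).natAbs
  have hA : ∀ v : Place L E, -(A : ℤ) ≤ v.ord f := by
    intro v
    by_cases hv : v ∈ Df.support
    · have h1 : (Df v).natAbs ≤ A := Finset.single_le_sum (f := fun v => (Df v).natAbs)
        (fun _ _ => Nat.zero_le _) hv
      rw [← hDf]
      omega
    · rw [← hDf, Finsupp.notMem_support_iff.mp hv]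
      omega
  let u : E := ∏ w ∈ S, (x - algebraMap L E (c w)) ^ A
  have hu0 : u ≠ 0 := Finset.prod_ne_zero_iff.mpr fun w _ => pow_ne_zero _ (hx _)
  have hord : ∀ v : Place L E, v.ord u = ∑ w ∈ S, A * v.ord (x - algebraMap L E (c w)) := by
    intro v
    have key : ∀ T : Finset (Place L E), v.ord (∏ w ∈ T, (x - algebraMap L E (c w)) ^ A) =
        ∑ w ∈ T, A * v.ord (x - algebraMap L E (c w)) := by
      intro T
      induction T using Finset.induction_on with
      | empty => simp
      | insert w T hw ih =>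
        rw [Finset.prod_insert hw, Finset.sum_insert hw, v.ord_mul (pow_ne_zero _ (hx _))
          (Finset.prod_ne_zero_iff.mpr fun w _ => pow_ne_zero _ (hx _)), H18.ord_pow, ih]
    exact key S
  refine ⟨A * S.card + A, u, Or.inr fun v => ?_, hu0⟩
  have hfv := hA v
  have hm1 : (1 : ℤ) ≤ m := by exact_mod_cast hm
  rcases le_or_gt 0 (v.ord x) with hvx | hvx
  · -- finite place
    have h1 : max 0 (-v.ord x) = 0 := max_eq_left (by omega)
    rw [h1, mul_zero, add_zero]
    have h2 : ∀ w, 0 ≤ v.ord (x - algebraMap L E (c w)) := by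
      intro w
      rw [sub_eq_add_neg, ← map_neg]
      refine H18.le_ord_add v ?_ (Or.inr hvx) (Or.inr (H18.ord_algebraMap v _).ge)
      rw [map_neg, ← sub_eq_add_neg]
      exact hx _
    by_cases hvS : v ∈ Df.support
    · have hvS' : v ∈ S := Finset.mem_filter.mpr ⟨hvS, hvx⟩
      have h3 : (A : ℤ) ≤ v.ord u := by
        rw [hord]
        calc (A : ℤ) ≤ A * v.ord (x - algebraMap L E (c v)) := by
              have := (hc v hvx).resolve_left (hx _)
              have hA0 : (0 : ℤ) ≤ A := Int.natCast_nonneg _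
              nlinarith
          _ ≤ _ := Finset.single_le_sum (f := fun w => (A : ℤ) * v.ord (x - algebraMap L E (c w)))
              (fun w _ => mul_nonneg (Int.natCast_nonneg _) (h2 w)) hvS'
      have hA0 : (0 : ℤ) ≤ A := Int.natCast_nonneg _
      nlinarith
    · have h4 : v.ord f = 0 := by rw [← hDf, Finsupp.notMem_support_iff.mp hvS]
      have h3 : 0 ≤ v.ord u := by
        rw [hord]
        exact Finset.sum_nonneg fun w _ => mul_nonneg (Int.natCast_nonneg _) (h2 w)
      rw [h4, add_zero]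
      exact mul_nonneg (Int.natCast_nonneg _) h3
  · -- pole of x
    have h1 : max 0 (-v.ord x) = -v.ord x := max_eq_right (by omega)
    have h2 : ∀ w, v.ord (x - algebraMap L E (c w)) = v.ord x := by
      intro w
      rw [sub_eq_add_neg, ← map_neg]
      have hx0 : x ≠ 0 := by
        rintro rfl
        simp at hvx
      exact (H18.ord_add_eq_of_lt v hx0 (Or.inr (by rw [H18.ord_algebraMap]; exact hvx))).1
    rw [h1, hord, Finset.sum_congr rfl (fun w _ => by rw [h2 w]), Finset.sum_const, nsmul_eq_mul]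
    push_cast
    have h5 : (0 : ℤ) ≤ A := Int.natCast_nonneg _
    have h6 : (m : ℤ) * (S.card * (A * v.ord x)) + v.ord f +
        m * (A * S.card + A) * (-v.ord x) = m * A * (-v.ord x) + v.ord f := by ring
    rw [h6]
    have h7 : (A : ℤ) ≤ m * A * (-v.ord x) := by
      have h8 : (1 : ℤ) ≤ -v.ord x := by omega
      calc (A : ℤ) = 1 * A * 1 := by ring
        _ ≤ m * A * (-v.ord x) := by gcongr
    linarith

end

end Fermat.Agent.H26
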