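import Mathlib
import Fermat.Agent.H05.Kum
import Fermat.Prelude.Def_ModularCurve_ArithmeticGalois
import Fermat.Prelude.Def_GaloisRep_Residual

/-!
# Every element of the function field over `ℚ̄` is defined over a number field
-/

set_option autoImplicit false
set_option maxSynthPendingDepth 3

noncomputable section

namespace Fermat.Agent.H26

open AlgebraicCurve ModularCurve

local notation "Qb" => AlgebraicClosure ℚ
local notation "Γℚ" => AlgebraicClosure ℚ ≃ₐ[ℚ] AlgebraicClosure ℚ

/-- Every element of the function field over `ℚ̄` is defined over a number field. -/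
theorem exists_fixing_field (F₀ : IntermediateField ℚ (LaurentSeries ℚ))
    (x : LaurentSeries Qb) (hx : x ∈ laurentBaseChange Qb F₀) :
    ∃ E : IntermediateField ℚ Qb, FiniteDimensional ℚ E ∧
      ∀ σ : Γℚ, (∀ a ∈ E, σ a = a) → coeffMap (σ : Qb →+* Qb) x = x := by
  rw [mem_laurentBaseChange_iff] at hx
  induction hx using Subfield.closure_induction with
  | mem y hy =>
    rcases hy with ⟨a, rfl⟩ | ⟨z, hz, rfl⟩
    · refine ⟨IntermediateField.adjoin ℚ {a}, ?_, fun σ hσ => ?_⟩
      · exact IntermediateField.adjoin.finiteDimensional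
          ((AlgebraicClosure.isAlgebraic ℚ).isAlgebraic a).isIntegral
      · rw [coeffMap_algebraMap]
        congr 1
        exact hσ a (IntermediateField.mem_adjoin_simple_self ℚ a)
    · refine ⟨⊥, inferInstance, fun σ _ => ?_⟩
      ext k
      rw [coeffMap_coeff, coeffEmb_coeff]
      exact σ.commutes _
  | one => exact ⟨⊥, inferInstance, fun σ _ => map_one _⟩
  | add y z _ _ hy hz =>
    obtain ⟨E, hE, hE'⟩ := hy
    obtain ⟨E', hE1, hE1'⟩ := hz
    refine ⟨E ⊔ E', inferInstance, fun σ hσ => ?_⟩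
    rw [map_add, hE' σ fun a ha => hσ a (le_sup_left (a := E) ha),
      hE1' σ fun a ha => hσ a (le_sup_right (a := E) ha)]
  | neg y _ hy =>
    obtain ⟨E, hE, hE'⟩ := hy
    exact ⟨E, hE, fun σ hσ => by rw [map_neg, hE' σ hσ]⟩
  | inv y _ hy =>
    obtain ⟨E, hE, hE'⟩ := hy
    exact ⟨E, hE, fun σ hσ => by rw [map_inv₀, hE' σ hσ]⟩
  | mul y z _ _ hy hz =>
    obtain ⟨E, hE, hE'⟩ := hy
    obtain ⟨E', hE1, hE1'⟩ := hz
    refine ⟨E ⊔ E', inferInstance, fun σ hσ => ?_⟩
    rw [map_mul, hE' σ fun a ha => hσ a (le_sup_left (a := E) ha),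
      hE1' σ fun a ha => hσ a (le_sup_right (a := E) ha)]

/-- Every torsion point is defined over a number field. -/
theorem exists_fixing_field_torsion (F₀ : IntermediateField ℚ (LaurentSeries ℚ))
    {m : ℕ} (hm : m ≠ 0) (x : Pic0 Qb (laurentBaseChange Qb F₀)) (hx : m • x = 0) :
    ∃ E : IntermediateField ℚ Qb, FiniteDimensional ℚ E ∧
      ∀ σ : Γℚ, (∀ a ∈ E, σ a = a) → σ • x = x := by
  obtain ⟨f, hf⟩ := H05.exists_kum hx
  obtain ⟨E, hE, hE'⟩ := exists_fixing_field F₀ f f.2
  refine ⟨E, hE, fun σ hσ => ?_⟩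
  have h1 := hf.smul (arithmeticGalois F₀ σ)
  have h2 : arithmeticGalois F₀ σ • f = f := Subtype.ext (hE' σ hσ)
  rw [h2] at h1
  exact h1.unique_left hm hf

/-- A finite set of torsion points is defined over a number field. -/
theorem exists_fixing_field_finite (F₀ : IntermediateField ℚ (LaurentSeries ℚ))
    {m : ℕ} (hm : m ≠ 0) (hfin : Finite {x : Pic0 Qb (laurentBaseChange Qb F₀) // m • x = 0}) :
    ∃ E : IntermediateField ℚ Qb, FiniteDimensional ℚ E ∧
      ∀ σ : Γℚ, (∀ a ∈ E, σ a = a) → ∀ x : Pic0 Qb (laurentBaseChange Qb F₀), m • x = 0 →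
        σ • x = x := by
  choose E hE hE' using fun x : {x : Pic0 Qb (laurentBaseChange Qb F₀) // m • x = 0} =>
    exists_fixing_field_torsion F₀ hm x.1 x.2
  refine ⟨⨆ x, E x, IntermediateField.finiteDimensional_iSup_of_finite, fun σ hσ x hx => ?_⟩
  exact hE' ⟨x, hx⟩ σ fun a ha => hσ a (le_iSup E ⟨x, hx⟩ ha)

end Fermat.Agent.H26
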