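import Mathlib
import Fermat.Agent.Igusa.Kernel
import Fermat.Agent.Descent.Lattice
import Fermat.Agent.H05.ModField

/-!
# The chart rings of `X₀(N)` over `ℤ_(ℓ)` are finite over `ℤ_(ℓ)[x₀]`
-/

set_option autoImplicit false

noncomputable section

namespace Fermat.Agent.H26

open ModularCurve ModularCurve.IgusaScheme Polynomial
open scoped IntermediateField
open Fermat.Agent.Igusa (Rl CL mem_Rl_iff_norm polyEquiv)

section

variable {N : ℕ} [NeZero N] {ℓ : ℕ} [hℓ : Fact ℓ.Prime]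

theorem finiteDimensional_ratAlgebra {F : Type*} [Field F] (i1 i2 : Algebra ℚ F) (x y : F)
    (hxy : x = y) (h : letI := i1; FiniteDimensional ℚ⟮x⟯ F) :
    letI := i2; FiniteDimensional ℚ⟮y⟯ F := by
  have h12 : i1 = i2 := Subsingleton.elim i1 i2
  subst h12
  subst hxy
  exact h

theorem finiteDimensional_x₀ {x₀ : ↥(modularFunctionFieldFull N)}
    (hx₀ : x₀ = jFull N ∨ x₀ = (jFull N)⁻¹) :
    FiniteDimensional ℚ⟮x₀⟯ ↥(modularFunctionFieldFull N) := by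
  have h1 : FiniteDimensional ℚ⟮jFull N⟯ ↥(modularFunctionFieldFull N) := by
    exact finiteDimensional_ratAlgebra (F := ↥(modularFunctionFieldFull N))
      _ _ (H05.jF ℚ N 1 (one_dvd N)) _
      (Subtype.ext (qExpand_one_apply _)) (H05.finiteDimensional_jF ℚ N 1 (one_dvd N))
  rcases hx₀ with rfl | rfl
  · exact h1
  · have h2 : ℚ⟮(jFull N)⁻¹⟯ = ℚ⟮jFull N⟯ := by
      apply le_antisymm
      · rw [IntermediateField.adjoin_simple_le_iff]
        exact inv_mem (IntermediateField.mem_adjoin_simple_self ℚ _)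
      · rw [IntermediateField.adjoin_simple_le_iff]
        have := inv_mem (IntermediateField.mem_adjoin_simple_self ℚ (jFull N)⁻¹)
        rwa [inv_inv] at this
    rw [h2]
    exact h1

theorem aeval_x₀_injective {x₀ : ↥(modularFunctionFieldFull N)}
    (hx₀ : x₀ = jFull N ∨ x₀ = (jFull N)⁻¹) :
    Function.Injective (aeval (R := ↥(Rl ℓ)) x₀) := by
  rcases hx₀ with rfl | rfl
  · exact Igusa.aeval_jFull_injective
  · exact Igusa.aeval_jFull_inv_injective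

theorem adjoin_Rl_le (x₀ : ↥(modularFunctionFieldFull N)) (y : Algebra.adjoin (Rl ℓ) {x₀}) :
    (y : ↥(modularFunctionFieldFull N)) ∈ ℚ⟮x₀⟯ := by
  obtain ⟨y, hy⟩ := y
  change y ∈ ℚ⟮x₀⟯
  induction hy using Algebra.adjoin_induction with
  | mem z hz =>
    rw [Set.mem_singleton_iff] at hz
    rw [hz]
    exact IntermediateField.mem_adjoin_simple_self ℚ _
  | algebraMap a =>
    rw [IsScalarTower.algebraMap_apply (Rl ℓ) ℚ ↥(modularFunctionFieldFull N)]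
    exact (ℚ⟮x₀⟯).algebraMap_mem _
  | add y z _ _ hy hz => exact add_mem hy hz
  | mul y z _ _ hy hz => exact mul_mem hy hz

/-- `ℤ_(ℓ)[x₀] → ℚ(x₀)`. -/
def adjToField (x₀ : ↥(modularFunctionFieldFull N)) : Algebra.adjoin (Rl ℓ) {x₀} →+* ℚ⟮x₀⟯ where
  toFun y := ⟨y, adjoin_Rl_le x₀ y⟩
  map_one' := rfl
  map_mul' _ _ := rfl
  map_zero' := rfl
  map_add' _ _ := rfl

theorem exists_clear (p : ℚ[X]) : ∃ (b : ℤ) (q : (Rl ℓ)[X]), b ≠ 0 ∧
    q.map (algebraMap (Rl ℓ) ℚ) = C (b : ℚ) * p := by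
  obtain ⟨b, hb⟩ := IsLocalization.integerNormalization_map_to_map (nonZeroDivisors ℤ) p
  refine ⟨b, (IsLocalization.integerNormalization (nonZeroDivisors ℤ) p).map
    (Int.castRingHom (Rl ℓ)), nonZeroDivisors.ne_zero b.2, ?_⟩
  rw [Polynomial.map_map]
  have h1 : (algebraMap (Rl ℓ) ℚ).comp (Int.castRingHom (Rl ℓ)) = algebraMap ℤ ℚ :=
    RingHom.ext_int _ _
  rw [h1, hb, ← smul_eq_C_mul]
  ext n
  simp

theorem isFractionRing_x₀ (x₀ : ↥(modularFunctionFieldFull N)) :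
    letI := (adjToField (ℓ := ℓ) x₀).toAlgebra
    IsFractionRing (Algebra.adjoin (Rl ℓ) {x₀}) ℚ⟮x₀⟯ := by
  letI := (adjToField (ℓ := ℓ) x₀).toAlgebra
  haveI : FaithfulSMul (Algebra.adjoin (Rl ℓ) {x₀}) ℚ⟮x₀⟯ := by
    rw [faithfulSMul_iff_algebraMap_injective]
    intro a b h
    exact Subtype.ext (congrArg (fun z : ℚ⟮x₀⟯ => (z : ↥(modularFunctionFieldFull N))) h)
  apply IsFractionRing.of_field
  rintro ⟨z, hz⟩
  obtain ⟨r, s, hrs⟩ := (IntermediateField.mem_adjoin_simple_iff ℚ z).mp hz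
  obtain ⟨b, r', hb, hr'⟩ := exists_clear (ℓ := ℓ) r
  obtain ⟨c, s', hc, hs'⟩ := exists_clear (ℓ := ℓ) s
  have hkey : ∀ (p' : (Rl ℓ)[X]) (p : ℚ[X]) (m : ℤ), p'.map (algebraMap (Rl ℓ) ℚ) = C (m : ℚ) * p →
      aeval x₀ p' = (m : ↥(modularFunctionFieldFull N)) * aeval x₀ p := by
    intro p' p m h
    have h1 : aeval x₀ (p'.map (algebraMap (Rl ℓ) ℚ)) = aeval x₀ p' := aeval_map_algebraMap ℚ x₀ p'
    rw [← h1, h, map_mul, aeval_C, map_intCast]
  have hmem : ∀ p : (Rl ℓ)[X], aeval x₀ p ∈ Algebra.adjoin (Rl ℓ) {x₀} :=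
    fun p => aeval_mem_adjoin_singleton _ _
  refine ⟨⟨aeval x₀ (C (c : Rl ℓ) * r'), hmem _⟩, ⟨aeval x₀ (C (b : Rl ℓ) * s'), hmem _⟩, ?_⟩
  apply Subtype.ext
  change z = aeval x₀ (C (c : Rl ℓ) * r') / aeval x₀ (C (b : Rl ℓ) * s')
  rw [map_mul, map_mul, hkey r' r b hr', hkey s' s c hs', aeval_C, aeval_C, map_intCast,
    map_intCast, hrs]
  have hb' : (b : ↥(modularFunctionFieldFull N)) ≠ 0 := by exact_mod_cast hb
  have hc' : (c : ↥(modularFunctionFieldFull N)) ≠ 0 := by exact_mod_cast hc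
  by_cases h0 : aeval x₀ s = 0
  · rw [h0]; simp
  · field_simp

/-- The chart rings are finite over `ℤ_(ℓ)[x₀]`. -/
theorem exists_fg_chart {x₀ : ↥(modularFunctionFieldFull N)}
    (hx₀ : x₀ = jFull N ∨ x₀ = (jFull N)⁻¹) :
    ∃ (n : ℕ) (w : Fin n → ↥(modularFunctionFieldFull N)), (∀ i, w i ∈ chartAlg N ℓ {x₀}) ∧
      ∀ x ∈ chartAlg N ℓ {x₀}, ∃ p : Fin n → (Rl ℓ)[X], x = ∑ i, aeval x₀ (p i) * w i := by
  haveI := finiteDimensional_x₀ hx₀
  letI := (adjToField (ℓ := ℓ) x₀).toAlgebra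
  haveI : IsFractionRing (Algebra.adjoin (Rl ℓ) {x₀}) ℚ⟮x₀⟯ := isFractionRing_x₀ x₀
  haveI : IsScalarTower (Algebra.adjoin (Rl ℓ) {x₀}) ℚ⟮x₀⟯ ↥(modularFunctionFieldFull N) :=
    IsScalarTower.of_algebraMap_eq fun _ => rfl
  let e := polyEquiv (ℓ := ℓ) x₀ (aeval_x₀_injective hx₀)
  haveI : IsIntegrallyClosed (Algebra.adjoin (Rl ℓ) {x₀}) := IsIntegrallyClosed.of_equiv e.toRingEquiv
  haveI : IsNoetherianRing (Algebra.adjoin (Rl ℓ) {x₀}) := isNoetherianRing_of_ringEquiv _ e.toRingEquiv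
  haveI : Module.Finite (Algebra.adjoin (Rl ℓ) {x₀})
      (integralClosure (Algebra.adjoin (Rl ℓ) {x₀}) ↥(modularFunctionFieldFull N)) :=
    IsIntegralClosure.finite (Algebra.adjoin (Rl ℓ) {x₀}) ℚ⟮x₀⟯ ↥(modularFunctionFieldFull N)
      (integralClosure (Algebra.adjoin (Rl ℓ) {x₀}) ↥(modularFunctionFieldFull N))
  obtain ⟨n, w, hw⟩ := Module.Finite.exists_fin (R := Algebra.adjoin (Rl ℓ) {x₀})
    (M := integralClosure (Algebra.adjoin (Rl ℓ) {x₀}) ↥(modularFunctionFieldFull N))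
  refine ⟨n, fun i => (w i : ↥(modularFunctionFieldFull N)), fun i => (w i).2, fun x hx => ?_⟩
  have h1 : (⟨x, hx⟩ : integralClosure (Algebra.adjoin (Rl ℓ) {x₀}) ↥(modularFunctionFieldFull N)) ∈
      Submodule.span (Algebra.adjoin (Rl ℓ) {x₀}) (Set.range w) := by
    rw [hw]; exact Submodule.mem_top
  obtain ⟨c, hc⟩ := (Submodule.mem_span_range_iff_exists_fun _).mp h1
  refine ⟨fun i => e.symm (c i), ?_⟩
  have h2 := congrArg (fun z : integralClosure (Algebra.adjoin (Rl ℓ) {x₀})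
    ↥(modularFunctionFieldFull N) => (z : ↥(modularFunctionFieldFull N))) hc
  simp only at h2
  rw [← h2]
  rw [AddSubmonoidClass.coe_finset_sum]
  refine Finset.sum_congr rfl fun i _ => ?_
  have h3 : aeval x₀ (e.symm (c i)) = ((c i : Algebra.adjoin (Rl ℓ) {x₀}) :
      ↥(modularFunctionFieldFull N)) := by
    have := Igusa.polyEquiv_apply (ℓ := ℓ) x₀ (aeval_x₀_injective hx₀) (e.symm (c i))
    rw [← this]
    exact congrArg Subtype.val (e.apply_symm_apply (c i))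
  rw [h3]
  rfl

end

end Fermat.Agent.H26
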