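import Mathlib
import Fermat.Agent.Descent.LinDisj

/-!
# Descent of integrality over `L[t]` to `K[t]`, `L/K` algebraic
-/

set_option autoImplicit false

noncomputable section

namespace Fermat.Agent.H26

open ModularCurve HahnSeries Polynomial

section

variable {K L : Type*} [Field K] [Field L] [Algebra K L]

/-- evaluation `K[X] → K((q))` at a Laurent series. -/
def evL (t : LaurentSeries K) : K[X] →+* LaurentSeries K :=
  eval₂RingHom (algebraMap K (LaurentSeries K)) t

theorem evL_map {K' : Type*} [Field K'] (φ : K →+* K') (t : LaurentSeries K) (p : K[X]) :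
    coeffMap φ (evL t p) = evL (coeffMap φ t) (p.map φ) := by
  rw [evL, evL, coe_eval₂RingHom, coe_eval₂RingHom, eval₂_map, hom_eval₂]
  congr 1
  exact RingHom.ext fun a => coeffMap_algebraMap' φ a

/-- integrality is preserved under maps of coefficients. -/
theorem isIntegralElem_coeffMap {K' : Type*} [Field K'] (φ : K →+* K') {t z : LaurentSeries K}
    (hz : (evL t).IsIntegralElem z) : (evL (coeffMap φ t)).IsIntegralElem (coeffMap φ z) := by
  obtain ⟨p, hp, hpz⟩ := hz
  refine ⟨p.map (mapRingHom φ), hp.map _, ?_⟩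
  rw [eval₂_map]
  have h1 : (evL (coeffMap φ t)).comp (mapRingHom φ) = (coeffMap φ).comp (evL t) := by
    refine RingHom.ext fun q => ?_
    rw [RingHom.comp_apply, RingHom.comp_apply, evL_map]
    rfl
  rw [h1, ← hom_eval₂, hpz, map_zero]

/-- integrality descends along algebraic extensions. -/
theorem isIntegralElem_of_cEmb [Algebra.IsAlgebraic K L] {t z : LaurentSeries K}
    (hz : (evL (cEmb K L t)).IsIntegralElem (cEmb K L z)) : (evL t).IsIntegralElem z := by
  -- integrality over the image of `K[X]` in `L((q))`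
  let ev' : K[X] →+* LaurentSeries L := (cEmb K L).comp (evL t)
  letI : Algebra K[X] (LaurentSeries L) := ev'.toAlgebra
  letI : Algebra L[X] (LaurentSeries L) := (evL (cEmb K L t)).toAlgebra
  letI : Algebra K[X] L[X] := (mapRingHom (algebraMap K L)).toAlgebra
  haveI : IsScalarTower K[X] L[X] (LaurentSeries L) := IsScalarTower.of_algebraMap_eq fun p => by
    change cEmb K L (evL t p) = evL (cEmb K L t) (p.map (algebraMap K L))
    exact evL_map _ _ _
  haveI : Algebra.IsIntegral K[X] L[X] := by
    refine ⟨fun p => ?_⟩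
    have hX : IsIntegral K[X] (X : L[X]) := by
      have h1 : (X : L[X]) = algebraMap K[X] L[X] X := by
        change _ = (X : K[X]).map (algebraMap K L)
        rw [map_X]
      rw [h1]
      exact isIntegral_algebraMap
    have hC : ∀ a : L, IsIntegral K[X] (C a : L[X]) := by
      intro a
      have h1 : IsIntegral K a := Algebra.IsAlgebraic.isAlgebraic a |>.isIntegral
      obtain ⟨f, hf, hfa⟩ := h1
      refine ⟨f.map C, hf.map _, ?_⟩
      rw [eval₂_map]
      have h2 : (algebraMap K[X] L[X]).comp C = (C : L →+* L[X]).comp (algebraMap K L) := by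
        refine RingHom.ext fun b => ?_
        change (C b : K[X]).map (algebraMap K L) = C (algebraMap K L b)
        rw [Polynomial.map_C]
      rw [h2, ← hom_eval₂, hfa, map_zero]
    induction p using Polynomial.induction_on' with
    | add p q hp hq => exact hp.add hq
    | monomial n a =>
      rw [← C_mul_X_pow_eq_monomial]
      exact (hC a).mul (hX.pow n)
  have h1 : IsIntegral L[X] (cEmb K L z) := hz
  obtain ⟨p, hp, hpz⟩ := isIntegral_trans (R := K[X]) _ h1
  refine ⟨p, hp, ?_⟩
  apply coeffMap_injective (algebraMap K L).injective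
  rw [map_zero, ← hpz, hom_eval₂]
  rfl

/-- elements of `extend L F` have coefficients in a finite extension. -/
theorem exists_coeff_field [Algebra.IsAlgebraic K L] (F : IntermediateField K (LaurentSeries K))
    {z : LaurentSeries L} (hz : z ∈ extend L F) :
    ∃ E : IntermediateField K L, FiniteDimensional K E ∧ ∃ w : LaurentSeries E,
      coeffMap (algebraMap E L) w = z := by
  have hz' : z ∈ Subfield.closure (Set.range (algebraMap L (LaurentSeries L)) ∪
      (cEmb K L '' (F : Set (LaurentSeries K)))) := hz
  clear hz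
  have hle : ∀ {E E' : IntermediateField K L} (h : E ≤ E') (w : LaurentSeries E),
      coeffMap (algebraMap E' L) (coeffMap (IntermediateField.inclusion h : E →+* E') w) =
        coeffMap (algebraMap E L) w := by
    intro E E' h w
    rw [coeffMap_coeffMap]
    rfl
  induction hz' using Subfield.closure_induction with
  | mem y hy =>
    rcases hy with ⟨a, rfl⟩ | ⟨w, hw, rfl⟩
    · refine ⟨IntermediateField.adjoin K {a}, ?_,
        algebraMap (IntermediateField.adjoin K {a}) (LaurentSeries (IntermediateField.adjoin K {a}))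
        (⟨a, IntermediateField.mem_adjoin_simple_self K a⟩ : IntermediateField.adjoin K {a}), ?_⟩
      · exact IntermediateField.adjoin.finiteDimensional
          (Algebra.IsAlgebraic.isAlgebraic a).isIntegral
      · rw [coeffMap_algebraMap']
        rfl
    · refine ⟨⊥, inferInstance, cEmb K _ w, ?_⟩
      rw [cEmb, coeffMap_coeffMap]
      rfl
  | one => exact ⟨⊥, inferInstance, 1, map_one _⟩
  | add y z _ _ hy hz =>
    obtain ⟨E, hE, w, rfl⟩ := hy
    obtain ⟨E', hE', w', rfl⟩ := hz
    refine ⟨E ⊔ E', inferInstance,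
      coeffMap (IntermediateField.inclusion (le_sup_left : E ≤ E ⊔ E') : E →+* ↥(E ⊔ E')) w +
      coeffMap (IntermediateField.inclusion (le_sup_right : E' ≤ E ⊔ E') : E' →+* ↥(E ⊔ E')) w', ?_⟩
    rw [map_add, hle, hle]
  | neg y _ hy =>
    obtain ⟨E, hE, w, rfl⟩ := hy
    exact ⟨E, hE, -w, map_neg _ _⟩
  | inv y _ hy =>
    obtain ⟨E, hE, w, rfl⟩ := hy
    exact ⟨E, hE, w⁻¹, map_inv₀ _ _⟩
  | mul y z _ _ hy hz =>
    obtain ⟨E, hE, w, rfl⟩ := hy
    obtain ⟨E', hE', w', rfl⟩ := hz
    refine ⟨E ⊔ E', inferInstance,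
      coeffMap (IntermediateField.inclusion (le_sup_left : E ≤ E ⊔ E') : E →+* ↥(E ⊔ E')) w *
      coeffMap (IntermediateField.inclusion (le_sup_right : E' ≤ E ⊔ E') : E' →+* ↥(E ⊔ E')) w', ?_⟩
    rw [map_mul, hle, hle]

end

section Descent

variable {K L : Type*} [Field K] [Field L] [Algebra K L] [Algebra.IsAlgebraic K L] [CharZero K]
  [IsAlgClosed L] (F : IntermediateField K (LaurentSeries K))

/-- a field endomorphism preserves `extend L F`. -/
theorem coeffMap_mem_extend (σ : L →ₐ[K] L) {z : LaurentSeries L} (hz : z ∈ extend L F) :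
    coeffMap (σ : L →+* L) z ∈ extend L F := by
  have hz' : z ∈ Subfield.closure (Set.range (algebraMap L (LaurentSeries L)) ∪
      (cEmb K L '' (F : Set (LaurentSeries K)))) := hz
  clear hz
  induction hz' using Subfield.closure_induction with
  | mem y hy =>
    rcases hy with ⟨a, rfl⟩ | ⟨w, hw, rfl⟩
    · rw [coeffMap_algebraMap']
      exact (extend L F).algebraMap_mem _
    · rw [cEmb, coeffMap_coeffMap]
      have : (σ : L →+* L).comp (algebraMap K L) = algebraMap K L :=
        RingHom.ext fun a => σ.commutes a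
      rw [this]
      exact cEmb_mem_extend hw
  | one => rw [map_one]; exact one_mem _
  | add x y _ _ hx hy => rw [map_add]; exact add_mem hx hy
  | neg x _ hx => rw [map_neg]; exact neg_mem hx
  | inv x _ hx => rw [map_inv₀]; exact inv_mem hx
  | mul x y _ _ hx hy => rw [map_mul]; exact mul_mem hx hy

/-- **Descent of integrality.** -/
theorem exists_integral_expansion {t : LaurentSeries K} {z : LaurentSeries L}
    (hz : z ∈ extend L F) (hint : (evL (cEmb K L t)).IsIntegralElem z) :
    ∃ (n : ℕ) (f : Fin n → L) (y : Fin n → LaurentSeries K),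
      (∀ i, y i ∈ F ∧ (evL t).IsIntegralElem (y i)) ∧
      z = ∑ i, algebraMap L (LaurentSeries L) (f i) * cEmb K L (y i) := by
  classical
  obtain ⟨E, hE, w, hw⟩ := exists_coeff_field F hz
  haveI := hE
  let n := Module.finrank K E
  let b : Module.Basis (Fin n) K E := Module.finBasis K E
  -- coordinates
  let y : Fin n → LaurentSeries K := fun i =>
    HahnSeries.mk (fun m => b.repr (w.coeff m) i) (w.isPWO_support.mono (by
      intro m hm
      rw [HahnSeries.mem_support]
      intro h0
      apply hm
      change b.repr (w.coeff m) i = 0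
      rw [h0, map_zero]
      rfl))
  have hycoeff : ∀ i m, (y i).coeff m = b.repr (w.coeff m) i := fun i m => rfl
  have hexp : ∀ φ : E →ₐ[K] L, coeffMap (φ : E →+* L) w =
      ∑ i, algebraMap L (LaurentSeries L) (φ (b i)) * cEmb K L (y i) := by
    intro φ
    ext m
    rw [coeffMap_coeff, HahnSeries.coeff_sum]
    simp_rw [coeff_algebraMap_mul, coeffMap_coeff, hycoeff]
    conv_lhs => rw [← b.sum_repr (w.coeff m)]
    change φ _ = _
    rw [map_sum]
    refine Finset.sum_congr rfl fun i _ => ?_
    rw [map_smul, Algebra.smul_def, mul_comm]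
  -- extension of embeddings
  have hext : ∀ φ : E →ₐ[K] L, ∃ σ : L →ₐ[K] L, coeffMap (σ : L →+* L) z =
      coeffMap (φ : E →+* L) w := by
    intro φ
    obtain ⟨σ, hσ⟩ := IntermediateField.exists_algHom_of_splits (E := L) (K := L) (fun s =>
      ⟨(Algebra.IsAlgebraic.isAlgebraic s).isIntegral, IsAlgClosed.splits _⟩) φ
    refine ⟨σ, ?_⟩
    rw [← hw, coeffMap_coeffMap]
    exact coeffMap_congr (RingHom.ext fun x => DFunLike.congr_fun hσ x) w
  choose σ hσ using hext
  have hdual : ∀ k, cEmb K L (y k) = ∑ φ : E →ₐ[K] L,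
      algebraMap L (LaurentSeries L) (φ (b.traceDual k)) * coeffMap (σ φ : L →+* L) z := by
    intro k
    have h1 : ∀ i, ∑ φ : E →ₐ[K] L, φ (b.traceDual k) * φ (b i) =
        if i = k then 1 else 0 := by
      intro i
      have h2 := b.trace_traceDual_mul k i
      have h3 := trace_eq_sum_embeddings (K := K) (L := E) L (x := b.traceDual k * b i)
      rw [h2] at h3
      simp_rw [map_mul] at h3
      rw [← h3]
      split_ifs <;> simp
    simp_rw [hσ, hexp, Finset.mul_sum]
    rw [Finset.sum_comm]
    simp_rw [← mul_assoc, ← map_mul, ← Finset.sum_mul, ← map_sum, map_mul, h1]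
    rw [Finset.sum_eq_single k]
    · rw [if_pos rfl, map_one, one_mul]
    · intro i _ hik
      rw [if_neg hik, map_zero, zero_mul]
    · intro hk
      exact absurd (Finset.mem_univ k) hk
  have hyk : ∀ k, cEmb K L (y k) ∈ extend L F ∧ (evL (cEmb K L t)).IsIntegralElem (cEmb K L (y k)) := by
    intro k
    rw [hdual]
    constructor
    · exact sum_mem fun φ _ => mul_mem ((extend L F).algebraMap_mem _)
        (coeffMap_mem_extend F (σ φ) hz)
    · letI : Algebra L[X] (LaurentSeries L) := (evL (cEmb K L t)).toAlgebra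
      refine IsIntegral.sum (R := L[X]) _ fun φ _ => ?_
      refine IsIntegral.mul ?_ ?_
      · have h2 : algebraMap L (LaurentSeries L) (φ (b.traceDual k)) =
            algebraMap L[X] (LaurentSeries L) (Polynomial.C (φ (b.traceDual k))) := by
          change _ = evL (cEmb K L t) _
          rw [evL, coe_eval₂RingHom, eval₂_C]
        rw [h2]
        exact isIntegral_algebraMap
      · have h2 := isIntegralElem_coeffMap (σ φ : L →+* L) hint
        have h3 : coeffMap (σ φ : L →+* L) (cEmb K L t) = cEmb K L t := by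
          rw [cEmb, coeffMap_coeffMap]
          exact coeffMap_congr (RingHom.ext fun a => (σ φ).commutes a) t
        rw [h3] at h2
        exact h2
  refine ⟨n, fun i => (b i : L), y, fun i => ⟨mem_of_cEmb_mem_extend (hyk i).1,
    isIntegralElem_of_cEmb (hyk i).2⟩, ?_⟩
  rw [← hw]
  exact hexp E.val

end Descent

end Fermat.Agent.H26
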