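import Mathlib
import Fermat.Agent.Descent.FG0
import Fermat.Agent.Descent.IntDescent
import Fermat.Agent.H28.ModRed
import Fermat.Agent.Q.Residue
import Fermat.Agent.Q.Val
import Fermat.Agent.H08.RankOne
import Fermat.Agent.Igusa.NormQ

/-!
# (FG): functions integral over `A[t]`, `t = j` or `1/j`
-/

set_option autoImplicit false

noncomputable section

namespace Fermat.Agent.H26

open ModularCurve ModularCurve.IgusaScheme Polynomial
open scoped IntermediateField
open Fermat.Agent.Igusa (Rl CL mem_Rl_iff_norm polyEquiv)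
open Fermat.Agent.H28 (IntOver evA modRed jBar)

section

variable {N : ℕ} [NeZero N] {ℓ : ℕ} [hℓ : Fact ℓ.Prime]

variable (N) in
/-- `F_N → Q̄ F_N`. -/
def iotaBar : ↥(modularFunctionFieldFull N) →+* modularFunctionFieldBar N where
  toFun x := ⟨coeffEmb (AlgebraicClosure ℚ) x, coeffEmb_mem_laurentBaseChange _ x.2⟩
  map_one' := Subtype.ext (map_one _)
  map_mul' x y := Subtype.ext (map_mul _ _ _)
  map_zero' := Subtype.ext (map_zero _)
  map_add' x y := Subtype.ext (map_add _ _ _)

theorem coe_iotaBar (x : ↥(modularFunctionFieldFull N)) :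
    ((iotaBar N x : modularFunctionFieldBar N) : LaurentSeries (AlgebraicClosure ℚ)) =
      cEmb ℚ (AlgebraicClosure ℚ) x := rfl

theorem iotaBar_jFull : iotaBar N (jFull N) = jBar N :=
  Subtype.ext (coeffMap_jqModC (algebraMap ℚ (AlgebraicClosure ℚ)))

theorem exists_multiple_mem {x₀ y : ↥(modularFunctionFieldFull N)}
    (hy : (evL (x₀ : LaurentSeries ℚ)).IsIntegralElem (y : LaurentSeries ℚ)) :
    ∃ c : ℚ, c ≠ 0 ∧ algebraMap ℚ ↥(modularFunctionFieldFull N) c * y ∈ chartAlg N ℓ {x₀} := by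
  classical
  obtain ⟨P, hP, hPy⟩ := hy
  -- common denominator of all coefficients
  have hclear : ∀ S : Finset ℕ, ∃ (b : ℤ) (q : ℕ → (Rl ℓ)[X]), b ≠ 0 ∧ ∀ i ∈ S,
      (q i).map (algebraMap (Rl ℓ) ℚ) = C (b : ℚ) * P.coeff i := by
    intro S
    induction S using Finset.induction with
    | empty => exact ⟨1, fun _ => 0, one_ne_zero, by simp⟩
    | insert j S hj ih =>
      obtain ⟨b, q, hb, h⟩ := ih
      obtain ⟨c, r, hc, hr⟩ := exists_clear (ℓ := ℓ) (P.coeff j)
      refine ⟨b * c, fun i => if i = j then C (b : Rl ℓ) * r else C (c : Rl ℓ) * q i,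
        mul_ne_zero hb hc, ?_⟩
      intro i hi
      by_cases hij : i = j
      · subst hij
        beta_reduce
        rw [if_pos rfl, Polynomial.map_mul, hr, Polynomial.map_C, map_intCast]
        push_cast
        rw [Polynomial.C_mul]
        ring
      · beta_reduce
        rw [if_neg hij, Polynomial.map_mul, h i ((Finset.mem_insert.mp hi).resolve_left hij),
          Polynomial.map_C, map_intCast]
        push_cast
        rw [Polynomial.C_mul]
        ring
  obtain ⟨b, q, hb, hq⟩ := hclear (Finset.range P.natDegree)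
  refine ⟨b, by exact_mod_cast hb, ?_⟩
  rw [mem_chartAlg_iff]
  have hmem : ∀ p : (Rl ℓ)[X], aeval x₀ p ∈ Algebra.adjoin (Rl ℓ) {x₀} :=
    fun p => aeval_mem_adjoin_singleton _ _
  set n := P.natDegree with hn
  -- the values of the coefficients
  have hval : ∀ i ∈ Finset.range n, ((aeval x₀ (q i) : ↥(modularFunctionFieldFull N)) : LaurentSeries ℚ) =
      (b : LaurentSeries ℚ) * evL (x₀ : LaurentSeries ℚ) (P.coeff i) := by
    intro i hi
    have h1 : aeval x₀ ((q i).map (algebraMap (Rl ℓ) ℚ)) = aeval x₀ (q i) :=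
      aeval_map_algebraMap ℚ x₀ (q i)
    rw [← h1, hq i hi, map_mul, aeval_C]
    have h2 : ∀ p : ℚ[X], ((aeval x₀ p : ↥(modularFunctionFieldFull N)) : LaurentSeries ℚ) =
        evL (x₀ : LaurentSeries ℚ) p := by
      intro p
      have := hom_eval₂ p (algebraMap ℚ ↥(modularFunctionFieldFull N))
        (algebraMap ↥(modularFunctionFieldFull N) (LaurentSeries ℚ)) x₀
      rw [aeval_def]
      refine this.trans ?_
      rw [evL, coe_eval₂RingHom]
      rw [Subsingleton.elim ((algebraMap ↥(modularFunctionFieldFull N) (LaurentSeries ℚ)).comp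
        (algebraMap ℚ ↥(modularFunctionFieldFull N))) (algebraMap ℚ (LaurentSeries ℚ))]
      rfl
    have h3 : ((algebraMap ℚ ↥(modularFunctionFieldFull N) (b : ℚ) *
        aeval x₀ (P.coeff i) : ↥(modularFunctionFieldFull N)) : LaurentSeries ℚ) =
        ((algebraMap ℚ ↥(modularFunctionFieldFull N) (b : ℚ) : ↥(modularFunctionFieldFull N)) :
          LaurentSeries ℚ) * ((aeval x₀ (P.coeff i) : ↥(modularFunctionFieldFull N)) :
          LaurentSeries ℚ) := rfl
    rw [h3, h2, map_intCast]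
    rfl
  -- the monic polynomial
  let Q : (Algebra.adjoin (Rl ℓ) {x₀})[X] := X ^ n + ∑ i ∈ Finset.range n,
    C (((b : Algebra.adjoin (Rl ℓ) {x₀}) ^ (n - 1 - i)) * ⟨aeval x₀ (q i), hmem _⟩) * X ^ i
  have hQ : Q.Monic := by
    apply monic_X_pow_add
    refine lt_of_le_of_lt (degree_sum_le _ _) ?_
    rw [Finset.sup_lt_iff (by exact WithBot.bot_lt_coe n)]
    intro i hi
    refine lt_of_le_of_lt (degree_C_mul_X_pow_le _ _) ?_
    exact_mod_cast Finset.mem_range.mp hi
  refine ⟨Q, hQ, ?_⟩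
  have hPy' : (y : LaurentSeries ℚ) ^ n + ∑ i ∈ Finset.range n,
      evL (x₀ : LaurentSeries ℚ) (P.coeff i) * (y : LaurentSeries ℚ) ^ i = 0 := by
    have h1 := hPy
    rw [eval₂_eq_sum_range, Finset.sum_range_succ, ← hn] at h1
    have h2 : P.coeff n = 1 := hP
    rw [h2, map_one, one_mul] at h1
    rw [add_comm]
    exact h1
  apply (algebraMap ↥(modularFunctionFieldFull N) (LaurentSeries ℚ)).injective
  rw [map_zero]
  simp only [Q, eval₂_add, eval₂_X_pow, eval₂_finset_sum, eval₂_mul, eval₂_C]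
  rw [map_add, map_sum]
  have hterm : ∀ i ∈ Finset.range n,
      (algebraMap ↥(modularFunctionFieldFull N) (LaurentSeries ℚ))
        ((algebraMap (Algebra.adjoin (Rl ℓ) {x₀}) ↥(modularFunctionFieldFull N))
          ((b : Algebra.adjoin (Rl ℓ) {x₀}) ^ (n - 1 - i) * ⟨aeval x₀ (q i), hmem _⟩) *
          (algebraMap ℚ ↥(modularFunctionFieldFull N) (b : ℚ) * y) ^ i) =
      (b : LaurentSeries ℚ) ^ n * (evL (x₀ : LaurentSeries ℚ) (P.coeff i) *
        (y : LaurentSeries ℚ) ^ i) := by
    intro i hi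
    have h5 : (algebraMap ↥(modularFunctionFieldFull N) (LaurentSeries ℚ))
        ((algebraMap (Algebra.adjoin (Rl ℓ) {x₀}) ↥(modularFunctionFieldFull N))
          ⟨aeval x₀ (q i), hmem _⟩) =
        ((aeval x₀ (q i) : ↥(modularFunctionFieldFull N)) : LaurentSeries ℚ) := rfl
    have h6 : (algebraMap ↥(modularFunctionFieldFull N) (LaurentSeries ℚ)) y = (y : LaurentSeries ℚ) :=
      rfl
    rw [map_mul, map_mul, map_mul, map_pow, map_pow, map_intCast, map_intCast, h5, hval i hi,
      map_pow, map_mul, map_intCast, map_intCast, h6]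
    have h7 : n = (n - 1 - i) + 1 + i := by
      have := Finset.mem_range.mp hi
      omega
    conv_rhs => rw [h7]
    ring
  rw [Finset.sum_congr rfl hterm, ← Finset.mul_sum, map_pow, map_mul, map_intCast, map_intCast]
  have h8 : ((b : LaurentSeries ℚ) * (algebraMap ↥(modularFunctionFieldFull N) (LaurentSeries ℚ)) y) ^ n
      = (b : LaurentSeries ℚ) ^ n * (y : LaurentSeries ℚ) ^ n := mul_pow _ _ _
  rw [h8, ← mul_add, hPy', mul_zero]

end

end Fermat.Agent.H26
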