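import Mathlib
import Fermat.Agent.Descent.FG1

/-!
# (FG): functions integral over `A[t]`, `t = j` or `1/j`
-/

set_option autoImplicit false

noncomputable section

namespace Fermat.Agent.H26

open ModularCurve ModularCurve.IgusaScheme Polynomial
open scoped IntermediateField
open Fermat.Agent.Igusa (Rl CL mem_Rl_iff_norm polyEquiv)
open Fermat.Agent.H28 (IntOver evA modRed jBar)

section

variable {N : ℕ} [NeZero N] (A : ValuationSubring (AlgebraicClosure ℚ))

variable {A} in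
theorem coe_evA (t : modularFunctionFieldBar N) (p : A[X]) :
    ((evA A t p : modularFunctionFieldBar N) : LaurentSeries (AlgebraicClosure ℚ)) =
      evL (t : LaurentSeries (AlgebraicClosure ℚ)) (p.map A.subtype) := by
  rw [evL, coe_eval₂RingHom, eval₂_map, H28.evA_apply]
  exact hom_eval₂ p _ (algebraMap (modularFunctionFieldBar N) (LaurentSeries (AlgebraicClosure ℚ))) t

variable {A} in
theorem isIntegralElem_of_intOver {t x : modularFunctionFieldBar N} (hx : IntOver A t x) :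
    (evL (t : LaurentSeries (AlgebraicClosure ℚ))).IsIntegralElem
      (x : LaurentSeries (AlgebraicClosure ℚ)) := by
  obtain ⟨p, hp, hpx⟩ := hx
  refine ⟨p.map (mapRingHom A.subtype), hp.map _, ?_⟩
  rw [eval₂_map]
  have h1 : (evL (t : LaurentSeries (AlgebraicClosure ℚ))).comp (mapRingHom A.subtype) =
      (algebraMap (modularFunctionFieldBar N) (LaurentSeries (AlgebraicClosure ℚ))).comp
        (evA A t) := by
    refine RingHom.ext fun q => ?_
    rw [RingHom.comp_apply, RingHom.comp_apply]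
    exact (coe_evA t q).symm
  rw [h1]
  have h2 := hom_eval₂ p (evA A t)
    (algebraMap (modularFunctionFieldBar N) (LaurentSeries (AlgebraicClosure ℚ))) x
  rw [hpx, map_zero] at h2
  exact h2.symm

variable {ℓ : ℕ} [hℓ : Fact ℓ.Prime]

/-- Functions integral over `A[t]` have `A`-integral `q`-expansions if `t` has. -/
theorem coeff_mem_of_intOver (hA : A.LiesOverPrime ℓ) {t x : modularFunctionFieldBar N}
    (ht : ∀ m, (t : LaurentSeries (AlgebraicClosure ℚ)).coeff m ∈ A) (hx : IntOver A t x) (m : ℤ) :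
    (x : LaurentSeries (AlgebraicClosure ℚ)).coeff m ∈ A := by
  haveI := H08.mulArchimedean_valueGroup hℓ.out hA
  have h1 : (x : LaurentSeries (AlgebraicClosure ℚ)) ∈ Q.intL A := by
    refine Q.mem_intL_of_isIntegral (Q.full_le_FL N ?_) ?_
    · rw [← Igusa.bc_eq]
      exact x.2
    · obtain ⟨p, hp, hpx⟩ := hx
      have ht' : (t : LaurentSeries (AlgebraicClosure ℚ)) ∈ Q.intL A := Q.mem_intL.mpr ht
      have hmem : ∀ q : A[X], ((evA A t q : modularFunctionFieldBar N) :
          LaurentSeries (AlgebraicClosure ℚ)) ∈ Q.intL A := by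
        intro q
        rw [coe_evA, evL, coe_eval₂RingHom, eval₂_map, eval₂_eq_sum_range]
        refine sum_mem fun i _ => mul_mem ?_ (pow_mem ht' _)
        rw [Q.mem_intL]
        intro k
        change (algebraMap (AlgebraicClosure ℚ) (LaurentSeries (AlgebraicClosure ℚ))
          (q.coeff i : AlgebraicClosure ℚ)).coeff k ∈ A
        rw [algebraMap_laurentSeries_eq_single, HahnSeries.coeff_single]
        split_ifs
        · exact (q.coeff i).2
        · exact A.zero_mem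
      let φ : A[X] →+* Q.intL A :=
        ((algebraMap (modularFunctionFieldBar N) (LaurentSeries (AlgebraicClosure ℚ))).comp
          (evA A t)).codRestrict (Q.intL A) hmem
      refine ⟨p.map φ, hp.map _, ?_⟩
      rw [eval₂_map]
      have h2 := hom_eval₂ p (evA A t)
        (algebraMap (modularFunctionFieldBar N) (LaurentSeries (AlgebraicClosure ℚ))) x
      rw [hpx, map_zero] at h2
      exact h2.symm
  exact Q.mem_intL.mp h1 m

theorem extend_eq_bar : extend (AlgebraicClosure ℚ) (modularFunctionFieldFull N) =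
    modularFunctionFieldBar N := by
  rfl

/-- the subring of `ℚ((q))` of `q`-expansions of a chart. -/
def chartO (x₀ : ↥(modularFunctionFieldFull N)) (ℓ : ℕ) [Fact ℓ.Prime] :
    Subring (LaurentSeries ℚ) :=
  (chartAlg N ℓ {x₀}).toSubring.map
    (algebraMap ↥(modularFunctionFieldFull N) (LaurentSeries ℚ))

/-- **The chart rings over `A` are generated by the chart rings over `ℤ_(ℓ)`.** -/
theorem exists_chart_expansion (hA : A.LiesOverPrime ℓ) (hN : ¬ ℓ ∣ N)
    {x₀ : ↥(modularFunctionFieldFull N)} (hx₀ : x₀ = jFull N ∨ x₀ = (jFull N)⁻¹)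
    {x : modularFunctionFieldBar N} (hx : IntOver A (iotaBar N x₀) x) :
    ∃ (d : ℕ) (a : Fin d → A) (o : Fin d → ↥(modularFunctionFieldFull N)),
      (∀ j, o j ∈ chartAlg N ℓ {x₀}) ∧
      x = ∑ j, algebraMap (AlgebraicClosure ℚ) (modularFunctionFieldBar N) (a j) *
        iotaBar N (o j) := by
  have hS : ({x₀} : Set ↥(modularFunctionFieldFull N)) ⊆ {jFull N, (jFull N)⁻¹} := by
    rcases hx₀ with rfl | rfl <;> simp
  have hx₀C : (x₀ : LaurentSeries ℚ) ∈ CL ℓ :=
    Igusa.chartAlg_le_CL hS (subset_chartAlg N ℓ {x₀} (Set.mem_singleton _))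
  have hext : (x : LaurentSeries (AlgebraicClosure ℚ)) ∈
      extend (AlgebraicClosure ℚ) (modularFunctionFieldFull N) := x.2
  obtain ⟨n, f, y, hy, hxy⟩ := exists_integral_expansion (modularFunctionFieldFull N) hext
    (isIntegralElem_of_intOver hx)
  have hO : chartO x₀ ℓ ≤ CL ℓ := by
    rintro _ ⟨z, hz, rfl⟩
    exact Igusa.chartAlg_le_CL hS hz
  have hZ : ∀ a : Rl ℓ, algebraMap ℚ (LaurentSeries ℚ) a ∈ chartO x₀ ℓ := by
    intro a
    refine ⟨algebraMap (Rl ℓ) ↥(modularFunctionFieldFull N) a,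
      (chartAlg N ℓ {x₀}).algebraMap_mem a, ?_⟩
    rw [algebraMap_laurentSeries_eq_single]
    exact Igusa.coe_algebraMap_Rl (N := N) a
  have hℓL : algebraMap ℚ (LaurentSeries ℚ) (ℓ : ℚ) = (ℓ : LaurentSeries ℚ) := map_natCast _ _
  have hsat : ∀ w ∈ CL ℓ, algebraMap ℚ (LaurentSeries ℚ) (ℓ : ℚ) * w ∈ chartO x₀ ℓ →
      w ∈ chartO x₀ ℓ := by
    rintro w hw ⟨z, hz, hzw⟩
    have hl0 : (ℓ : ↥(modularFunctionFieldFull N)) ≠ 0 := by
      exact_mod_cast hℓ.out.ne_zero
    have hl0' : (ℓ : LaurentSeries ℚ) ≠ 0 := Igusa.natCast_laurent_ne_zero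
    have hzw' : (algebraMap ↥(modularFunctionFieldFull N) (LaurentSeries ℚ)) z = (ℓ : LaurentSeries ℚ) * w := by
      rw [← hℓL]; exact hzw
    have h1 : (algebraMap ↥(modularFunctionFieldFull N) (LaurentSeries ℚ))
        ((ℓ : ↥(modularFunctionFieldFull N))⁻¹ * z) = w := by
      rw [map_mul, map_inv₀, map_natCast, hzw', ← mul_assoc, inv_mul_cancel₀ hl0', one_mul]
    refine ⟨(ℓ : ↥(modularFunctionFieldFull N))⁻¹ * z, ?_, h1⟩
    apply Igusa.mem_chart_of_mul hN hx₀
    · change (algebraMap ↥(modularFunctionFieldFull N) (LaurentSeries ℚ))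
        ((ℓ : ↥(modularFunctionFieldFull N))⁻¹ * z) ∈ CL ℓ
      rw [h1]; exact hw
    · rw [← mul_assoc, mul_inv_cancel₀ hl0, one_mul]
      exact hz
  have hy' : ∀ i, ∃ c : ℚ, c ≠ 0 ∧ algebraMap ℚ (LaurentSeries ℚ) c * y i ∈ chartO x₀ ℓ := by
    intro i
    obtain ⟨c, hc, h⟩ := exists_multiple_mem (ℓ := ℓ) (x₀ := x₀) (y := ⟨y i, (hy i).1⟩) (hy i).2
    refine ⟨c, hc, ?_⟩
    refine ⟨_, h, ?_⟩
    rw [map_mul]
    congr 1
    exact DFunLike.congr_fun (Subsingleton.elim
      ((algebraMap ↥(modularFunctionFieldFull N) (LaurentSeries ℚ)).comp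
        (algebraMap ℚ ↥(modularFunctionFieldFull N))) (algebraMap ℚ (LaurentSeries ℚ))) c
  have hz : ∀ m, ∑ i, f i * algebraMap ℚ (AlgebraicClosure ℚ) ((y i).coeff m) ∈ A := by
    intro m
    have h1 := coeff_mem_of_intOver A hA (t := iotaBar N x₀) (x := x) (fun k => by
      rw [coe_iotaBar, coeffMap_coeff]
      exact algebraMap_Rl_mem A hA ⟨_, hx₀C k⟩) hx m
    rw [hxy] at h1
    simp only [HahnSeries.coeff_sum, coeff_algebraMap_mul, coeffMap_coeff] at h1
    exact h1
  obtain ⟨d, a, o, ho, hoy⟩ := exists_lattice_expansion A hA (chartO x₀ ℓ) hO hZ hsat f y hy' hz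
  choose o' ho' hoo' using ho
  refine ⟨d, a, o', ho', ?_⟩
  apply Subtype.ext
  rw [hxy, hoy, AddSubmonoidClass.coe_finset_sum]
  refine Finset.sum_congr rfl fun j _ => ?_
  rw [← hoo' j]
  rfl

/-- elements of the charts over `ℤ_(ℓ)` are integral over `A[t]`. -/
theorem intOver_iotaBar (hA : A.LiesOverPrime ℓ) {x₀ w : ↥(modularFunctionFieldFull N)}
    (hw : w ∈ chartAlg N ℓ {x₀}) : IntOver A (iotaBar N x₀) (iotaBar N w) := by
  rw [mem_chartAlg_iff] at hw
  obtain ⟨p, hp, hpw⟩ := hw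
  have hc : ∀ q : (Rl ℓ)[X], iotaBar N (aeval x₀ q) =
      evA A (iotaBar N x₀) (q.map (rlToA A hA)) := by
    intro q
    rw [H28.evA_apply, eval₂_map, aeval_def, hom_eval₂]
    congr 1
    refine RingHom.ext fun a => ?_
    apply Subtype.ext
    change cEmb ℚ (AlgebraicClosure ℚ) ((algebraMap (Rl ℓ) ↥(modularFunctionFieldFull N) a :
      ↥(modularFunctionFieldFull N)) : LaurentSeries ℚ) =
      algebraMap (AlgebraicClosure ℚ) (LaurentSeries (AlgebraicClosure ℚ))
        (algebraMap ℚ (AlgebraicClosure ℚ) a)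
    rw [Igusa.coe_algebraMap_Rl, ← algebraMap_laurentSeries_eq_single]
    exact coeffMap_algebraMap' _ _
  have hlift : ∀ z : Algebra.adjoin (Rl ℓ) {x₀}, ∃ q : A[X],
      iotaBar N (z : ↥(modularFunctionFieldFull N)) = evA A (iotaBar N x₀) q := by
    rintro ⟨z, hz⟩
    have hz' := hz
    rw [Algebra.adjoin_singleton_eq_range_aeval] at hz'
    obtain ⟨q, hq⟩ := hz'
    refine ⟨q.map (rlToA A hA), ?_⟩
    rw [← hc]
    exact congrArg _ hq.symm
  choose g hg using hlift
  -- lift the monic polynomial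
  have h1 : p.map ((iotaBar N).comp (algebraMap (Algebra.adjoin (Rl ℓ) {x₀})
      ↥(modularFunctionFieldFull N))) ∈ Polynomial.lifts (evA A (iotaBar N x₀)) := by
    rw [lifts_iff_coeff_lifts]
    intro i
    rw [coeff_map]
    exact ⟨g (p.coeff i), (hg _).symm⟩
  obtain ⟨P, hP, -, hPm⟩ := lifts_and_natDegree_eq_and_monic h1 (hp.map _)
  refine ⟨P, hPm, ?_⟩
  rw [← eval_map, hP, eval_map, ← hom_eval₂, hpw, map_zero]

theorem iotaBar_jFull_inv : iotaBar N (jFull N)⁻¹ = (jBar N)⁻¹ := by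
  rw [map_inv₀, iotaBar_jFull]

/-- **(FG)**: the ring of functions integral over `A[t]` is finite over `A[t]`,
`t = j` or `1 / j`. -/
theorem exists_fg_intOver (hA : A.LiesOverPrime ℓ) (hN : ¬ ℓ ∣ N)
    {x₀ : ↥(modularFunctionFieldFull N)} (hx₀ : x₀ = jFull N ∨ x₀ = (jFull N)⁻¹) :
    ∃ (n : ℕ) (w : Fin n → modularFunctionFieldBar N),
      (∀ i, IntOver A (iotaBar N x₀) (w i)) ∧
      ∀ x, IntOver A (iotaBar N x₀) x →
        ∃ p : Fin n → A[X], x = ∑ i, evA A (iotaBar N x₀) (p i) * w i := by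
  obtain ⟨n, w, hw, hgen⟩ := exists_fg_chart (ℓ := ℓ) hx₀
  refine ⟨n, fun i => iotaBar N (w i), fun i => intOver_iotaBar A hA (hw i), fun x hx => ?_⟩
  obtain ⟨d, a, o, ho, hxo⟩ := exists_chart_expansion A hA hN hx₀ hx
  choose q hq using fun j => hgen (o j) (ho j)
  have hc : ∀ q : (Rl ℓ)[X], iotaBar N (aeval x₀ q) =
      evA A (iotaBar N x₀) (q.map (rlToA A hA)) := by
    intro q
    rw [H28.evA_apply, eval₂_map, aeval_def, hom_eval₂]
    congr 1
    refine RingHom.ext fun a => ?_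
    apply Subtype.ext
    change cEmb ℚ (AlgebraicClosure ℚ) ((algebraMap (Rl ℓ) ↥(modularFunctionFieldFull N) a :
      ↥(modularFunctionFieldFull N)) : LaurentSeries ℚ) =
      algebraMap (AlgebraicClosure ℚ) (LaurentSeries (AlgebraicClosure ℚ))
        (algebraMap ℚ (AlgebraicClosure ℚ) a)
    rw [Igusa.coe_algebraMap_Rl, ← algebraMap_laurentSeries_eq_single]
    exact coeffMap_algebraMap' _ _
  refine ⟨fun i => ∑ j, C (a j) * (q j i).map (rlToA A hA), ?_⟩
  rw [hxo]
  simp_rw [map_sum, Finset.sum_mul]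
  rw [Finset.sum_comm]
  refine Finset.sum_congr rfl fun j _ => ?_
  conv_lhs => rw [hq j, map_sum, Finset.mul_sum]
  refine Finset.sum_congr rfl fun i _ => ?_
  rw [map_mul, hc, map_mul, H28.evA_C, mul_assoc]

/-- (FG) for `j`. -/
theorem fg_jBar (hA : A.LiesOverPrime ℓ) (hN : ¬ ℓ ∣ N) :
    ∃ (n : ℕ) (w : Fin n → modularFunctionFieldBar N), (∀ i, IntOver A (jBar N) (w i)) ∧
      ∀ x, IntOver A (jBar N) x → ∃ p : Fin n → A[X], x = ∑ i, evA A (jBar N) (p i) * w i := by
  have h := exists_fg_intOver (N := N) A hA hN (x₀ := jFull N) (Or.inl rfl)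
  rwa [iotaBar_jFull] at h

/-- (FG) for `1 / j`. -/
theorem fg_jBar_inv (hA : A.LiesOverPrime ℓ) (hN : ¬ ℓ ∣ N) :
    ∃ (n : ℕ) (w : Fin n → modularFunctionFieldBar N), (∀ i, IntOver A (jBar N)⁻¹ (w i)) ∧
      ∀ x, IntOver A (jBar N)⁻¹ x → ∃ p : Fin n → A[X], x = ∑ i, evA A (jBar N)⁻¹ (p i) * w i := by
  have h := exists_fg_intOver (N := N) A hA hN (x₀ := (jFull N)⁻¹) (Or.inr rfl)
  rwa [iotaBar_jFull_inv] at h

end

end Fermat.Agent.H26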