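import Mathlib
import Fermat.Agent.Descent.Canonical

/-!
# Descent of `m`-torsion data from `F_L` to `F_K`
-/

set_option autoImplicit false

namespace Fermat.Agent.H26

open AlgebraicCurve ModularCurve

section

variable {K : Type*} (L : Type*) [Field K] [Field L] [Algebra K L] [Algebra ℚ K] [Algebra ℚ L]
  {F₀ : IntermediateField ℚ (LaurentSeries ℚ)}

lemma coe_algebraMap_mul (c : L) (z : laurentBaseChange L F₀) :
    ((algebraMap L (laurentBaseChange L F₀) c * z : laurentBaseChange L F₀) : LaurentSeries L) =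
      algebraMap L (LaurentSeries L) c * (z : LaurentSeries L) := rfl

lemma coe_ne_zero {z : laurentBaseChange L F₀} (hz : z ≠ 0) : (z : LaurentSeries L) ≠ 0 :=
  fun h => hz (Subtype.ext h)

/-- `q`-order. -/
noncomputable def qo (z : laurentBaseChange L F₀) : ℤ := (z : LaurentSeries L).order

/-- leading coefficient. -/
noncomputable def lc (z : laurentBaseChange L F₀) : L := (z : LaurentSeries L).leadingCoeff

lemma qo_mul {z w : laurentBaseChange L F₀} (hz : z ≠ 0) (hw : w ≠ 0) :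
    qo L (z * w) = qo L z + qo L w :=
  laurent_order_mul (coe_ne_zero L hz) (coe_ne_zero L hw)

lemma lc_mul (z w : laurentBaseChange L F₀) : lc L (z * w) = lc L z * lc L w :=
  laurent_leadingCoeff_mul _ _

lemma lc_one : lc L (1 : laurentBaseChange L F₀) = 1 := HahnSeries.leadingCoeff_one

lemma lc_pow (z : laurentBaseChange L F₀) (n : ℕ) : lc L (z ^ n) = lc L z ^ n := by
  induction n with
  | zero => simp [lc_one]
  | succ n ih => rw [pow_succ, pow_succ, lc_mul, ih]

lemma lc_algebraMap (c : L) : lc L (algebraMap L (laurentBaseChange L F₀) c) = c := by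
  change (algebraMap L (LaurentSeries L) c).leadingCoeff = c
  rw [algebraMap_laurentSeries_eq_single]
  exact HahnSeries.leadingCoeff_of_single

lemma qo_algebraMap (c : L) : qo L (algebraMap L (laurentBaseChange L F₀) c) = 0 :=
  laurent_order_algebraMap c

lemma lc_ne_zero {z : laurentBaseChange L F₀} (hz : z ≠ 0) : lc L z ≠ 0 :=
  HahnSeries.leadingCoeff_ne_zero.mpr (coe_ne_zero L hz)

lemma qo_semAut (σ : L ≃ₐ[K] L) (z : laurentBaseChange L F₀) :
    qo L (semAut F₀ σ • z) = qo L z := order_semAut L σ z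

lemma lc_semAut (σ : L ≃ₐ[K] L) (z : laurentBaseChange L F₀) :
    lc L (semAut F₀ σ • z) = σ (lc L z) := leadingCoeff_semAut L σ z

/-- cancelling leading terms. -/
lemma lt_qo_sub {z w : laurentBaseChange L F₀} (hw : w ≠ 0)
    (h : qo L z = qo L w) (hne : z - algebraMap L _ (lc L z / lc L w) * w ≠ 0) :
    qo L z < qo L (z - algebraMap L _ (lc L z / lc L w) * w) := by
  set y := z - algebraMap L _ (lc L z / lc L w) * w with hy
  have hcoe : (y : LaurentSeries L) = (z : LaurentSeries L) -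
      algebraMap L (LaurentSeries L) (lc L z / lc L w) * (w : LaurentSeries L) := rfl
  by_contra hcon
  push Not at hcon
  have h1 : (y : LaurentSeries L).coeff (qo L y) ≠ 0 := by
    rw [qo, ne_eq, HahnSeries.coeff_order_eq_zero]
    exact coe_ne_zero L hne
  apply h1
  rw [hcoe, HahnSeries.coeff_sub, coeff_algebraMap_mul]
  rcases hcon.lt_or_eq with h2 | h2
  · rw [HahnSeries.coeff_eq_zero_of_lt_order h2, HahnSeries.coeff_eq_zero_of_lt_order
      (by change qo L y < qo L w; rw [← h]; exact h2)]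
    simp
  · rw [h2]
    have h3 : (z : LaurentSeries L).coeff (qo L z) = lc L z :=
      (HahnSeries.leadingCoeff_eq).symm
    have h4 : (w : LaurentSeries L).coeff (qo L z) = lc L w := by
      rw [h]
      exact (HahnSeries.leadingCoeff_eq).symm
    rw [h3, h4, div_mul_cancel₀ _ (lc_ne_zero L hw), sub_self]

/-- maximality of the `q`-order on a twisted Riemann-Roch space. -/
def IsMaxV (m : ℕ) (x f : laurentBaseChange L F₀) (d : ℕ) (u : laurentBaseChange L F₀) : Prop :=
  u ∈ VSpace' L m x f d ∧ u ≠ 0 ∧ ∀ w ∈ VSpace' L m x f d, w ≠ 0 → qo L w ≤ qo L u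

lemma IsMaxV.eq_const_mul {m : ℕ} {x f : laurentBaseChange L F₀} {d : ℕ}
    {u w : laurentBaseChange L F₀} (hu : IsMaxV L m x f d u) (hw : IsMaxV L m x f d w) :
    w = algebraMap L _ (lc L w / lc L u) * u := by
  have h1 : qo L w = qo L u := le_antisymm (hu.2.2 w hw.1 hw.2.1) (hw.2.2 u hu.1 hu.2.1)
  by_contra hne
  have hne' : w - algebraMap L _ (lc L w / lc L u) * u ≠ 0 := sub_ne_zero.mpr hne
  have h2 := lt_qo_sub L hu.2.1 h1 hne'
  have h3 : w - algebraMap L _ (lc L w / lc L u) * u ∈ VSpace' L m x f d := by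
    have h4 : w - algebraMap L _ (lc L w / lc L u) * u =
        w + algebraMap L _ (-(lc L w / lc L u)) * u := by
      rw [map_neg]; ring
    rw [h4]
    exact VSpace.add_mem hw.1 (VSpace.const_mul_mem hu.1 _)
  exact absurd (hw.2.2 _ h3 hne') (not_le.mpr h2)

lemma IsMaxV.mul {m : ℕ} {x f : laurentBaseChange L F₀} (hf : f ≠ 0) {d : ℕ}
    {u w : laurentBaseChange L F₀} (hw : w ≠ 0) (hu : IsMaxV L m x (f * w ^ m) d u) :
    IsMaxV L m x f d (w * u) := by
  refine ⟨?_, mul_ne_zero hw hu.2.1, fun y hy hy0 => ?_⟩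
  · rw [mul_comm]
    exact (VSpace.mul_mem_iff hf hw).mp hu.1
  · have h1 : y / w ∈ VSpace' L m x (f * w ^ m) d := by
      rw [VSpace.mul_mem_iff hf hw, div_mul_cancel₀ _ hw]
      exact hy
    have h2 := hu.2.2 _ h1 (div_ne_zero hy0 hw)
    have h3 : qo L y = qo L w + qo L (y / w) := by
      rw [← qo_mul L hw (div_ne_zero hy0 hw), mul_div_cancel₀ _ hw]
    rw [h3, qo_mul L hw hu.2.1]
    linarith

lemma ord_semAut_smul (σ : L ≃ₐ[K] L) (v : Place L (laurentBaseChange L F₀))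
    (z : laurentBaseChange L F₀) :
    v.ord (semAut F₀ σ • z) = ((semAut F₀ σ)⁻¹ • v).ord z := by
  have h := SemilinearAut.ord_smul (semAut F₀ σ) ((semAut F₀ σ)⁻¹ • v) z
  rwa [smul_inv_smul] at h

lemma smul_mem_VSpace {m : ℕ} {x₀ : laurentBaseChange K F₀} {f : laurentBaseChange L F₀} {d : ℕ}
    {u : laurentBaseChange L F₀} (σ : L ≃ₐ[K] L)
    (hu : u ∈ VSpace' L m (embBC L F₀ x₀) f d) :
    semAut F₀ σ • u ∈ VSpace' L m (embBC L F₀ x₀) (semAut F₀ σ • f) d := by
  by_cases hu0 : u = 0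
  · left
    rw [hu0, smul_zero]
  right
  intro v
  have h1 := hu.resolve_left hu0 ((semAut F₀ σ)⁻¹ • v)
  rw [← ord_semAut_smul, ← ord_semAut_smul, ← ord_semAut_smul, semAut_smul_embBC] at h1
  exact h1

lemma semAut_smul_ne_zero (σ : L ≃ₐ[K] L) {z : laurentBaseChange L F₀} (hz : z ≠ 0) :
    semAut F₀ σ • z ≠ 0 := by
  intro h
  apply hz
  rw [← inv_smul_smul (semAut F₀ σ) z, h, smul_zero]

lemma semAut_symm (σ : L ≃ₐ[K] L) : semAut F₀ σ.symm = (semAut F₀ σ)⁻¹ := by
  rw [semAut, semAut, ← map_inv]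
  rfl

lemma IsMaxV.smul {m : ℕ} {x₀ : laurentBaseChange K F₀} {f : laurentBaseChange L F₀}
    {d : ℕ} {u : laurentBaseChange L F₀} (σ : L ≃ₐ[K] L)
    (hu : IsMaxV L m (embBC L F₀ x₀) f d u) :
    IsMaxV L m (embBC L F₀ x₀) (semAut F₀ σ • f) d (semAut F₀ σ • u) := by
  refine ⟨smul_mem_VSpace L σ hu.1, semAut_smul_ne_zero L σ hu.2.1, fun w hw hw0 => ?_⟩
  have h1 := smul_mem_VSpace L σ.symm hw
  rw [semAut_symm, inv_smul_smul] at h1
  have h2 := hu.2.2 _ h1 (by rw [← semAut_symm]; exact semAut_smul_ne_zero L σ.symm hw0)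
  rw [← semAut_symm, qo_semAut] at h2
  rwa [qo_semAut]

variable [IsAlgClosed K] [IsAlgClosed L]

/-- **Descent of `m`-torsion data**: `F_K → F_L` induces a surjection
`S_m(F_K) → S_m(F_L)`, provided `S_m(F_L)` is finite. -/
theorem descent_surj [HasPrincipalDivisors L (laurentBaseChange L F₀)]
    (hdegL : ∀ v : Place L (laurentBaseChange L F₀), v.deg = 1)
    (hdegK : ∀ v : Place K (laurentBaseChange K F₀), v.deg = 1)
    (x₀ : laurentBaseChange K F₀) (hx₀ : (x₀ : LaurentSeries K).order < 0)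
    (t : laurentBaseChange L F₀) (ht : (t : LaurentSeries L).order = 1)
    {m : ℕ} (hm : 0 < m)
    (hfin : ∀ s : ℕ → laurentBaseChange L F₀,
      (∀ n, s n ≠ 0 ∧ ∀ v : Place L (laurentBaseChange L F₀), (m : ℤ) ∣ v.ord (s n)) →
      ∃ i j : ℕ, i ≠ j ∧ ∃ v : laurentBaseChange L F₀, s i = s j * v ^ m)
    (f : laurentBaseChange L F₀) (hf : f ≠ 0)
    (hfm : ∀ v : Place L (laurentBaseChange L F₀), (m : ℤ) ∣ v.ord f) :
    ∃ (f₀ : laurentBaseChange K F₀) (u : laurentBaseChange L F₀), f₀ ≠ 0 ∧ u ≠ 0 ∧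
      embBC L F₀ f₀ = f * u ^ m ∧
      (∀ v : Place K (laurentBaseChange K F₀), (m : ℤ) ∣ v.ord f₀) ∧
      (f₀ : LaurentSeries K).leadingCoeff = 1 := by
  classical
  set x := embBC L F₀ x₀ with hxdef
  have hxo : qo L x < 0 := by
    rw [qo, coe_embBC, order_coeffMap]
    exact hx₀
  have hxc : ∀ c : L, x - algebraMap L _ c ≠ 0 := by
    intro c h
    rw [sub_eq_zero] at h
    rw [h, qo_algebraMap] at hxo
    exact lt_irrefl _ hxo
  have hx0 : x ≠ 0 := by
    intro h
    apply hxc 0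
    rw [h, map_zero, sub_zero]
  obtain ⟨vinf, hvinf⟩ := exists_place_order (laurentBaseChange L F₀) ⟨t, ht⟩
  obtain ⟨d, u₁, hu₁, hu₁0⟩ := VSpace.exists_ne_zero hdegL hm x f hf hxc
  obtain ⟨B, hB⟩ := VSpace.exists_bound (m := m) hdegL x f hx0 hf d vinf
  -- maximal element
  obtain ⟨u₂, hu₂⟩ : ∃ u, IsMaxV L m x f d u := by
    have hbd : ∀ n : ℤ, (∃ w ∈ VSpace' L m x f d, w ≠ 0 ∧ qo L w = n) → n ≤ max B 0 := by
      rintro n ⟨w, hw, hw0, rfl⟩
      have h1 := hB w hw hw0
      rw [hvinf] at h1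
      change (m : ℤ) * qo L w ≤ B at h1
      by_contra hcon
      push Not at hcon
      have h2 : 0 < qo L w := lt_of_le_of_lt (le_max_right _ _) hcon
      have h3 : B < qo L w := lt_of_le_of_lt (le_max_left _ _) hcon
      have h4 : (1 : ℤ) ≤ m := by exact_mod_cast hm
      nlinarith
    obtain ⟨n, ⟨u, hu, hu0, hun⟩, hmax⟩ := Int.exists_greatest_of_bdd
      (P := fun n => ∃ w ∈ VSpace' L m x f d, w ≠ 0 ∧ qo L w = n) ⟨_, hbd⟩
      ⟨_, u₁, hu₁, hu₁0, rfl⟩
    exact ⟨u, hu, hu0, fun w hw hw0 => by rw [hun]; exact hmax _ ⟨w, hw, hw0, rfl⟩⟩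
  -- normalise
  obtain ⟨c, hc⟩ := IsAlgClosed.exists_pow_nat_eq (lc L (f * u₂ ^ m))⁻¹ hm
  have hc0 : c ≠ 0 := by
    rintro rfl
    rw [zero_pow hm.ne'] at hc
    exact inv_ne_zero (lc_ne_zero L (mul_ne_zero hf (pow_ne_zero _ hu₂.2.1))) hc.symm
  set u := algebraMap L (laurentBaseChange L F₀) c * u₂ with hu
  have hu0 : u ≠ 0 := mul_ne_zero ((map_ne_zero _).mpr hc0) hu₂.2.1
  have humax : IsMaxV L m x f d u := by
    refine ⟨VSpace.const_mul_mem hu₂.1 c, hu0, fun w hw hw0 => ?_⟩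
    rw [hu, qo_mul L ((map_ne_zero _).mpr hc0) hu₂.2.1, qo_algebraMap, zero_add]
    exact hu₂.2.2 w hw hw0
  have hlc : lc L (f * u ^ m) = 1 := by
    rw [hu, mul_pow, mul_left_comm, lc_mul, lc_pow, lc_algebraMap, hc]
    exact inv_mul_cancel₀ (lc_ne_zero L (mul_ne_zero hf (pow_ne_zero _ hu₂.2.1)))
  clear_value u
  -- the key claim
  have key : ∀ (σ τ : L ≃ₐ[K] L) (v : laurentBaseChange L F₀),
      semAut F₀ σ • f = (semAut F₀ τ • f) * v ^ m →
      semAut F₀ σ • (f * u ^ m) = semAut F₀ τ • (f * u ^ m) := by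
    intro σ τ v hv
    have hσf := semAut_smul_ne_zero L σ hf
    have hτf := semAut_smul_ne_zero L τ hf
    have hv0 : v ≠ 0 := by
      rintro rfl
      rw [zero_pow hm.ne', mul_zero] at hv
      exact hσf hv
    have h1 : IsMaxV L m x (semAut F₀ σ • f) d (semAut F₀ σ • u) := humax.smul L σ
    have h2 : IsMaxV L m x (semAut F₀ τ • f) d (semAut F₀ τ • u) := humax.smul L τ
    rw [hv] at h1
    have h3 := IsMaxV.eq_const_mul L h2 (h1.mul L hτf hv0)
    set c' := lc L (v * semAut F₀ σ • u) / lc L (semAut F₀ τ • u) with hc'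
    have h4 : semAut F₀ σ • (f * u ^ m) =
        algebraMap L (laurentBaseChange L F₀) (c' ^ m) * semAut F₀ τ • (f * u ^ m) := by
      rw [semAut_smul_mul L σ f, semAut_smul_pow L σ u, hv, semAut_smul_mul L τ f,
        semAut_smul_pow L τ u, mul_assoc, ← mul_pow, h3, mul_pow, map_pow]
      ring
    have h5 := congrArg (lc L) h4
    rw [lc_semAut, hlc, lc_mul, lc_semAut, hlc, lc_algebraMap, map_one, map_one, mul_one] at h5
    rw [h4, ← h5, map_one, one_mul]
  -- all coefficients lie in `K`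
  have hcoef : ∀ n, ((f * u ^ m : laurentBaseChange L F₀) : LaurentSeries L).coeff n ∈
      (algebraMap K L).range := by
    intro n
    by_contra hcon
    choose σ hσ using fun k : ℕ => exists_algEquiv_add
      (transcendental_of_notMem_range hcon) (k : K)
    obtain ⟨i, j, hij, v, hv⟩ := hfin (fun k => semAut F₀ (σ k) • f) (fun k =>
      ⟨semAut_smul_ne_zero L (σ k) hf, fun v => by
        rw [ord_semAut_smul]
        exact hfm _⟩)
    have h1 := key (σ i) (σ j) v hv
    have h2 := congrArg (fun z : laurentBaseChange L F₀ => (z : LaurentSeries L).coeff n) h1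
    change ((semAut F₀ (σ i) • (f * u ^ m) : laurentBaseChange L F₀) : LaurentSeries L).coeff n =
      ((semAut F₀ (σ j) • (f * u ^ m) : laurentBaseChange L F₀) : LaurentSeries L).coeff n at h2
    rw [coeff_semAut, coeff_semAut, hσ, hσ] at h2
    have h3 := (algebraMap K L).injective (add_left_cancel h2)
    have : CharZero K := algebraRat.charZero K
    exact hij (Nat.cast_injective h3)
  obtain ⟨f₀, hf₀⟩ := exists_embBC_of_coeff_mem L (f * u ^ m) hcoef
  have hfu : f * u ^ m ≠ 0 := mul_ne_zero hf (pow_ne_zero _ hu0)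
  have hf₀0 : f₀ ≠ 0 := by
    rintro rfl
    rw [map_zero] at hf₀
    exact hfu hf₀.symm
  refine ⟨f₀, u, hf₀0, hu0, hf₀, fun v => ?_, ?_⟩
  · obtain ⟨w, hw⟩ := exists_place_lift_BC (K := K) L v (hdegK v)
    rw [← hw, hf₀, w.ord_mul hf (pow_ne_zero _ hu0), H18.ord_pow]
    exact dvd_add (hfm w) (dvd_mul_right _ _)
  · have h1 : lc L (embBC L F₀ f₀) = 1 := by rw [hf₀, hlc]
    rw [lc, coe_embBC, leadingCoeff_coeffMap] at h1
    exact (algebraMap K L).injective (by rw [h1, map_one])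

end

end Fermat.Agent.H26
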