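import Mathlib
import Fermat.Agent.Descent.PlaceLift
import Fermat.Prelude.Def_ModularCurve_HeckeOperator

/-!
# Norms and base change
-/

set_option autoImplicit false

namespace Fermat.Agent.H26

open ModularCurve AlgebraicCurve

section General

/-- Norms commute with base change, once a basis stays a basis. -/
theorem norm_baseChange_of_basis {A B C D : Type*} [Field A] [Field B] [Field C] [Field D]
    [Algebra A B] [Algebra C D] (e₁ : A →+* C) (e₂ : B →+* D)
    (h : ∀ a, e₂ (algebraMap A B a) = algebraMap C D (e₁ a))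
    {ι : Type*} [Fintype ι] [DecidableEq ι] (b : Module.Basis ι A B) (b' : Module.Basis ι C D)
    (hb : ∀ i, b' i = e₂ (b i)) (y : B) :
    e₁ (Algebra.norm A y) = Algebra.norm C (e₂ y) := by
  rw [Algebra.norm_eq_matrix_det b, Algebra.norm_eq_matrix_det b', RingHom.map_det]
  congr 1
  ext i j
  rw [RingHom.mapMatrix_apply, Matrix.map_apply, Algebra.leftMulMatrix_eq_repr_mul,
    Algebra.leftMulMatrix_eq_repr_mul]
  have h1 : e₂ (y * b j) = ∑ i, (e₁ (b.repr (y * b j) i)) • b' i := by
    conv_lhs => rw [← b.sum_repr (y * b j), map_sum]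
    refine Finset.sum_congr rfl fun i _ => ?_
    rw [Algebra.smul_def, map_mul, h, Algebra.smul_def, hb]
  have h2 : e₂ y * b' j = ∑ i, (e₁ (b.repr (y * b j) i)) • b' i := by
    rw [hb, ← map_mul, h1]
  rw [h2, b'.repr_sum_self]

end General

section LaurentBasis

variable {K L : Type*} [Field K] [Field L] [Algebra K L]
  {F₁ F₂ : IntermediateField K (LaurentSeries K)}

/-- linear independence is preserved. -/
theorem extend_linInd {ι : Type*} [Fintype ι] (b : ι → LaurentSeries K)
    (hb : ∀ a : ι → LaurentSeries K, (∀ i, a i ∈ F₁) → ∑ i, a i * b i = 0 → ∀ i, a i = 0)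
    (c : ι → LaurentSeries L) (hc : ∀ i, c i ∈ extend L F₁)
    (h : ∑ i, c i * cEmb K L (b i) = 0) : ∀ i, c i = 0 := by
  classical
  have h1 : ∀ i, ∃ r ∈ Algebra.adjoin L (cEmb K L '' (F₁ : Set (LaurentSeries K))),
      ∃ s ∈ Algebra.adjoin L (cEmb K L '' (F₁ : Set (LaurentSeries K))), s ≠ 0 ∧ c i = r / s := by
    intro i
    obtain ⟨r, hr, s, hs, hrs⟩ := IntermediateField.mem_adjoin_iff_div.mp (hc i)
    by_cases hs0 : s = 0
    · exact ⟨0, zero_mem _, 1, one_mem _, one_ne_zero, by rw [hrs, hs0]; simp⟩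
    · exact ⟨r, hr, s, hs, hs0, hrs⟩
  choose r hr s hs hs0 hrs using h1
  let P : LaurentSeries L := ∏ j, s j
  have hP : P ≠ 0 := Finset.prod_ne_zero_iff.mpr fun j _ => hs0 j
  have hd : ∀ i, c i * P ∈ Algebra.adjoin L (cEmb K L '' (F₁ : Set (LaurentSeries K))) := by
    intro i
    have : c i * P = r i * ∏ j ∈ Finset.univ.erase i, s j := by
      change c i * ∏ j, s j = _
      rw [← Finset.mul_prod_erase Finset.univ s (Finset.mem_univ i), hrs i]
      have := hs0 i
      field_simp
    rw [this]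
    exact mul_mem (hr i) (prod_mem fun j _ => hs j)
  let e := Module.Basis.ofVectorSpace K L
  choose S a ha ha0 hexp using fun i => hasExp_of_mem_adjoin (F := F₁) e (hd i)
  let T : Finset (Module.Basis.ofVectorSpaceIndex K L) := Finset.univ.biUnion S
  have hexp' : ∀ i, c i * P = ∑ j ∈ T, algebraMap L (LaurentSeries L) (e j) *
      cEmb K L (a i j) := by
    intro i
    rw [hexp i]
    exact Finset.sum_subset (Finset.subset_biUnion_of_mem S (Finset.mem_univ i))
      (fun j _ hj => by rw [ha0 i j hj, map_zero, mul_zero])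
  have h2 : ∑ j ∈ T, algebraMap L (LaurentSeries L) (e j) *
      cEmb K L (∑ i, a i j * b i) = 0 := by
    have h3 : (∑ i, c i * cEmb K L (b i)) * P = 0 := by rw [h, zero_mul]
    rw [Finset.sum_mul] at h3
    rw [← h3]
    simp_rw [map_sum, Finset.mul_sum]
    rw [Finset.sum_comm]
    refine Finset.sum_congr rfl fun i _ => ?_
    have h4 : c i * cEmb K L (b i) * P = (c i * P) * cEmb K L (b i) := by ring
    rw [h4, hexp' i, Finset.sum_mul]
    refine Finset.sum_congr rfl fun j _ => ?_
    rw [map_mul]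
    ring
  have h5 := sum_eq_zero_imp e.linearIndependent T _ h2
  intro i
  have h6 : c i * P = 0 := by
    rw [hexp' i]
    refine Finset.sum_eq_zero fun j hj => ?_
    rw [hb (fun i => a i j) (fun i => ha i j) (h5 j hj) i, map_zero, mul_zero]
  exact (mul_eq_zero.mp h6).resolve_right hP

/-- spanning is preserved. -/
theorem extend_span (h : F₁ ≤ F₂) {ι : Type*} [Fintype ι] (b : ι → LaurentSeries K)
    (hb2 : ∀ i, b i ∈ F₂)
    (hb : ∀ z ∈ F₂, ∃ a : ι → LaurentSeries K, (∀ i, a i ∈ F₁) ∧ z = ∑ i, a i * b i)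
    (z : LaurentSeries L) (hz : z ∈ extend L F₂) :
    ∃ c : ι → LaurentSeries L, (∀ i, c i ∈ extend L F₁) ∧ z = ∑ i, c i * cEmb K L (b i) := by
  classical
  let V : Submodule (extend L F₁) (LaurentSeries L) :=
    Submodule.span (extend L F₁) (Set.range fun i => cEmb K L (b i))
  have hV : ∀ z : LaurentSeries L, z ∈ V ↔ ∃ c : ι → LaurentSeries L,
      (∀ i, c i ∈ extend L F₁) ∧ z = ∑ i, c i * cEmb K L (b i) := by
    intro z
    rw [Submodule.mem_span_range_iff_exists_fun]
    constructor
    · rintro ⟨c, rfl⟩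
      exact ⟨fun i => (c i : LaurentSeries L), fun i => (c i).2, rfl⟩
    · rintro ⟨c, hc, rfl⟩
      exact ⟨fun i => ⟨c i, hc i⟩, rfl⟩
  have hF2 : ∀ z ∈ F₂, cEmb K L z ∈ V := by
    intro z hz
    obtain ⟨a, ha, rfl⟩ := hb z hz
    rw [hV]
    refine ⟨fun i => cEmb K L (a i), fun i => cEmb_mem_extend (ha i), ?_⟩
    rw [map_sum]
    exact Finset.sum_congr rfl fun i _ => map_mul _ _ _
  have h1 : (1 : LaurentSeries L) ∈ V := by
    have := hF2 1 (one_mem _)
    rwa [map_one] at this
  have hsm : ∀ c ∈ extend L F₁, ∀ z ∈ V, c * z ∈ V := by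
    intro c hc z hz
    exact V.smul_mem ⟨c, hc⟩ hz
  have hmul : ∀ x y, x ∈ V → y ∈ V → x * y ∈ V := by
    intro x y hx hy
    rw [hV] at hx hy
    obtain ⟨c, hc, rfl⟩ := hx
    obtain ⟨d, hd, rfl⟩ := hy
    rw [Finset.sum_mul_sum]
    refine sum_mem fun i _ => sum_mem fun j _ => ?_
    have : c i * cEmb K L (b i) * (d j * cEmb K L (b j)) =
        (c i * d j) * cEmb K L (b i * b j) := by
      rw [map_mul]; ring
    rw [this]
    exact hsm _ (mul_mem (hc i) (hd j)) _ (hF2 _ (mul_mem (hb2 i) (hb2 j)))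
  have hfin : FiniteDimensional (extend L F₁) V :=
    FiniteDimensional.span_of_finite _ (Set.finite_range _)
  have hinv : ∀ x ∈ V, x⁻¹ ∈ V := by
    intro x hx
    by_cases hx0 : x = 0
    · rw [hx0, inv_zero]; exact V.zero_mem
    let f : V →ₗ[extend L F₁] V :=
      (LinearMap.mulLeft (extend L F₁) x).restrict (fun y hy => hmul x y hx hy)
    have hf : ∀ y : V, ((f y : V) : LaurentSeries L) = x * (y : LaurentSeries L) := fun y => rfl
    have hinj : Function.Injective f := by
      intro y y' hyy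
      apply Subtype.ext
      have h3 := congrArg (fun y : V => (y : LaurentSeries L)) hyy
      simp only [hf] at h3
      exact mul_left_cancel₀ hx0 h3
    obtain ⟨y, hy⟩ := (LinearMap.injective_iff_surjective.mp hinj) ⟨1, h1⟩
    have h3 : x * (y : LaurentSeries L) = 1 := by
      rw [← hf, hy]
    rw [inv_eq_of_mul_eq_one_right h3]
    exact y.2
  let A' : IntermediateField L (LaurentSeries L) :=
    { carrier := V
      mul_mem' := fun {a b} ha hb => hmul a b ha hb
      one_mem' := h1
      add_mem' := fun {a b} ha hb => V.add_mem ha hb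
      zero_mem' := V.zero_mem
      algebraMap_mem' := fun c => by
        have := hsm (algebraMap L (LaurentSeries L) c) ((extend L F₁).algebraMap_mem c) 1 h1
        rwa [mul_one] at this
      inv_mem' := hinv }
  have hle : extend L F₂ ≤ A' := by
    change IntermediateField.adjoin L (cEmb K L '' (F₂ : Set (LaurentSeries K))) ≤ A'
    rw [IntermediateField.adjoin_le_iff]
    rintro _ ⟨x, hx, rfl⟩
    exact hF2 x hx
  exact (hV z).mp (hle hz)

end LaurentBasis

end Fermat.Agent.H26
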