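import Mathlib
import Fermat.Agent.Descent.NormBC
import Fermat.Agent.H05.HeckeInputs
set_option autoImplicit false
namespace Fermat.Agent.H26
open ModularCurve AlgebraicCurve

/-- abstract form of base change of norms. -/
theorem norm_transfer {A B C D P Q : Type*} [Field A] [Field B] [Field C] [Field D] [Field P]
    [Field Q] [Algebra A B] [Algebra C D] [Module.Finite A B]
    (pB : B →+* P) (qD : D →+* Q) (e : P →+* Q) (e₁ : A →+* C) (e₂ : B →+* D)
    (h1 : ∀ a, e₂ (algebraMap A B a) = algebraMap C D (e₁ a))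
    (h2 : ∀ y, qD (e₂ y) = e (pB y))
    (hli : ∀ (n : ℕ) (b : Fin n → P),
      (∀ a : Fin n → A, ∑ i, pB (algebraMap A B (a i)) * b i = 0 → ∀ i, a i = 0) →
      ∀ c : Fin n → C, ∑ i, qD (algebraMap C D (c i)) * e (b i) = 0 → ∀ i, c i = 0)
    (hsp : ∀ (n : ℕ) (b : Fin n → P), (∀ i, ∃ w, pB w = b i) →
      (∀ z : B, ∃ a : Fin n → A, pB z = ∑ i, pB (algebraMap A B (a i)) * b i) →
      ∀ z : D, ∃ c : Fin n → C, qD z = ∑ i, qD (algebraMap C D (c i)) * e (b i)) (y : B) :
    e₁ (Algebra.norm A y) = Algebra.norm C (e₂ y) := by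
  classical
  let b := Module.finBasis A B
  have hli' : LinearIndependent C (fun i => e₂ (b i)) := by
    rw [Fintype.linearIndependent_iff]
    intro c hc i
    refine hli _ (fun i => pB (b i)) ?_ c ?_ i
    · intro a ha i
      have h3 : ∑ i, a i • b i = 0 := by
        apply pB.injective
        rw [map_sum, map_zero, ← ha]
        refine Finset.sum_congr rfl fun i _ => ?_
        rw [Algebra.smul_def, map_mul]
      exact (Fintype.linearIndependent_iff.mp b.linearIndependent) a h3 i
    · have h3 := congrArg qD hc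
      rw [map_sum, map_zero] at h3
      rw [← h3]
      refine Finset.sum_congr rfl fun i _ => ?_
      rw [Algebra.smul_def, map_mul, h2]
  have hsp' : ⊤ ≤ Submodule.span C (Set.range fun i => e₂ (b i)) := by
    rintro z -
    obtain ⟨c, hc⟩ := hsp _ (fun i => pB (b i)) (fun i => ⟨b i, rfl⟩) (by
      intro z
      refine ⟨fun i => b.repr z i, ?_⟩
      conv_lhs => rw [← b.sum_repr z, map_sum]
      refine Finset.sum_congr rfl fun i _ => ?_
      rw [Algebra.smul_def, map_mul]) z
    rw [Submodule.mem_span_range_iff_exists_fun]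
    refine ⟨c, ?_⟩
    apply qD.injective
    rw [hc, map_sum]
    refine Finset.sum_congr rfl fun i _ => ?_
    rw [Algebra.smul_def, map_mul, h2]
  exact norm_baseChange_of_basis e₁ e₂ h1 b (Module.Basis.mk hli' hsp')
    (fun i => Module.Basis.mk_apply hli' hsp' i) y

/-- base change of norms along embeddings. -/
theorem normAlong_transfer {K L A B C D P Q : Type*} [Field K] [Field L] [Field A] [Field B]
    [Field C] [Field D] [Field P] [Field Q] [Algebra K A] [Algebra K B] [Algebra L C] [Algebra L D]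
    (φ : A →ₐ[K] B) (ψ : C →ₐ[L] D) (hfin : FiniteAlong K φ)
    (pB : B →+* P) (qD : D →+* Q) (e : P →+* Q) (e₁ : A →+* C) (e₂ : B →+* D)
    (h1 : ∀ a, e₂ (φ a) = ψ (e₁ a))
    (h2 : ∀ y, qD (e₂ y) = e (pB y))
    (hli : ∀ (n : ℕ) (b : Fin n → P),
      (∀ a : Fin n → A, ∑ i, pB (φ (a i)) * b i = 0 → ∀ i, a i = 0) →
      ∀ c : Fin n → C, ∑ i, qD (ψ (c i)) * e (b i) = 0 → ∀ i, c i = 0)
    (hsp : ∀ (n : ℕ) (b : Fin n → P), (∀ i, ∃ w, pB w = b i) →
      (∀ z : B, ∃ a : Fin n → A, pB z = ∑ i, pB (φ (a i)) * b i) →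
      ∀ z : D, ∃ c : Fin n → C, qD z = ∑ i, qD (ψ (c i)) * e (b i)) (y : B) :
    e₁ (H05.normAlong φ y) = H05.normAlong ψ (e₂ y) := by
  let _ := algebraAlong φ
  let _ := algebraAlong ψ
  have : Module.Finite A B := hfin
  exact norm_transfer pB qD e e₁ e₂ h1 h2 hli hsp y

variable {K : Type*} (L : Type*) [Field K] [Field L] [Algebra K L] [Algebra ℚ K] [Algebra ℚ L]
  {F₀ F₁ : IntermediateField ℚ (LaurentSeries ℚ)}

theorem li_aux (n : ℕ) (b : Fin n → LaurentSeries K)
    (hb : ∀ a : Fin n → laurentBaseChange K F₀, ∑ i, (a i : LaurentSeries K) * b i = 0 → ∀ i, a i = 0)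
    (c : Fin n → laurentBaseChange L F₀) (hc : ∑ i, (c i : LaurentSeries L) * cEmb K L (b i) = 0) : ∀ i, c i = 0 := by
  intro i
  have h3 := extend_linInd (F₁ := laurentBaseChange K F₀) b (by
        intro a ha h4 i
        exact congrArg Subtype.val (hb (fun i => ⟨a i, ha i⟩) h4 i))
      (fun i => (c i : LaurentSeries L)) (fun i => by
        rw [← laurentBaseChange_eq_extend (K := K)]
        exact (c i).2) hc i
  exact Subtype.ext h3

theorem sp_aux
    (hK : laurentBaseChange K F₀ ≤ laurentBaseChange K F₁) (n : ℕ) (b : Fin n → LaurentSeries K)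
    (hb2 : ∀ i, b i ∈ laurentBaseChange K F₁)
    (hb : ∀ z : laurentBaseChange K F₁, ∃ a : Fin n → laurentBaseChange K F₀, (z : LaurentSeries K) = ∑ i, (a i : LaurentSeries K) * b i)
    (z : laurentBaseChange L F₁) : ∃ c : Fin n → laurentBaseChange L F₀, (z : LaurentSeries L) = ∑ i, (c i : LaurentSeries L) * cEmb K L (b i) := by
    obtain ⟨c, hc, hz⟩ := extend_span (L := L) hK b hb2
      (by
        intro z hz
        obtain ⟨a, ha⟩ := hb ⟨z, hz⟩
        exact ⟨fun i => (a i : LaurentSeries K), fun i => (a i).2, ha⟩)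
      (z : LaurentSeries L) (by
        rw [← laurentBaseChange_eq_extend (K := K)]
        exact z.2)
    exact ⟨fun i => ⟨c i, by
      rw [laurentBaseChange_eq_extend (K := K)]
      exact hc i⟩, hz⟩

theorem comm_aux (hK : laurentBaseChange K F₀ ≤ laurentBaseChange K F₁)
    (hL : laurentBaseChange L F₀ ≤ laurentBaseChange L F₁) (a : laurentBaseChange K F₀) :
    embBC L F₁ (IntermediateField.inclusion hK a) = IntermediateField.inclusion hL (embBC L F₀ a) := by
  apply Subtype.ext
  rw [coe_embBC, IntermediateField.coe_inclusion, IntermediateField.coe_inclusion, coe_embBC]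

theorem val_aux  (y : laurentBaseChange K F₁) :
    (laurentBaseChange L F₁).val.toRingHom (embBC L F₁ y) = (cEmb K L) ((laurentBaseChange K F₁).val.toRingHom y) := by
  exact coe_embBC L F₁ y

/-- Norms and base change `K → L`. -/
theorem embBC_normAlong_inclusion
    (hK : laurentBaseChange K F₀ ≤ laurentBaseChange K F₁)
    (hL : laurentBaseChange L F₀ ≤ laurentBaseChange L F₁)
    (hfin : FiniteAlong K (IntermediateField.inclusion hK))
    (y : laurentBaseChange K F₁) :
    embBC L F₀ (H05.normAlong (IntermediateField.inclusion hK) y) =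
      H05.normAlong (IntermediateField.inclusion hL) (embBC L F₁ y) := by
  have key := normAlong_transfer (K := K) (L := L) (A := laurentBaseChange K F₀) (B := laurentBaseChange K F₁) (C := laurentBaseChange L F₀) (D := laurentBaseChange L F₁) (P := LaurentSeries K) (Q := LaurentSeries L) (IntermediateField.inclusion hK) (IntermediateField.inclusion hL) hfin
    (laurentBaseChange K F₁).val.toRingHom (laurentBaseChange L F₁).val.toRingHom (cEmb K L)
    (embBC L F₀) (embBC L F₁) (comm_aux L hK hL) (val_aux L)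
  refine key ?_ ?_ y
  · intro n b hb c hc
    have hc' : ∑ i, (c i : LaurentSeries L) * cEmb K L (b i) = 0 := by
      rw [← hc]
      refine Finset.sum_congr rfl fun i _ => ?_
      rfl
    have hb' : ∀ a : Fin n → laurentBaseChange K F₀, ∑ i, (a i : LaurentSeries K) * b i = 0 → ∀ i, a i = 0 := by
      intro a ha
      apply hb a
      rw [← ha]
      refine Finset.sum_congr rfl fun i _ => ?_
      rfl
    exact li_aux L n b hb' c hc'
  · intro n b hb2 hb z
    obtain ⟨c, hc⟩ := sp_aux L hK n b (fun i => by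
      obtain ⟨w, hw⟩ := hb2 i
      rw [← hw]
      exact w.2) (fun z => by
        obtain ⟨a, ha⟩ := hb z
        refine ⟨a, Eq.trans ha ?_⟩
        refine Finset.sum_congr rfl fun i _ => ?_
        rfl) z
    refine ⟨c, Eq.trans hc ?_⟩
    refine Finset.sum_congr rfl fun i _ => ?_
    rfl

/-- Norms along `heckeAlphaBar` commute with base change. -/
theorem embBC_normAlong_heckeAlphaBar (N ℓ : ℕ) [NeZero N] [NeZero ℓ]
    (y : laurentBaseChange K (modularFunctionFieldFull (N * ℓ))) :
    embBC L _ (H05.normAlong (heckeAlphaBar K N ℓ) y) =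
      H05.normAlong (heckeAlphaBar L N ℓ) (embBC L _ y) := by
  have hK : laurentBaseChange K (modularFunctionFieldFull N) ≤
      laurentBaseChange K (modularFunctionFieldFull (N * ℓ)) := fun x hx => by
    have := (heckeAlphaBar K N ℓ ⟨x, hx⟩).2
    rwa [coe_heckeAlphaBar] at this
  have hL : laurentBaseChange L (modularFunctionFieldFull N) ≤
      laurentBaseChange L (modularFunctionFieldFull (N * ℓ)) := fun x hx => by
    have := (heckeAlphaBar L N ℓ ⟨x, hx⟩).2
    rwa [coe_heckeAlphaBar] at this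
  rw [heckeAlphaBar_eq_inclusion N ℓ hK, heckeAlphaBar_eq_inclusion N ℓ hL]
  refine embBC_normAlong_inclusion L hK hL ?_ y
  rw [← heckeAlphaBar_eq_inclusion N ℓ hK]
  exact H05.finiteAlong_alpha K N ℓ

/-- `heckeBetaBar` commutes with base change. -/
theorem embBC_heckeBetaBar (N ℓ : ℕ) [NeZero N] [NeZero ℓ]
    (x : laurentBaseChange K (modularFunctionFieldFull N)) :
    embBC L _ (heckeBetaBar K N ℓ x) = heckeBetaBar L N ℓ (embBC L _ x) := by
  apply Subtype.ext
  rw [coe_embBC, coe_heckeBetaBar, coe_heckeBetaBar, coe_embBC]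
  ext k
  by_cases hk : (ℓ : ℤ) ∣ k
  · obtain ⟨m, rfl⟩ := hk
    rw [coeffMap_coeff, qExpand_coeff_mul, qExpand_coeff_mul, coeffMap_coeff]
  · rw [coeffMap_coeff, qExpand_coeff_of_not_dvd ℓ _ hk, qExpand_coeff_of_not_dvd ℓ _ hk,
      map_zero]

end Fermat.Agent.H26
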