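import Mathlib
import Fermat.Agent.Descent.Main
import Fermat.Agent.Descent.NormBC2
import Fermat.Agent.H05.HeckeInputs
import Fermat.Agent.H05.GalHecke
import Fermat.Agent.H01.HeckeFinal
import Fermat.Agent.H22.Transport

/-!
# The characters of `Γ₀(N)` attached to the torsion points of `J₀(N)`
-/

set_option autoImplicit false
set_option maxSynthPendingDepth 3

noncomputable section

namespace Fermat.Agent.H26

open AlgebraicCurve ModularCurve CongruenceSubgroup
open Fermat.Agent.H01 Fermat.Agent.H05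

local notation "Qb" => AlgebraicClosure ℚ

variable [Algebra (AlgebraicClosure ℚ) ℂ] (N : ℕ) [NeZero N]

/-- the coefficient embedding of function fields. -/
abbrev eC : modularFunctionFieldBar N →+* laurentBaseChange ℂ (modularFunctionFieldFull N) :=
  embBC ℂ (modularFunctionFieldFull N)

/-- the coefficient embedding into the field of modular functions. -/
def embMF : EmbMF N Qb (modularFunctionFieldBar N) where
  σ := (laurentBaseChange ℂ (modularFunctionFieldFull N)).val.toRingHom.comp (eC N)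
  mem x := by
    rw [← laurentBaseChange_eq_mfq]
    exact (eC N x).2
  const c := by
    refine ⟨algebraMap Qb ℂ c, ?_⟩
    have h1 : eC N (algebraMap Qb (modularFunctionFieldBar N) c) =
      algebraMap ℂ (laurentBaseChange ℂ (modularFunctionFieldFull N)) (algebraMap Qb ℂ c) :=
      embBC_algebraMap ℂ _ c
    rw [RingHom.comp_apply, h1]
    exact algebraMap_laurentSeries_eq_single ℂ _

lemma embMF_σ (x : modularFunctionFieldBar N) : (embMF N).σ x = (eC N x : LaurentSeries ℂ) := rfl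

variable {N}

/-- `ψ` is the character attached to the torsion point `x`. -/
def KChar (m : ℕ) (x : JZero N) (ψ : Gamma0 N →* ℂˣ) : Prop :=
  ∃ f : modularFunctionFieldBar N, Kum m x f ∧ HasRootChar N m (eC N f : LaurentSeries ℂ) ψ

variable {m : ℕ} {x y : JZero N} {ψ ψ' : Gamma0 N →* ℂˣ}

theorem exists_hasRootChar_of_dvd (hm : m ≠ 0) {f : modularFunctionFieldBar N} (hf : f ≠ 0)
    (h : ∀ v : Place Qb (modularFunctionFieldBar N), (m : ℤ) ∣ v.ord f) :
    ∃ ψ, HasRootChar N m (eC N f : LaurentSeries ℂ) ψ := by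
  have h1 := (embMF N).strongDvd hf h
  rw [embMF_σ] at h1
  have h2 : (eC N f : LaurentSeries ℂ) ∈ mfq N := (embMF N).mem f
  have h3 : (eC N f : LaurentSeries ℂ) ≠ 0 := by
    rw [← embMF_σ]
    exact (map_ne_zero _).mpr hf
  exact exists_hasRootChar hm h2 h3 (fun τ => h1.dvd _)

theorem exists_kchar (hm : m ≠ 0) (hx : m • x = 0) : ∃ ψ, KChar m x ψ := by
  obtain ⟨f, hf⟩ := exists_kum hx
  obtain ⟨ψ, hψ⟩ := exists_hasRootChar_of_dvd hm hf.ne_zero hf.dvd
  exact ⟨ψ, f, hf, hψ⟩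

theorem KChar.unique (hm : m ≠ 0) (h : KChar m x ψ) (h' : KChar m x ψ') : ψ = ψ' := by
  obtain ⟨f, hf, hfψ⟩ := h
  obtain ⟨g, hg, hgψ⟩ := h'
  obtain ⟨v₀, -⟩ := exists_place_infinity_bc Qb N
  obtain ⟨u, hu, hfg⟩ := hf.exists_of_eq (deg_eq_one_bc Qb N v₀) hm hg
  have h1 : (eC N u : LaurentSeries ℂ) ≠ 0 := by
    rw [← embMF_σ]
    exact (map_ne_zero _).mpr hu
  have h2 := hgψ.mul (hasRootChar_pow hm ((embMF N).mem u) h1)
  have h3 : (eC N f : LaurentSeries ℂ) = (eC N g : LaurentSeries ℂ) * (eC N u : LaurentSeries ℂ) ^ m := by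
    rw [hfg, map_mul, map_pow]
    rfl
  have h4 : ψ' * 1 = ψ' := by
    ext γ
    simp
  rw [h4, embMF_σ, ← h3] at h2
  exact hfψ.unique hm h2

theorem KChar.mul (h : KChar m x ψ) (h' : KChar m y ψ') : KChar m (x + y) (ψ * ψ') := by
  obtain ⟨f, hf, hfψ⟩ := h
  obtain ⟨g, hg, hgψ⟩ := h'
  refine ⟨f * g, hf.mul hg, ?_⟩
  have h1 : (eC N (f * g) : LaurentSeries ℂ) =
      (eC N f : LaurentSeries ℂ) * (eC N g : LaurentSeries ℂ) := by
    rw [map_mul]
    rfl
  rw [h1]
  exact hfψ.mul hgψ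

theorem KChar.eq_zero (hm : m ≠ 0) (h : KChar m x 1) : x = 0 := by
  obtain ⟨f, hf, hfψ⟩ := h
  obtain ⟨v₀, -⟩ := exists_place_infinity_bc Qb N
  obtain ⟨y, hy, hyf⟩ := hfψ.exists_pow_eq hm
  rw [← laurentBaseChange_eq_mfq] at hy
  have h1 : eC N f = (⟨y, hy⟩ : laurentBaseChange ℂ (modularFunctionFieldFull N)) ^ m :=
    Subtype.ext hyf.symm
  obtain ⟨g₀, -, hg₀⟩ := descent_inj ℂ (Nat.pos_of_ne_zero hm) h1
  exact (hf.eq_zero_iff (deg_eq_one_bc Qb N v₀) hm).mpr ⟨g₀, hg₀⟩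

theorem KChar.hecke (hm : m ≠ 0) (ℓ : Nat.Primes) (h : KChar m x ψ) :
    KChar m (heckeOperatorBar N ℓ x)
      (haveI : NeZero (ℓ : ℕ) := ⟨ℓ.2.ne_zero⟩; H22.heckeChar N ℓ ψ) := by
  have : NeZero (ℓ : ℕ) := ⟨ℓ.2.ne_zero⟩
  obtain ⟨f, hf, hfψ⟩ := h
  refine ⟨H05.normAlong (heckeAlphaBar Qb N ℓ) (heckeBetaBar Qb N ℓ f),
    hf.heckeOperatorAlong Qb, ?_⟩
  have h1 := HasRootChar.hecke (ℓ := ℓ) hm hfψ
  rw [eC, embBC_normAlong_heckeAlphaBar, embBC_heckeBetaBar]
  exact h1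

variable (N) in
/-- the function field over `ℂ` inside the field of modular functions. -/
def embMFC : EmbMF N ℂ (laurentBaseChange ℂ (modularFunctionFieldFull N)) where
  σ := (laurentBaseChange ℂ (modularFunctionFieldFull N)).val.toRingHom
  mem x := by
    rw [← laurentBaseChange_eq_mfq]
    exact x.2
  const c := ⟨c, algebraMap_laurentSeries_eq_single ℂ _⟩

/-- `j` in `F_ℚ̄`. -/
lemma exists_x₀ : ∃ x₀ : modularFunctionFieldBar N, (x₀ : LaurentSeries Qb).order < 0 := by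
  refine ⟨H05.jB Qb N, ?_⟩
  have h1 : ((H05.jB Qb N : modularFunctionFieldBar N) : LaurentSeries Qb) = jqModC Qb := rfl
  rw [h1]
  refine lt_of_le_of_lt (HahnSeries.order_le_of_coeff_ne_zero (g := (-1 : ℤ)) ?_) (by norm_num)
  rw [coeff_jqModC_neg_one]
  exact one_ne_zero

/-- a uniformiser at infinity in `F_ℂ`. -/
lemma exists_unif : ∃ t : laurentBaseChange ℂ (modularFunctionFieldFull N),
    (t : LaurentSeries ℂ).order = 1 := by
  obtain ⟨v, hv⟩ := exists_place_infinity_bc ℂ N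
  obtain ⟨t, -, ht⟩ := H18.exists_ord_eq_one v
  exact ⟨t, by rw [← hv, ht]⟩

/-- **Surjectivity**: descent of the surjectivity over `ℂ`. -/
theorem exists_kchar_of_complex (hm : m ≠ 0) {x : laurentBaseChange ℂ (modularFunctionFieldFull N)}
    (hx : x ≠ 0) (hψ : HasRootChar N m (x : LaurentSeries ℂ) ψ)
    (hdvd : ∀ v : Place ℂ (laurentBaseChange ℂ (modularFunctionFieldFull N)),
      (m : ℤ) ∣ v.ord x) : ∃ P : JZero N, KChar m P ψ := by
  obtain ⟨x₀, hx₀⟩ := exists_x₀ (N := N)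
  obtain ⟨t, ht⟩ := exists_unif (N := N)
  obtain ⟨f₀, u, hf₀, hu, hfu, hdvd', -⟩ := descent_surj (K := Qb) ℂ (deg_eq_one_bc ℂ N)
    (deg_eq_one_bc Qb N) x₀ hx₀ t ht (Nat.pos_of_ne_zero hm) (by
      intro s hs
      obtain ⟨i, j, hij, z, hz, -, hzz⟩ := exists_eq_mul_pow_of_strongDvd (N := N) hm
        (fun i => (s i : LaurentSeries ℂ)) (fun i => (embMFC N).mem (s i))
        (fun i => coe_ne_zero ℂ (hs i).1)
        (fun i => (embMFC N).strongDvd (hs i).1 (hs i).2)
      rw [← laurentBaseChange_eq_mfq] at hz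
      exact ⟨i, j, hij, ⟨z, hz⟩, Subtype.ext hzz⟩) x hx hdvd
  obtain ⟨P, hP⟩ := exists_kum_of_dvd hm hf₀ hdvd'
  refine ⟨P, f₀, hP, ?_⟩
  have h1 : (u : LaurentSeries ℂ) ∈ mfq N := (embMFC N).mem u
  have h2 := hψ.mul (hasRootChar_pow hm h1 (coe_ne_zero ℂ hu))
  have h4 : ψ * 1 = ψ := by
    ext γ
    simp
  have h3 : (eC N f₀ : LaurentSeries ℂ) = (x : LaurentSeries ℂ) * (u : LaurentSeries ℂ) ^ m := by
    rw [eC, hfu]
    rfl
  rw [h3]
  rwa [h4] at h2

/-! ### The homomorphism `κ` -/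

variable (N) in
/-- `J₀(N)[m]`. -/
abbrev Tor (m : ℕ) : AddSubgroup (JZero N) := Pic0.torsion Qb (modularFunctionFieldBar N) m

omit [Algebra (AlgebraicClosure ℚ) ℂ] in
lemma tor_nsmul (x : Tor N m) : m • (x : JZero N) = 0 := by
  have := Pic0.mem_torsion.mp x.2
  rwa [natCast_zsmul] at this

omit [Algebra (AlgebraicClosure ℚ) ℂ] in
lemma mem_tor {x : JZero N} : x ∈ Tor N m ↔ m • x = 0 := by
  rw [Pic0.mem_torsion, natCast_zsmul]

section Kappa

variable [hm : NeZero m]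

/-- the character of a torsion point. -/
def kap (x : Tor N m) : Gamma0 N →* ℂˣ := (exists_kchar hm.out (tor_nsmul x)).choose

lemma kap_spec (x : Tor N m) : KChar m (x : JZero N) (kap x) :=
  (exists_kchar hm.out (tor_nsmul x)).choose_spec

lemma kap_eq {x : Tor N m} (h : KChar m (x : JZero N) ψ) : kap x = ψ :=
  (kap_spec x).unique hm.out h

variable (N m) in
/-- `κ : J₀(N)[m] → Hom(Γ₀(N), ℂˣ)`, additively. -/
def kappa : Tor N m →+ (Additive (Gamma0 N) →+ Additive ℂˣ) where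
  toFun x := MonoidHom.toAdditive (kap x)
  map_zero' := by
    have h1 : kap (0 : Tor N m) = 1 := by
      apply kap_eq
      exact ⟨1, kum_zero_one m, by
        rw [map_one]
        exact hasRootChar_one hm.out⟩
    rw [h1]
    rfl
  map_add' x y := by
    rw [kap_eq ((kap_spec x).mul (kap_spec y))]
    rfl

lemma kappa_apply (x : Tor N m) : kappa N m x = MonoidHom.toAdditive (kap x) := rfl

theorem kappa_injective : Function.Injective (kappa N m) := by
  rw [injective_iff_map_eq_zero]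
  intro x hx
  have h1 : kap x = 1 := by
    rw [kappa_apply] at hx
    exact MonoidHom.toAdditive.injective hx
  have h2 := kap_spec x
  rw [h1] at h2
  exact Subtype.ext (h2.eq_zero hm.out)

omit [Algebra (AlgebraicClosure ℚ) ℂ] hm in
lemma map_mem_tor (T : Module.End ℤ (JZero N)) {x : JZero N} (hx : x ∈ Tor N m) :
    T x ∈ Tor N m := by
  rw [mem_tor] at hx ⊢
  rw [← map_nsmul, hx, map_zero]

/-- Restriction of an endomorphism to the `m`-torsion. -/
def torRestrict (m : ℕ) (T : Module.End ℤ (JZero N)) : Module.End ℤ (Tor N m) where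
  toFun x := ⟨T x, map_mem_tor T x.2⟩
  map_add' x y := Subtype.ext (map_add T _ _)
  map_smul' c x := Subtype.ext (map_smul T _ _)

omit [Algebra (AlgebraicClosure ℚ) ℂ] hm in
@[simp]
lemma coe_torRestrict (T : Module.End ℤ (JZero N)) (x : Tor N m) :
    ((torRestrict m T x : Tor N m) : JZero N) = T x := rfl

variable (N m) in
/-- The Hecke operators on `J₀(N)[m]`. -/
def heckeTor (ℓ : Nat.Primes) : Module.End ℤ (Tor N m) := torRestrict m (heckeOperatorBar N ℓ)

/-- identity map `A → Multiplicative (Additive A)`. -/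
def idMA (A : Type*) [CommGroup A] : A →* Multiplicative (Additive A) where
  toFun a := Multiplicative.ofAdd (Additive.ofMul a)
  map_one' := rfl
  map_mul' _ _ := rfl

theorem kappa_heckeTor (ℓ : Nat.Primes) (x : Tor N m) :
    kappa N m (heckeTor N m ℓ x) = H22.heckeOpL ℤ N (Additive ℂˣ) ℓ (kappa N m x) := by
  have : NeZero (ℓ : ℕ) := ⟨ℓ.2.ne_zero⟩
  have h1 : kap (heckeTor N m ℓ x) = H22.heckeChar N ℓ (kap x) :=
    kap_eq ((kap_spec x).hecke hm.out ℓ)
  have h2 := H22.heckeChar_comp N ℓ (idMA ℂˣ) (kap x)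
  rw [kappa_apply, h1]
  change _ = (H22.heckeChar N ℓ ((idMA ℂˣ).comp (kap x))).toAdditiveLeft
  rw [h2]
  rfl

theorem heckeTor_comm (ℓ ℓ' : Nat.Primes) :
    heckeTor N m ℓ * heckeTor N m ℓ' = heckeTor N m ℓ' * heckeTor N m ℓ := by
  refine LinearMap.ext fun x => kappa_injective ?_
  rw [Module.End.mul_apply, Module.End.mul_apply, kappa_heckeTor, kappa_heckeTor, kappa_heckeTor,
    kappa_heckeTor, ← Module.End.mul_apply, H22.heckeOpL_comm, Module.End.mul_apply]

variable (N m) in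
/-- The action of the abstract Hecke algebra on `J₀(N)[m]`. -/
def torAct : HeckeAlg →+* Module.End ℤ (Tor N m) :=
  H22.evalComm (heckeTor N m) heckeTor_comm

lemma torAct_heckeGen (ℓ : Nat.Primes) : torAct N m (heckeGen ℓ) = heckeTor N m ℓ :=
  H22.evalComm_X _ _ ℓ

end Kappa

end Fermat.Agent.H26
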