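import Mathlib
import Fermat.Agent.Descent.Kappa
import Fermat.Agent.Descent.FinLevel
import Fermat.Agent.H05_Unram

/-!
# Assembly of the geometric input `HeckeGaloisInput`
-/

set_option autoImplicit false
set_option maxSynthPendingDepth 3

noncomputable section

namespace Fermat.Agent.H26

open AlgebraicCurve ModularCurve CongruenceSubgroup
open Fermat.Agent.H01 Fermat.Agent.H05

local notation "Qb" => AlgebraicClosure ℚ
local notation "Γℚ" => AlgebraicClosure ℚ ≃ₐ[ℚ] AlgebraicClosure ℚ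

variable (N : ℕ) [NeZero N] (m : ℕ)

/-- Surjectivity of the Kummer dictionary over `ℂ`. -/
def SurjC : Prop :=
  ∀ ψ : Gamma0 N →* ℂˣ, (∀ γ, ψ γ ^ m = 1) →
    (∀ γ : Gamma0 N, ((γ : Matrix.SpecialLinearGroup (Fin 2) ℤ) :
      Matrix (Fin 2) (Fin 2) ℤ).trace ^ 2 ≤ 4 → ψ γ = 1) →
    ∃ x : laurentBaseChange ℂ (modularFunctionFieldFull N), x ≠ 0 ∧
      HasRootChar N m (x : LaurentSeries ℂ) ψ ∧
      ∀ v : Place ℂ (laurentBaseChange ℂ (modularFunctionFieldFull N)), (m : ℤ) ∣ v.ord x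

/-- the Galois action on `J₀(N)`. -/
def galEnd : Γℚ →* Module.End ℤ (JZero N) where
  toFun σ := (DistribSMul.toAddMonoidHom (JZero N) σ).toIntLinearMap
  map_one' := LinearMap.ext fun x => one_smul Γℚ x
  map_mul' σ τ := LinearMap.ext fun x => mul_smul σ τ x

lemma galEnd_apply (σ : Γℚ) (x : JZero N) : galEnd N σ x = σ • x := rfl

/-- the Galois action on `J₀(N)[m]`. -/
def torGal : Γℚ →* Module.End ℤ (Tor N m) where
  toFun σ := torRestrict m (galEnd N σ)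
  map_one' := LinearMap.ext fun x => Subtype.ext (one_smul Γℚ (x : JZero N))
  map_mul' σ τ := LinearMap.ext fun x => Subtype.ext (mul_smul σ τ (x : JZero N))

@[simp]
lemma coe_torGal (σ : Γℚ) (x : Tor N m) : ((torGal N m σ x : Tor N m) : JZero N) =
    σ • (x : JZero N) := rfl

section

variable [Algebra (AlgebraicClosure ℚ) ℂ] [hm : NeZero m]

theorem torGal_torAct (σ : Γℚ) (t : HeckeAlg) (x : Tor N m) :
    torGal N m σ (torAct N m t x) = torAct N m t (torGal N m σ x) := by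
  refine H22.evalComm_intertwine (torAct N m) (torAct N m) (torGal N m σ).toAddMonoidHom
    (fun ℓ w => ?_) t x
  have h1 : torAct N m (MvPolynomial.X ℓ) = heckeTor N m ℓ := torAct_heckeGen ℓ
  rw [h1]
  exact Subtype.ext (heckeOperatorBar_smul N ℓ σ (w : JZero N)).symm

/-- The forms part of `J₀(N)[m]`. -/
abbrev torForms : Submodule ℤ (Tor N m) := H22.formsPart N (torAct N m)

theorem torGal_mem (σ : Γℚ) {w : Tor N m} (hw : w ∈ torForms N m) :
    torGal N m σ w ∈ torForms N m := fun s hs => by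
  rw [← torGal_torAct, hw s hs, map_zero]

/-- the Galois action on the forms part of `J₀(N)[m]`. -/
def formsGal : Γℚ →* Module.End ℤ (torForms N m) where
  toFun σ := (torGal N m σ).restrict fun _ hw => torGal_mem N m σ hw
  map_one' := LinearMap.ext fun x => Subtype.ext <| by
    rw [LinearMap.restrict_coe_apply, map_one]
    rfl
  map_mul' σ τ := LinearMap.ext fun x => Subtype.ext <| by
    rw [LinearMap.restrict_coe_apply, map_mul]
    rfl

lemma coe_formsGal (σ : Γℚ) (x : torForms N m) :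
    (((formsGal N m σ x : torForms N m) : Tor N m) : JZero N) = σ • ((x : Tor N m) : JZero N) := rfl

theorem finite_tor : Finite (Tor N m) := by
  have := finite_characters (Gamma0 N) hm.out
  refine Finite.of_injective (β := {ψ : Gamma0 N →* ℂˣ // ∀ g, ψ g ^ m = 1})
    (fun x => ⟨kap x, ?_⟩) fun x y hxy => ?_
  · obtain ⟨f, -, hf⟩ := kap_spec x
    exact hf.pow_eq_one hm.out
  · apply kappa_injective
    rw [kappa_apply, kappa_apply]
    exact congrArg _ (congrArg Subtype.val hxy)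

theorem formsGal_finiteLevel : GaloisFactorsThroughFiniteLevel (formsGal N m) := by
  have h1 := finite_tor N m
  have h2 : Finite {x : JZero N // m • x = 0} :=
    Finite.of_injective (β := Tor N m) (fun x => ⟨x.1, mem_tor.mpr x.2⟩) fun x y hxy =>
      Subtype.ext (congrArg (fun z : Tor N m => (z : JZero N)) hxy)
  obtain ⟨E, hE, hE'⟩ := exists_fixing_field_finite (modularFunctionFieldFull N) hm.out h2
  refine ⟨E, hE, fun σ hσ => LinearMap.ext fun x => Subtype.ext (Subtype.ext ?_)⟩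
  rw [coe_formsGal, hE' σ hσ _ (tor_nsmul (x : Tor N m))]
  rfl

/-- the homomorphism `ℤ → ℂˣ`, `k ↦ ζ ^ k`. -/
def zetaHom (ζ : ℂˣ) : ℤ →+ Additive ℂˣ where
  toFun k := Additive.ofMul (ζ ^ k)
  map_zero' := by rw [zpow_zero]; rfl
  map_add' a b := by rw [zpow_add]; rfl

variable {N m}

theorem exists_kappa_eq (hsurj : SurjC N m) {ζ : ℂˣ} (hζ : IsPrimitiveRoot ζ m)
    {ψ : Additive (Gamma0 N) →+ ℤ} (hψ : ψ ∈ Period.parabolicHoms ℤ (Gamma0 N) ℤ) :
    ∃ w : Tor N m, kappa N m w = (zetaHom ζ).comp ψ := by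
  let χ : Gamma0 N →* ℂˣ := MonoidHom.toAdditive.symm ((zetaHom ζ).comp ψ)
  have hχ : ∀ γ, χ γ = ζ ^ ψ (Additive.ofMul γ) := fun γ => rfl
  obtain ⟨x, hx, hxχ, hdvd⟩ := hsurj χ (fun γ => by
      rw [hχ, ← zpow_natCast, ← zpow_mul, mul_comm, zpow_mul, zpow_natCast, hζ.pow_eq_one,
        one_zpow]) (fun γ hγ => by
      rw [hχ, H22.killsParEll_of_mem hψ γ hγ, zpow_zero])
  obtain ⟨P, hP⟩ := exists_kchar_of_complex hm.out hx hxχ hdvd
  have hPm : m • P = 0 := by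
    obtain ⟨f, hf, -⟩ := hP
    exact hf.nsmul_eq_zero
  refine ⟨⟨P, mem_tor.mpr hPm⟩, ?_⟩
  rw [kappa_apply, kap_eq (ψ := χ) hP]
  rfl

/-- **The geometric input** modulo surjectivity over `ℂ`, the Eichler–Shimura relation and the
good reduction of `J₀(N)`. -/
theorem heckeGaloisInput_of_surj {p : ℕ} (hp : p.Prime) (S : Set ℕ)
    (hsurj : ∀ m : ℕ, m ≠ 0 → SurjC N m)
    (hIn : ∀ (m : ℕ) (q : ℕ), q.Prime → ¬ q ∣ N → q ≠ p →
      ∀ A : ValuationSubring (AlgebraicClosure ℚ), A.LiesOverPrime q →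
      ∀ τ ∈ A.inertiaSubgroupIn ℚ, ∀ x : JZero N, (p ^ m) • x = 0 → τ • x = x)
    (hES : ∀ (m : ℕ) (ℓ : ℕ) (hℓ : ℓ.Prime), ¬ ℓ ∣ N → ℓ ≠ p →
      ∀ A : ValuationSubring (AlgebraicClosure ℚ), A.LiesOverPrime ℓ →
      ∀ φ : Γℚ, A.IsFrobeniusAt φ ℓ → ∀ x : JZero N, (p ^ m) • x = 0 →
        φ • φ • x - heckeOperatorBar N ⟨ℓ, hℓ⟩ (φ • x) + ℓ • x = 0) :
    HeckeGaloisInput p N S := by
  intro n
  obtain ⟨m, -, hm⟩ := H22.exists_transport (N := N) S hp n
  have hpm : p ^ m ≠ 0 := pow_ne_zero _ hp.ne_zero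
  have : NeZero (p ^ m) := ⟨hpm⟩
  let ζ : ℂˣ := (Complex.isPrimitiveRoot_exp (p ^ m) hpm).isUnit hpm |>.unit
  have hζ : IsPrimitiveRoot ζ (p ^ m) := by
    have := Complex.isPrimitiveRoot_exp (p ^ m) hpm
    exact IsPrimitiveRoot.coe_units_iff.mp this
  refine ⟨torForms N (p ^ m), inferInstance, H22.formsPartActAway N (torAct N (p ^ m)) S,
    formsGal N (p ^ m), m, fun w => ?_, formsGal_finiteLevel N (p ^ m), ?_, ?_, ?_⟩
  · exact Subtype.ext (Subtype.ext (tor_nsmul (w : Tor N (p ^ m))))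
  · refine hm (torAct N (p ^ m)) (zetaHom ζ) (fun k hk => ?_) (kappa N (p ^ m)) kappa_injective
      (fun ℓ w => ?_) (fun ψ hψ => exists_kappa_eq (hsurj _ hpm) hζ hψ)
    · exact (hζ.zpow_eq_one_iff_dvd k).mp (Additive.ofMul.injective hk)
    · rw [torAct_heckeGen, kappa_heckeTor]
  · intro q hq hqN hqp A hA τ hτ
    refine LinearMap.ext fun w => Subtype.ext (Subtype.ext ?_)
    rw [coe_formsGal]
    exact hIn m q hq hqN hqp A hA τ hτ _ (tor_nsmul (w : Tor N (p ^ m)))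
  · intro ℓ hℓ hℓN hℓS hℓp A hA φ hφ w
    refine Subtype.ext (Subtype.ext ?_)
    have h1 := hES m ℓ hℓ hℓN hℓp A hA φ hφ _ (tor_nsmul (w : Tor N (p ^ m)))
    have h2 := H22.formsPartActAway_T (torAct N (p ^ m)) hℓ hℓN hℓS (formsGal N (p ^ m) φ w)
    rw [torAct_heckeGen] at h2
    have h3 := congrArg (fun z : Tor N (p ^ m) => (z : JZero N)) h2
    simp only [Submodule.coe_add, Submodule.coe_sub, AddSubgroup.coe_add, AddSubgroup.coe_sub,
      Submodule.coe_smul, AddSubgroup.coe_nsmul, h3, coe_formsGal]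
    exact h1

end

/-- **ASSEMBLY**: the geometric input modulo surjectivity over `ℂ` (`SurjC`), the Eichler–Shimura
relation and the good reduction of `J₀(N)`. -/
theorem heckeGaloisInput_of {N : ℕ} [NeZero N] {p : ℕ} (hp : p.Prime) (S : Set ℕ)
    (hsurj : ∀ m : ℕ, m ≠ 0 → SurjC N m)
    (hIn : ∀ (m : ℕ) (q : ℕ), q.Prime → ¬ q ∣ N → q ≠ p →
      ∀ A : ValuationSubring (AlgebraicClosure ℚ), A.LiesOverPrime q →
      ∀ τ ∈ A.inertiaSubgroupIn ℚ, ∀ x : JZero N, (p ^ m) • x = 0 → τ • x = x)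
    (hES : ∀ (m : ℕ) (ℓ : ℕ) (hℓ : ℓ.Prime), ¬ ℓ ∣ N → ℓ ≠ p →
      ∀ A : ValuationSubring (AlgebraicClosure ℚ), A.LiesOverPrime ℓ →
      ∀ φ : AlgebraicClosure ℚ ≃ₐ[ℚ] AlgebraicClosure ℚ, A.IsFrobeniusAt φ ℓ →
      ∀ x : JZero N, (p ^ m) • x = 0 →
        φ • φ • x - heckeOperatorBar N ⟨ℓ, hℓ⟩ (φ • x) + ℓ • x = 0) :
    HeckeGaloisInput p N S := by
  letI : Algebra (AlgebraicClosure ℚ) ℂ :=
    (IsAlgClosed.lift : AlgebraicClosure ℚ →ₐ[ℚ] ℂ).toRingHom.toAlgebra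
  exact heckeGaloisInput_of_surj hp S hsurj hIn hES

end Fermat.Agent.H26
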