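import Mathlib
import Fermat.Agent.Descent.Input
import Fermat.Agent.H02_P8

/-!
# Assembly of the geometric input `HeckeGaloisInput`, surjectivity over `ℂ` included
-/

set_option autoImplicit false
set_option maxSynthPendingDepth 3

noncomputable section

namespace Fermat.Agent.H26

open AlgebraicCurve ModularCurve CongruenceSubgroup UpperHalfPlane
open Fermat.Agent.H01 Fermat.Agent.H05
open scoped MatrixGroups

/-- An element with a fixed point on the upper half plane is elliptic or `± 1`. -/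
theorem trace_sq_le_of_fix {γ : SL(2, ℤ)} {τ : ℍ} (h : γ • τ = τ) :
    (γ : Matrix (Fin 2) (Fin 2) ℤ).trace ^ 2 ≤ 4 := by
  have hdet : γ 0 0 * γ 1 1 - γ 0 1 * γ 1 0 = 1 := by
    have := γ.det_coe
    rwa [Matrix.det_fin_two] at this
  have h1 := congrArg (fun z : ℍ => (z : ℂ)) h
  simp only [UpperHalfPlane.coe_specialLinearGroup_apply] at h1
  have hden : ((algebraMap ℤ ℝ (γ 1 0) : ℝ) : ℂ) * (τ : ℂ) + ((algebraMap ℤ ℝ (γ 1 1) : ℝ) : ℂ) ≠ 0 := by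
    have := denom_ne_zero γ τ
    simpa [denom] using this
  rw [div_eq_iff hden] at h1
  have him := congrArg Complex.im h1
  have hre := congrArg Complex.re h1
  simp at him hre
  rw [Matrix.trace_fin_two]
  have hy : 0 < (τ : ℂ).im := τ.im_pos
  set x := τ.re with hx
  set y := τ.im with hy'
  have hy : 0 < y := τ.im_pos
  have e1 : ((γ 0 0 : ℤ) : ℝ) = 2 * (γ 1 0 : ℤ) * x + (γ 1 1 : ℤ) := by
    apply mul_right_cancel₀ hy.ne'
    linear_combination him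
  have e2 : ((γ 0 1 : ℤ) : ℝ) = - (γ 1 0 : ℤ) * (x ^ 2 + y ^ 2) := by
    linear_combination hre - x * e1
  have hdet' : ((γ 0 0 : ℤ) : ℝ) * (γ 1 1 : ℤ) - (γ 0 1 : ℤ) * (γ 1 0 : ℤ) = 1 := by
    exact_mod_cast hdet
  have e3 : (((γ 0 0 + γ 1 1) ^ 2 : ℤ) : ℝ) ≤ ((4 : ℤ) : ℝ) := by
    push_cast
    have h5 : (((γ 0 0 : ℤ) : ℝ) + (γ 1 1 : ℤ)) ^ 2 = 4 - 4 * ((γ 1 0 : ℤ) * y) ^ 2 := by
      rw [e2, e1] at hdet'
      rw [e1]
      linear_combination 4 * hdet'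
    rw [h5]
    nlinarith [sq_nonneg (((γ 1 0 : ℤ) : ℝ) * y)]
  exact_mod_cast e3

theorem surjC (N : ℕ) [NeZero N] {m : ℕ} (hm : m ≠ 0) : SurjC N m := by
  intro ψ hψm hψ
  refine H02.exists_hasRootChar_surj hm ψ hψm (fun γ τ h => hψ γ (trace_sq_le_of_fix h))
    (fun γ σ w h => hψ γ ?_)
  rw [h]
  have h1 : ((σ * ModularGroup.T ^ w * σ⁻¹ : SL(2, ℤ)) : Matrix (Fin 2) (Fin 2) ℤ).trace = 2 := by
    rw [Matrix.SpecialLinearGroup.coe_mul, Matrix.trace_mul_comm,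
      ← Matrix.SpecialLinearGroup.coe_mul, ← mul_assoc, inv_mul_cancel, one_mul,
      ModularGroup.coe_T_zpow, Matrix.trace_fin_two]
    simp
  rw [h1]
  norm_num

/-- **ASSEMBLY**: the geometric input modulo the Eichler–Shimura relation and the good reduction
of `J₀(N)`. -/
theorem heckeGaloisInput {N : ℕ} [NeZero N] {p : ℕ} (hp : p.Prime) (S : Set ℕ)
    (hIn : ∀ (m : ℕ) (q : ℕ), q.Prime → ¬ q ∣ N → q ≠ p →
      ∀ A : ValuationSubring (AlgebraicClosure ℚ), A.LiesOverPrime q →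
      ∀ τ ∈ A.inertiaSubgroupIn ℚ, ∀ x : JZero N, (p ^ m) • x = 0 → τ • x = x)
    (hES : ∀ (m : ℕ) (ℓ : ℕ) (hℓ : ℓ.Prime), ¬ ℓ ∣ N → ℓ ≠ p →
      ∀ A : ValuationSubring (AlgebraicClosure ℚ), A.LiesOverPrime ℓ →
      ∀ φ : AlgebraicClosure ℚ ≃ₐ[ℚ] AlgebraicClosure ℚ, A.IsFrobeniusAt φ ℓ →
      ∀ x : JZero N, (p ^ m) • x = 0 →
        φ • φ • x - heckeOperatorBar N ⟨ℓ, hℓ⟩ (φ • x) + ℓ • x = 0) :
    HeckeGaloisInput p N S :=
  heckeGaloisInput_of hp S (fun _ hm => surjC N hm) hIn hES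

end Fermat.Agent.H26
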