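import Mathlib
import Fermat.Agent.Descent.Input2
import Fermat.Agent.H05.HeckeComm
import Fermat.Agent.Q.Galois

/-!
# Transfer of the geometric inputs from level `N r` to level `N`
-/

set_option autoImplicit false
set_option maxSynthPendingDepth 3

noncomputable section

namespace Fermat.Agent.H26

open AlgebraicCurve ModularCurve
open Fermat.Agent.H05

local notation "Qb" => AlgebraicClosure ℚ
local notation "Γℚ" => AlgebraicClosure ℚ ≃ₐ[ℚ] AlgebraicClosure ℚ

section Generic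

variable {K F F' : Type*} [Field K] [Field F] [Field F'] [Algebra K F] [Algebra K F']

theorem kum_nsmul {m : ℕ} {x : Pic0 K F} {f : F} (h : Kum m x f) (n : ℕ) :
    Kum m (n • x) (f ^ n) := by
  induction n with
  | zero =>
    rw [zero_smul, pow_zero]
    exact kum_zero_one m
  | succ n ih =>
    rw [succ_nsmul, pow_succ]
    exact ih.mul h

theorem kum_sub {m : ℕ} {x y : Pic0 K F} {f g : F} (h : Kum m x f) (h' : Kum m y g) :
    Kum m (x - y) (f * g⁻¹) := by
  rw [sub_eq_add_neg]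
  exact h.mul h'.inv

/-- pullback of Kummer functions along an integral embedding. -/
theorem exists_kum_map [HasPrincipalDivisors K F'] {m : ℕ} (hm : m ≠ 0) (φ : F →ₐ[K] F')
    (hφ : φ.toRingHom.IsIntegral) {x : Pic0 K F} {f : F} (h : Kum m x f) :
    ∃ x' : Pic0 K F', Kum m x' (φ f) := by
  refine exists_kum_of_dvd hm ((map_ne_zero_iff _ φ.toRingHom.injective).mpr h.ne_zero) fun w => ?_
  rw [Place.ord_restrictAlong φ hφ]
  exact (h.dvd _).mul_left _

/-- the norm of an element of the base field. -/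
theorem normAlong_map (φ : F →ₐ[K] F') (f : F) : normAlong φ (φ f) = f ^ finrankAlong K φ := by
  letI := algebraAlong φ
  exact Algebra.norm_algebraMap (S := F') f

theorem normAlong_pow (φ : F →ₐ[K] F') (g : F') (n : ℕ) :
    normAlong φ (g ^ n) = normAlong φ g ^ n := by
  letI := algebraAlong φ
  exact map_pow (Algebra.norm F) g n

end Generic

variable (N r : ℕ) [NeZero N] [NeZero r]

/-- injectivity of the (twisted) pull back up to the degree. -/
theorem smul_eq_zero_of_kum_qe (hr : r.Prime) (hrN : ¬ r ∣ N) {m : ℕ} (hm : m ≠ 0) {x : JZero N}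
    {f : modularFunctionFieldBar N} (h : Kum m x f)
    (h0 : Kum m (0 : JZero (N * r)) (heckeBetaBar Qb N r f)) : (r + 1) • x = 0 := by
  obtain ⟨v₀, -⟩ := exists_place_infinity_bc Qb (N * r)
  obtain ⟨g, -, hg⟩ := h0.exists_pow_of_zero (deg_eq_one_bc Qb (N * r) v₀) hm
  have hcop : Nat.Coprime r N := (Nat.Prime.coprime_iff_not_dvd hr).mpr hrN
  have h1 : Q.wBar N r hcop (heckeBetaBar Qb N r f) = heckeAlphaBar Qb N r f := by
    have h2 : Q.wBar N r hcop (heckeAlphaBar Qb N r f) = heckeBetaBar Qb N r f := by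
      apply Subtype.ext
      rw [Q.coe_wBar, coe_heckeBetaBar]
      have h3 : (⟨(heckeAlphaBar Qb N r f : LaurentSeries Qb), Q.mem_full_of_bar
          (heckeAlphaBar Qb N r f).2⟩ : modularFunctionFieldFullC Qb (N * r)) =
          ⟨(f : LaurentSeries Qb), Q.mem_of_mem Qb (f : LaurentSeries Qb)
            (Q.mem_full_of_bar f.2)⟩ :=
        Subtype.ext (by rw [coe_heckeAlphaBar])
      rw [h3]
      exact Q.coe_wQ_of_mem Qb hcop (f : LaurentSeries Qb) (Q.mem_full_of_bar f.2)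
    rw [← h2, Q.wBar_wBar]
  have h2 : heckeAlphaBar Qb N r f = Q.wBar N r hcop g ^ m := by
    rw [← h1, hg, map_pow]
  have h3 : f ^ (r + 1) = normAlong (heckeAlphaBar Qb N r) (Q.wBar N r hcop g) ^ m := by
    rw [← normAlong_pow, ← h2, normAlong_map]
    congr 1
    rw [heckeAlphaBar_eq, finrankAlong_inc_prime Qb hr (dvd_mul_right N r) rfl, if_neg hrN]
  obtain ⟨w₀, -⟩ := exists_place_infinity_bc Qb N
  exact ((kum_nsmul h (r + 1)).eq_zero_iff (deg_eq_one_bc Qb N w₀) hm).mpr ⟨_, h3⟩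

theorem eq_zero_of_kum_qe (hr : r.Prime) (hrN : ¬ r ∣ N) {p k : ℕ} (hp : p.Prime)
    (hpr : ¬ p ∣ r + 1) {x : JZero N} {f : modularFunctionFieldBar N} (h : Kum (p ^ k) x f)
    (h0 : Kum (p ^ k) (0 : JZero (N * r)) (heckeBetaBar Qb N r f)) : x = 0 := by
  have h1 := smul_eq_zero_of_kum_qe N r hr hrN (pow_ne_zero _ hp.ne_zero) h h0
  have h2 := h.nsmul_eq_zero
  have hcop : Nat.Coprime (r + 1) (p ^ k) :=
    Nat.Coprime.pow_right _ ((Nat.Prime.coprime_iff_not_dvd hp).mpr hpr).symm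
  obtain ⟨a, b, hab⟩ : ∃ a b : ℤ, a * (r + 1 : ℕ) + b * (p ^ k : ℕ) = 1 := by
    refine ⟨Nat.gcdA (r + 1) (p ^ k), Nat.gcdB (r + 1) (p ^ k), ?_⟩
    have := Nat.gcd_eq_gcd_ab (r + 1) (p ^ k)
    rw [Nat.Coprime.gcd_eq_one hcop] at this
    rw [mul_comm, mul_comm (Nat.gcdB _ _), ← this]
    rfl
  have h3 : (a * (r + 1 : ℕ) + b * (p ^ k : ℕ)) • x = 0 := by
    rw [add_smul, mul_smul, mul_smul, natCast_zsmul, natCast_zsmul, h1, h2, smul_zero, smul_zero,
      add_zero]
  rwa [hab, one_smul] at h3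

theorem beta_smul (σ : Γℚ) (f : modularFunctionFieldBar N) :
    heckeBetaBar Qb N r (arithmeticGalois (modularFunctionFieldFull N) σ • f) =
      arithmeticGalois (modularFunctionFieldFull (N * r)) σ • heckeBetaBar Qb N r f :=
  (intertwines_beta Qb N r σ f).symm

/-- the norm compatibility. -/
theorem beta_hecke {ℓ : ℕ} [NeZero ℓ] (hr : r.Prime) (hℓ : ℓ.Prime) (hrℓ : r ≠ ℓ)
    (f : modularFunctionFieldBar N) :
    heckeBetaBar Qb N r (normAlong (heckeAlphaBar Qb N ℓ) (heckeBetaBar Qb N ℓ f)) =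
      normAlong (heckeAlphaBar Qb (N * r) ℓ) (heckeBetaBar Qb (N * r) ℓ
        (heckeBetaBar Qb N r f)) := by
  have hu : N * r ∣ N * r * ℓ := dvd_mul_right _ _
  have hv : N * ℓ * r ∣ N * r * ℓ := ⟨1, by ring⟩
  have key := normAlong_baseChange (heckeBetaBar Qb N r) (heckeAlphaBar Qb N ℓ)
    (heckeAlphaBar Qb (N * r) ℓ) (qe Qb r hv)
    (comp_comm Qb (dvd_refl (N * r)) (dvd_mul_right N ℓ) hu hv)
    (finiteAlong_alpha Qb N ℓ) (finiteAlong_alpha Qb (N * r) ℓ)
    (gen_prime Qb hℓ hr hrℓ.symm rfl rfl rfl hu hv)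
    (by
      rw [heckeAlphaBar_eq, heckeAlphaBar_eq,
        finrankAlong_inc_prime Qb hℓ (dvd_mul_right (N * r) ℓ) rfl,
        finrankAlong_inc_prime Qb hℓ (dvd_mul_right N ℓ) rfl]
      have h3 : ℓ ∣ N * r ↔ ℓ ∣ N := by
        constructor
        · intro h
          rcases (Nat.Prime.dvd_mul hℓ).mp h with h | h
          · exact h
          · exact absurd ((Nat.prime_dvd_prime_iff_eq hℓ hr).mp h) hrℓ.symm
        · exact fun h => h.mul_right r
      simp only [h3]) (heckeBetaBar Qb N ℓ f)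
  rw [← key]
  congr 1
  apply Subtype.ext
  rw [coe_qe, coe_heckeBetaBar, coe_heckeBetaBar, coe_heckeBetaBar, qExpand_qExpand,
    qExpand_qExpand]
  exact qExpand_congr (mul_comm _ _) _

/-- Transfer of the triviality of inertia. -/
theorem inertia_transfer (hr : r.Prime) (hrN : ¬ r ∣ N) {p k : ℕ} (hp : p.Prime)
    (hpr : ¬ p ∣ r + 1) {τ : Γℚ}
    (h : ∀ x : JZero (N * r), (p ^ k) • x = 0 → τ • x = x) (x : JZero N)
    (hx : (p ^ k) • x = 0) : τ • x = x := by
  obtain ⟨f, hf⟩ := exists_kum hx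
  obtain ⟨x', hx'⟩ := exists_kum_map (pow_ne_zero k hp.ne_zero) (heckeBetaBar Qb N r)
    (heckeBetaBarIntegral Qb N r) hf
  have h1 := h x' hx'.nsmul_eq_zero
  have h2 := kum_sub (hf.smul (arithmeticGalois (modularFunctionFieldFull N) τ)) hf
  have h3 := kum_sub (hx'.smul (arithmeticGalois (modularFunctionFieldFull (N * r)) τ)) hx'
  have h4 : arithmeticGalois (modularFunctionFieldFull (N * r)) τ • x' - x' = 0 :=
    sub_eq_zero.mpr h1
  rw [h4, ← beta_smul, ← map_inv₀, ← map_mul] at h3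
  exact sub_eq_zero.mp (eq_zero_of_kum_qe N r hr hrN hp hpr h2 h3)

/-- Transfer of the Eichler–Shimura relation. -/
theorem es_transfer (hr : r.Prime) (hrN : ¬ r ∣ N) {p k : ℕ} (hp : p.Prime)
    (hpr : ¬ p ∣ r + 1) {φ : Γℚ} {ℓ : ℕ} (hℓ : ℓ.Prime) (hrℓ : r ≠ ℓ)
    (h : ∀ x : JZero (N * r), (p ^ k) • x = 0 →
      φ • φ • x - heckeOperatorBar (N * r) ⟨ℓ, hℓ⟩ (φ • x) + ℓ • x = 0) (x : JZero N)
    (hx : (p ^ k) • x = 0) :
    φ • φ • x - heckeOperatorBar N ⟨ℓ, hℓ⟩ (φ • x) + ℓ • x = 0 := by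
  haveI : NeZero ℓ := ⟨hℓ.ne_zero⟩
  obtain ⟨f, hf⟩ := exists_kum hx
  obtain ⟨x', hx'⟩ := exists_kum_map (pow_ne_zero k hp.ne_zero) (heckeBetaBar Qb N r)
    (heckeBetaBarIntegral Qb N r) hf
  have h1 := h x' hx'.nsmul_eq_zero
  have key : ∀ (M : ℕ) [NeZero M] (y : JZero M) (g : modularFunctionFieldBar M),
      Kum (p ^ k) y g → Kum (p ^ k) (φ • φ • y - heckeOperatorBar M ⟨ℓ, hℓ⟩ (φ • y) + ℓ • y)
        (arithmeticGalois (modularFunctionFieldFull M) φ •
          arithmeticGalois (modularFunctionFieldFull M) φ • g *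
          (normAlong (heckeAlphaBar Qb M ℓ) (heckeBetaBar Qb M ℓ
            (arithmeticGalois (modularFunctionFieldFull M) φ • g)))⁻¹ * g ^ ℓ) := by
    intro M _ y g hg
    have hg1 := hg.smul (arithmeticGalois (modularFunctionFieldFull M) φ)
    have hg2 := hg1.smul (arithmeticGalois (modularFunctionFieldFull M) φ)
    exact (kum_sub hg2 (hg1.heckeOperatorAlong Qb)).mul (kum_nsmul hg ℓ)
  have h2 := key N x f hf
  have h3 := key (N * r) x' _ hx'
  rw [h1, ← beta_smul, ← beta_smul, ← beta_hecke N r hr hℓ hrℓ, ← map_inv₀, ← map_pow, ← map_mul,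
    ← map_mul] at h3
  exact eq_zero_of_kum_qe N r hr hrN hp hpr h2 h3

end Fermat.Agent.H26
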