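import Mathlib
import Fermat.Agent.Descent.Transfer

/-!
# The geometric input from levels divisible by `2` or `3`
-/

set_option autoImplicit false

noncomputable section

namespace Fermat.Agent.H26

open AlgebraicCurve ModularCurve
open Fermat.Agent.H05

/-- the levels for which good reduction is used. -/
def Hyp (M ℓ : ℕ) : Prop := ¬ ℓ ∣ M ∧ ((2 ∣ M ∧ ℓ ≠ 2) ∨ (3 ∣ M ∧ ℓ ≠ 3))

/-- choice of the auxiliary prime. -/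
theorem exists_aux {N ℓ p : ℕ} (hℓ : ℓ.Prime) (hℓN : ¬ ℓ ∣ N) (hp : p.Prime) (hℓp : ℓ ≠ p) :
    Hyp N ℓ ∨ ∃ r : ℕ, r.Prime ∧ ¬ r ∣ N ∧ r ≠ ℓ ∧ ¬ p ∣ r + 1 ∧ Hyp (N * r) ℓ := by
  by_cases h2 : 2 ∣ N ∧ ℓ ≠ 2
  · exact Or.inl ⟨hℓN, Or.inl h2⟩
  by_cases h3 : 3 ∣ N ∧ ℓ ≠ 3
  · exact Or.inl ⟨hℓN, Or.inr h3⟩
  right
  have hnd : ∀ r : ℕ, r.Prime → r ≠ ℓ → ¬ ℓ ∣ N * r := by
    intro r hr hrℓ h
    rcases (Nat.Prime.dvd_mul hℓ).mp h with h | h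
    · exact hℓN h
    · exact hrℓ ((Nat.prime_dvd_prime_iff_eq hℓ hr).mp h).symm
  by_cases hc : ℓ ≠ 2 ∧ p ≠ 3
  · refine ⟨2, Nat.prime_two, fun h => h2 ⟨h, hc.1⟩, hc.1.symm, fun h => hc.2 ?_,
      hnd 2 Nat.prime_two hc.1.symm, Or.inl ⟨dvd_mul_left _ _, hc.1⟩⟩
    exact (Nat.prime_dvd_prime_iff_eq hp Nat.prime_three).mp h
  · have hℓ3 : ℓ ≠ 3 := by
      rintro rfl
      exact hc ⟨by norm_num, fun h => hℓp h.symm⟩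
    have hp2 : p ≠ 2 := by
      rintro rfl
      exact hc ⟨hℓp, by norm_num⟩
    refine ⟨3, Nat.prime_three, fun h => h3 ⟨h, hℓ3⟩, hℓ3.symm, fun h => hp2 ?_,
      hnd 3 Nat.prime_three hℓ3.symm, Or.inr ⟨dvd_mul_left _ _, hℓ3⟩⟩
    have h4 : p ∣ 2 * 2 := h
    rcases (Nat.Prime.dvd_mul hp).mp h4 with h | h <;>
      exact (Nat.prime_dvd_prime_iff_eq hp Nat.prime_two).mp h

/-- **The geometric input** from the triviality of inertia and the Eichler–Shimura relation at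
levels `M` with `2 ∣ M`, `ℓ ≠ 2` or `3 ∣ M`, `ℓ ≠ 3`. -/
theorem heckeGaloisInput_of_hyp {N : ℕ} [NeZero N] {p : ℕ} (hp : p.Prime) (S : Set ℕ)
    (hIn : ∀ (M : ℕ) [NeZero M] (m q : ℕ), q.Prime → Hyp M q → q ≠ p →
      ∀ A : ValuationSubring (AlgebraicClosure ℚ), A.LiesOverPrime q →
      ∀ τ ∈ A.inertiaSubgroupIn ℚ, ∀ x : JZero M, (p ^ m) • x = 0 → τ • x = x)
    (hES : ∀ (M : ℕ) [NeZero M] (m ℓ : ℕ) (hℓ : ℓ.Prime), Hyp M ℓ → ℓ ≠ p →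
      ∀ A : ValuationSubring (AlgebraicClosure ℚ), A.LiesOverPrime ℓ →
      ∀ φ : AlgebraicClosure ℚ ≃ₐ[ℚ] AlgebraicClosure ℚ, A.IsFrobeniusAt φ ℓ →
      ∀ x : JZero M, (p ^ m) • x = 0 →
        φ • φ • x - heckeOperatorBar M ⟨ℓ, hℓ⟩ (φ • x) + ℓ • x = 0) :
    HeckeGaloisInput p N S := by
  refine heckeGaloisInput hp S (fun m q hq hqN hqp A hA τ hτ x hx => ?_)
    (fun m ℓ hℓ hℓN hℓp A hA φ hφ x hx => ?_)
  · rcases exists_aux hq hqN hp hqp with h | ⟨r, hr, hrN, hrq, hpr, h⟩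
    · exact hIn N m q hq h hqp A hA τ hτ x hx
    · haveI : NeZero r := ⟨hr.ne_zero⟩
      exact inertia_transfer N r hr hrN hp hpr (hIn (N * r) m q hq h hqp A hA τ hτ) x hx
  · rcases exists_aux hℓ hℓN hp hℓp with h | ⟨r, hr, hrN, hrℓ, hpr, h⟩
    · exact hES N m ℓ hℓ h hℓp A hA φ hφ x hx
    · haveI : NeZero r := ⟨hr.ne_zero⟩
      exact es_transfer N r hr hrN hp hpr hℓ hrℓ (hES (N * r) m ℓ hℓ h hℓp A hA φ hφ) x hx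

end Fermat.Agent.H26
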